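import Fermat.Agent.Lib.CFT.Bridge.Levels
import Fermat.Agent.Lib.CFT.Global.UnramifiedClassical
import Fermat.Agent.Lib.Helper6.FrobeniusExists

/-!
# P4 / C8-UNR: the two notions of "unramified outside `S`" agree for levels

For a level `L` (a finite Galois extension of `ℚ` inside `ℚ̄`):

* `Level.isS_iff_unramifiedOutside : L.IsS S ↔ UnramifiedOutside S ↥L.toIntermediateField`, where
  `L.IsS S` is the Prelude notion (the inertia groups of all valuation subrings of `ℚ̄` above `q ∉ S`
  fix `L`) and `UnramifiedOutside S ↥L` is the semi-local notion of layer C (for `q ∉ S`, `q`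
  generates a radical ideal of the maximal order of `ℚ_q ⊗ L`);
* `Level.isS_of_unramifiedOutside`, `Level.unramifiedOutside_of_isS` : the two directions.

Tools: `integersToValuationSubring`, `primeUnder F A` (the prime of `𝓞 F` below a valuation subring
`A` of `ℚ̄`), `exists_primeUnder_eq` (every nonzero prime arises), `restrictRat` (restriction
`G_ℚ → Gal(F/ℚ)` for the canonical `ℚ`-algebra structure, `restrictRat_surjective`),
`restrictRat_mem_inertia` (inertia of `A` restricts into inertia of `primeUnder F A`) and its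
converse `exists_mem_inertiaSubgroupIn_restrictRat_eq` (every element of the inertia group of
`primeUnder F A` lifts to the inertia group of `A`; via Mathlib's profinite invariant theory applied
to `Gal(ℚ̄/F)` acting on the ring of all algebraic integers),
`mem_decompositionSubgroup_of_smul_primeZbar`, `mem_inertiaSubgroupIn_of_smul_primeZbar`.
-/

set_option autoImplicit false
set_option linter.style.haveILetI false

open scoped Pointwise
open NumberField

namespace Fermat.Agent.CFT

namespace Bridge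

open Global Fermat.Agent.Lib.Helper6

section UnderPrime

variable (F : IntermediateField ℚ Qbar)

/-- The inclusion of the ring of integers of a subfield of `ℚ̄` into a valuation subring. -/
noncomputable def integersToValuationSubring (A : ValuationSubring Qbar) : 𝓞 ↥F →+* ↥A where
  toFun x := ⟨((x : ↥F) : Qbar), integralClosure_le_valuationSubring Qbar A
    ((RingOfIntegers.isIntegral_coe x).map (F.val.restrictScalars ℤ))⟩
  map_one' := Subtype.ext (by simp)
  map_mul' x y := Subtype.ext (by simp)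
  map_zero' := Subtype.ext (by simp)
  map_add' x y := Subtype.ext (by simp)

@[simp] lemma integersToValuationSubring_coe (A : ValuationSubring Qbar) (x : 𝓞 ↥F) :
    ((integersToValuationSubring F A x : ↥A) : Qbar) = ((x : ↥F) : Qbar) := rfl

/-- The prime of `𝓞 F` cut out by a valuation subring of `ℚ̄`. -/
noncomputable def primeUnder (A : ValuationSubring Qbar) : Ideal (𝓞 ↥F) :=
  (IsLocalRing.maximalIdeal ↥A).comap (integersToValuationSubring F A)

instance primeUnder_isPrime (A : ValuationSubring Qbar) : (primeUnder F A).IsPrime := by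
  unfold primeUnder; infer_instance

lemma mem_primeUnder_iff (A : ValuationSubring Qbar) (x : 𝓞 ↥F) :
    x ∈ primeUnder F A ↔ A.valuation ((x : ↥F) : Qbar) < 1 := by
  unfold primeUnder
  rw [Ideal.mem_comap, A.valuation_lt_one_iff]
  rfl

lemma natCast_mem_primeUnder {A : ValuationSubring Qbar} {q : ℕ} (hA : A.LiesOverPrime q) :
    ((q : ℕ) : 𝓞 ↥F) ∈ primeUnder F A := by
  rw [mem_primeUnder_iff]
  have h : ((q : ℕ) : Qbar) ∈ A.nonunits := hA
  rw [A.mem_nonunits_iff] at h
  simpa using h

end UnderPrime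

section Restrict

variable (F : IntermediateField ℚ Qbar)

lemma algebra'_eq_toRatAlgebra :
    (F.algebra' : Algebra ℚ ↥F) = DivisionRing.toRatAlgebra := Subsingleton.elim _ _

/-- A finite-dimensional (for the subalgebra `ℚ`-structure) subfield of `ℚ̄` is a number field. -/
lemma numberField_of_finiteDimensional
    (h : @FiniteDimensional ℚ ↥F _ _ (F.algebra').toModule) : NumberField ↥F :=
  letI : Algebra ℚ ↥F := F.algebra'
  NumberField.of_module_finite ℚ _

lemma isGalois_toRatAlgebra (h : @IsGalois ℚ _ ↥F _ F.algebra') : IsGalois ℚ ↥F := by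
  rw [← algebra'_eq_toRatAlgebra F]
  exact h

/-- Restriction of an automorphism of `ℚ̄` to a normal subfield, as a `ℚ`-algebra automorphism for
the canonical `ℚ`-algebra structure of a field of characteristic zero. -/
noncomputable def restrictRat (h : @Normal ℚ ↥F _ _ F.algebra') (σ : GQ) : ↥F ≃ₐ[ℚ] ↥F :=
  letI : Algebra ℚ ↥F := F.algebra'
  AlgEquiv.ofRingEquiv (f := (AlgEquiv.restrictNormalHom (F := ℚ) (K₁ := Qbar) ↥F σ).toRingEquiv)
    (fun q => by simp)



lemma restrictRat_coe (h : @Normal ℚ ↥F _ _ F.algebra') (σ : GQ) (x : ↥F) :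
    ((restrictRat F h σ x : ↥F) : Qbar) = σ (x : Qbar) := by
  letI : Algebra ℚ ↥F := F.algebra'
  exact AlgEquiv.restrictNormal_commutes σ ↥F x

lemma restrictRat_eq_one_iff (h : @Normal ℚ ↥F _ _ F.algebra') (σ : GQ) :
    restrictRat F h σ = 1 ↔ σ ∈ F.fixingSubgroup := by
  rw [IntermediateField.mem_fixingSubgroup_iff]
  constructor
  · intro h1 x hx
    have := restrictRat_coe F h σ ⟨x, hx⟩
    rw [h1] at this
    exact this.symm
  · intro h1
    ext x
    rw [restrictRat_coe]
    exact h1 x x.2

/-- **Easy half of the inertia comparison.**  An element of the inertia group of a valuation subring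
`A` of `ℚ̄` restricts to an element of the inertia group of the prime of `𝓞 F` below `A`. -/
lemma restrictRat_mem_inertia (h : @Normal ℚ ↥F _ _ F.algebra') (A : ValuationSubring Qbar)
    {σ : GQ} (hσ : σ ∈ A.inertiaSubgroupIn ℚ) :
    restrictRat F h σ ∈ Ideal.inertia (↥F ≃ₐ[ℚ] ↥F) (primeUnder F A) := by
  rw [mem_inertiaSubgroupIn_iff] at hσ
  intro x
  change restrictRat F h σ • x - x ∈ primeUnder F A
  rw [mem_primeUnder_iff]
  have h1 := hσ.2 ((x : ↥F) : Qbar) (integersToValuationSubring F A x).2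
  convert h1 using 2
  push_cast
  rw [← restrictRat_coe F h σ]
  rfl


lemma Level.normal' (L : Level) :
    @Normal ℚ ↥L.toIntermediateField _ _ L.toIntermediateField.algebra' :=
  L.isGalois.to_normal

/-- **C8-UNR, easy direction.**  A level which is unramified outside `S` in the semi-local sense
(`q` generates a radical ideal of the maximal order of `ℚ_q ⊗ L` for `q ∉ S`) is unramified outside
`S` in the sense of inertia groups of valuation subrings of `ℚ̄`. -/
theorem Level.isS_of_unramifiedOutside (S : Finset Nat.Primes) (L : Level)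
    (h : UnramifiedOutside S ↥L.toIntermediateField) : L.IsS S := by
  rw [Level.isS_iff]
  intro q hq A hA σ hσ
  haveI : Fact (q : ℕ).Prime := ⟨q.2⟩
  haveI : NumberField ↥L.toIntermediateField :=
    numberField_of_finiteDimensional _ L.finiteDimensional
  haveI : IsGalois ℚ ↥L.toIntermediateField := isGalois_toRatAlgebra _ L.isGalois
  have h1 := (unramifiedAt_iff_forall_inertia_eq_bot (q := (q : ℕ))
    (F := ↥L.toIntermediateField)).1 (h q hq) (primeUnder L.toIntermediateField A)
    (natCast_mem_primeUnder L.toIntermediateField hA)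
  have h2 := restrictRat_mem_inertia L.toIntermediateField (Level.normal' L) A hσ
  rw [h1, Subgroup.mem_bot, restrictRat_eq_one_iff] at h2
  exact h2

end Restrict

section Lift

/-- The prime of the ring of all algebraic integers cut out by a valuation subring of `ℚ̄`
(helper6's `primeOfValuationSubring`, restated for the canonical Galois action). -/
noncomputable abbrev primeZbar (A : ValuationSubring Qbar) : Ideal ↥(integralClosure ℤ Qbar) :=
  primeOfValuationSubring Qbar A

instance primeZbar_isPrime (A : ValuationSubring Qbar) : (primeZbar A).IsPrime :=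
  primeOfValuationSubring_isPrime Qbar A

lemma mem_primeZbar_iff (A : ValuationSubring Qbar) (b : ↥(integralClosure ℤ Qbar)) :
    b ∈ primeZbar A ↔ A.valuation (b : Qbar) < 1 := by
  rw [← A.mem_nonunits_iff]; rfl

variable {A : ValuationSubring Qbar} {q : ℕ}

/-- Elements of the stabiliser of the prime of `ℤ̄` below `A` send integral units of `A` to units. -/
lemma valuation_apply_eq_one_of_smul_primeZbar (σ : GQ) (hσ : σ • primeZbar A = primeZbar A)
    {s : Qbar} (hs : IsIntegral ℤ s) (hsnon : s ∉ A.nonunits) : A.valuation (σ s) = 1 := by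
  have h1 : A.valuation (σ s) ≤ 1 := (A.valuation_le_one_iff _).mpr
    (integralClosure_le_valuationSubring Qbar A (map_isIntegral_int σ hs))
  refine le_antisymm h1 (not_lt.mp fun hlt => hsnon ?_)
  have hmem : (σ • (⟨s, hs⟩ : ↥(integralClosure ℤ Qbar))) ∈ σ • primeZbar A := by
    rw [hσ, mem_primeZbar_iff]
    exact hlt
  rw [Ideal.smul_mem_pointwise_smul_iff, mem_primeZbar_iff] at hmem
  exact (A.mem_nonunits_iff).mpr hmem

lemma apply_mem_of_smul_primeZbar (hq : q.Prime) (hA : A.LiesOverPrime q) (σ : GQ)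
    (hσ : σ • primeZbar A = primeZbar A) {x : Qbar} (hx : x ∈ A) : σ x ∈ A := by
  have hxalg : IsAlgebraic ℤ x :=
    (IsFractionRing.isAlgebraic_iff ℤ ℚ Qbar).mpr (Algebra.IsAlgebraic.isAlgebraic x)
  obtain ⟨s, hs, hsx, hsA, hsnon⟩ := exists_integral_denominator A hq hA hx hxalg
  have h1 := valuation_apply_eq_one_of_smul_primeZbar σ hσ hs hsnon
  have h2 : A.valuation (σ (s * x)) ≤ 1 := (A.valuation_le_one_iff _).mpr
    (integralClosure_le_valuationSubring Qbar A (map_isIntegral_int σ hsx))
  rw [map_mul, map_mul, h1, one_mul] at h2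
  exact (A.valuation_le_one_iff _).mp h2

/-- The stabiliser of the prime of `ℤ̄` below `A` is contained in the decomposition group of `A`. -/
lemma mem_decompositionSubgroup_of_smul_primeZbar (hq : q.Prime) (hA : A.LiesOverPrime q) (σ : GQ)
    (hσ : σ • primeZbar A = primeZbar A) : σ ∈ A.decompositionSubgroup ℚ := by
  have hσinv : σ⁻¹ • primeZbar A = primeZbar A := by
    conv_lhs => rw [← hσ]
    rw [inv_smul_smul]
  rw [MulAction.mem_stabilizer_iff]
  ext x
  rw [ValuationSubring.mem_pointwise_smul_iff_inv_smul_mem]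
  constructor
  · intro hx
    have := apply_mem_of_smul_primeZbar hq hA σ hσ hx
    simpa using this
  · intro hx
    exact apply_mem_of_smul_primeZbar hq hA σ⁻¹ hσinv hx

/-- An automorphism stabilising the prime of `ℤ̄` below `A` and acting trivially on the residue
ring lies in the inertia group of `A`. -/
lemma mem_inertiaSubgroupIn_of_smul_primeZbar (hq : q.Prime) (hA : A.LiesOverPrime q) (σ : GQ)
    (hσ : σ • primeZbar A = primeZbar A)
    (hσ' : ∀ b : Qbar, IsIntegral ℤ b → A.valuation (σ b - b) < 1) :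
    σ ∈ A.inertiaSubgroupIn ℚ := by
  rw [mem_inertiaSubgroupIn_iff]
  refine ⟨mem_decompositionSubgroup_of_smul_primeZbar hq hA σ hσ, fun x hx => ?_⟩
  have hxalg : IsAlgebraic ℤ x :=
    (IsFractionRing.isAlgebraic_iff ℤ ℚ Qbar).mpr (Algebra.IsAlgebraic.isAlgebraic x)
  obtain ⟨s, hs, hsx, hsA, hsnon⟩ := exists_integral_denominator A hq hA hx hxalg
  have h1 := valuation_apply_eq_one_of_smul_primeZbar σ hσ hs hsnon
  have h2 := hσ' (s * x) hsx
  have h3 := hσ' s hs
  have hid : σ s * (σ x - x) = (σ (s * x) - s * x) - (σ s - s) * x := by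
    rw [map_mul]; ring
  have h4 : A.valuation ((σ s - s) * x) < 1 := by
    rw [map_mul]
    have : A.valuation x ≤ 1 := (A.valuation_le_one_iff _).mpr hx
    calc A.valuation (σ s - s) * A.valuation x ≤ A.valuation (σ s - s) * 1 := by gcongr
      _ < 1 := by rwa [mul_one]
  have h5 := A.valuation.map_sub_lt h2 h4
  rw [← hid, map_mul, h1, one_mul] at h5
  exact h5

end Lift

section Lift2

variable (H : Subgroup GQ)

lemma continuousSMul_GQ_Zbar [TopologicalSpace ↥(integralClosure ℤ Qbar)]
    [DiscreteTopology ↥(integralClosure ℤ Qbar)] :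
    ContinuousSMul GQ ↥(integralClosure ℤ Qbar) := by
  rw [continuousSMul_iff_stabilizer_isOpen]
  intro b
  have := stabilizer_isOpen_of_isIntegral (K := ℚ) (L := Qbar) (b : Qbar)
  convert this using 1
  ext σ
  simp only [SetLike.mem_coe, MulAction.mem_stabilizer_iff, Subtype.ext_iff,
    integralClosure.coe_smul]

instance isInvariant_fixedPoints_subalgebra :
    Algebra.IsInvariant (FixedPoints.subalgebra ℤ ↥(integralClosure ℤ Qbar) H)
      ↥(integralClosure ℤ Qbar) H :=
  ⟨fun b hb => ⟨⟨b, hb⟩, rfl⟩⟩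

lemma compactSpace_of_isClosed (hH : IsClosed (H : Set GQ)) : CompactSpace H :=
  isCompact_iff_compactSpace.mp hH.isCompact

lemma subgroup_smul_ideal (g : H) (I : Ideal ↥(integralClosure ℤ Qbar)) :
    g • I = (g : GQ) • I := rfl

end Lift2

section Lift3

lemma valuation_lt_one_iff_of_sub (A : ValuationSubring Qbar) {x y : Qbar}
    (h : A.valuation (x - y) < 1) : A.valuation y < 1 ↔ A.valuation x < 1 := by
  constructor
  · intro hy
    have := A.valuation.map_add_lt h hy
    simpa using this
  · intro hx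
    have := A.valuation.map_sub_lt hx h
    simpa using this

/-- **Lifting inertia.**  Let `F` be a normal subfield of `ℚ̄`, `A` a valuation subring of `ℚ̄` over
the prime `q` and `σ₀ ∈ G_ℚ` acting trivially on the integers of `F` modulo the maximal ideal of
`A`.  Then there is `σ` in the inertia group of `A` with the same restriction to `F` as `σ₀`. -/
theorem exists_mem_inertiaSubgroupIn_eqOn (F : IntermediateField ℚ Qbar)
    (hF : ∀ (σ : GQ) (x : Qbar), x ∈ F → σ x ∈ F)
    {A : ValuationSubring Qbar} {q : ℕ} (hq : q.Prime) (hA : A.LiesOverPrime q) (σ0 : GQ)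
    (h0 : ∀ y : Qbar, y ∈ F → IsIntegral ℤ y → A.valuation (σ0 y - y) < 1) :
    ∃ σ ∈ A.inertiaSubgroupIn ℚ, ∀ x ∈ F, σ x = σ0 x := by
  classical
  letI : TopologicalSpace ↥(integralClosure ℤ Qbar) := ⊥
  haveI : DiscreteTopology ↥(integralClosure ℤ Qbar) := ⟨rfl⟩
  haveI := continuousSMul_GQ_Zbar
  haveI : CompactSpace F.fixingSubgroup :=
    compactSpace_of_isClosed _ (InfiniteGalois.fixingSubgroup_isClosed F)
  haveI : SMulCommClass ↥F.fixingSubgroup
      ↥(FixedPoints.subalgebra ℤ ↥(integralClosure ℤ Qbar) ↥F.fixingSubgroup)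
      ↥(integralClosure ℤ Qbar) :=
    instSMulCommClassSubtypeMemSubalgebraSubalgebra ℤ ↥(integralClosure ℤ Qbar) ↥F.fixingSubgroup
  -- elements of the fixed ring lie in `F`
  have hA0 : ∀ a : FixedPoints.subalgebra ℤ ↥(integralClosure ℤ Qbar) F.fixingSubgroup,
      ((a : ↥(integralClosure ℤ Qbar)) : Qbar) ∈ F := by
    intro a
    have : ((a : ↥(integralClosure ℤ Qbar)) : Qbar) ∈
        IntermediateField.fixedField F.fixingSubgroup := by
      rw [IntermediateField.mem_fixedField_iff]
      intro f hf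
      exact congrArg Subtype.val (a.2 ⟨f, hf⟩)
    rwa [InfiniteGalois.fixedField_fixingSubgroup] at this
  -- step 1: `σ0 • Q` and `Q` have the same contraction
  have hunder : (σ0 • primeZbar A).under
      (FixedPoints.subalgebra ℤ ↥(integralClosure ℤ Qbar) F.fixingSubgroup) =
      (primeZbar A).under
      (FixedPoints.subalgebra ℤ ↥(integralClosure ℤ Qbar) F.fixingSubgroup) := by
    ext a
    rw [Ideal.under_def, Ideal.mem_comap, Ideal.mem_comap,
      Ideal.mem_pointwise_smul_iff_inv_smul_mem, mem_primeZbar_iff, mem_primeZbar_iff]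
    have hyF : σ0⁻¹ ((a : ↥(integralClosure ℤ Qbar)) : Qbar) ∈ F := hF σ0⁻¹ _ (hA0 a)
    have hyint : IsIntegral ℤ (σ0⁻¹ ((a : ↥(integralClosure ℤ Qbar)) : Qbar)) :=
      map_isIntegral_int σ0⁻¹ (a : ↥(integralClosure ℤ Qbar)).2
    have h1 := h0 _ hyF hyint
    have h2 : σ0 (σ0⁻¹ ((a : ↥(integralClosure ℤ Qbar)) : Qbar)) =
        ((a : ↥(integralClosure ℤ Qbar)) : Qbar) := by
      change (σ0 * σ0⁻¹) _ = _
      rw [mul_inv_cancel]; rfl
    rw [h2] at h1
    exact valuation_lt_one_iff_of_sub A h1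
  -- step 2: move `σ0 • Q` back to `Q` by an element of `Gal(ℚ̄/F)`
  obtain ⟨ρ, hρ⟩ := Algebra.IsInvariant.exists_smul_of_under_eq_of_profinite
    (A := FixedPoints.subalgebra ℤ ↥(integralClosure ℤ Qbar) F.fixingSubgroup)
    (B := ↥(integralClosure ℤ Qbar)) (G := F.fixingSubgroup) (σ0 • primeZbar A) (primeZbar A) hunder
  have hσ1 : ((ρ : GQ) * σ0) • primeZbar A = primeZbar A := by
    rw [mul_smul]; exact hρ.symm
  -- elements of `F` are moved by `ρ * σ0` as by `σ0`
  have hσ1F : ∀ x ∈ F, ((ρ : GQ) * σ0) x = σ0 x := by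
    intro x hx
    change (ρ : GQ) (σ0 x) = σ0 x
    exact (IntermediateField.mem_fixingSubgroup_iff F _).1 ρ.2 _ (hF σ0 x hx)
  -- step 3: the automorphism of the residue ring induced by `ρ * σ0` is linear over the fixed ring
  let e0 := Ideal.Quotient.stabilizerHom (primeZbar A) ((primeZbar A).under ℤ) GQ
    ⟨(ρ : GQ) * σ0, hσ1⟩
  let e : (↥(integralClosure ℤ Qbar) ⧸ primeZbar A) ≃ₐ[
      FixedPoints.subalgebra ℤ ↥(integralClosure ℤ Qbar) F.fixingSubgroup ⧸
        (primeZbar A).under (FixedPoints.subalgebra ℤ ↥(integralClosure ℤ Qbar) F.fixingSubgroup)]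
      (↥(integralClosure ℤ Qbar) ⧸ primeZbar A) :=
    AlgEquiv.ofRingEquiv (f := e0.toRingEquiv) (by
      intro r
      obtain ⟨a, rfl⟩ := Ideal.Quotient.mk_surjective r
      rw [Ideal.Quotient.algebraMap_mk_of_liesOver]
      change e0 (Ideal.Quotient.mk _ _) = _
      rw [Ideal.Quotient.stabilizerHom_apply, Ideal.Quotient.eq, mem_primeZbar_iff]
      have h3 := h0 _ (hA0 a) (a : ↥(integralClosure ℤ Qbar)).2
      rw [← hσ1F _ (hA0 a)] at h3
      exact h3)
  obtain ⟨⟨ρ', hρ'⟩, he⟩ := Ideal.Quotient.stabilizerHom_surjective_of_profinite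
    (G := F.fixingSubgroup)
    ((primeZbar A).under (FixedPoints.subalgebra ℤ ↥(integralClosure ℤ Qbar) F.fixingSubgroup))
    (primeZbar A) e
  have hρ'Q : (ρ' : GQ) • primeZbar A = primeZbar A := hρ'
  have hρ'invQ : (ρ' : GQ)⁻¹ • primeZbar A = primeZbar A := by
    conv_lhs => rw [← hρ'Q]
    rw [inv_smul_smul]
  -- `ρ'` and `ρ * σ0` agree on the residue ring
  have hres : ∀ b : ↥(integralClosure ℤ Qbar),
      ((ρ : GQ) * σ0) • b - (ρ' : GQ) • b ∈ primeZbar A := by
    intro b
    have h4 := congrArg (fun f => f (Ideal.Quotient.mk (primeZbar A) b)) he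
    simp only [Ideal.Quotient.stabilizerHom_apply] at h4
    have h5 : e (Ideal.Quotient.mk (primeZbar A) b) =
        Ideal.Quotient.mk (primeZbar A) (((ρ : GQ) * σ0) • b) := rfl
    rw [h5] at h4
    exact Ideal.Quotient.eq.mp h4.symm
  refine ⟨(ρ' : GQ)⁻¹ * ((ρ : GQ) * σ0), ?_, ?_⟩
  · apply mem_inertiaSubgroupIn_of_smul_primeZbar hq hA
    · rw [mul_smul, hσ1, hρ'invQ]
    · intro b hb
      have h6 := hres ⟨b, hb⟩
      rw [← Ideal.smul_mem_pointwise_smul_iff (a := (ρ' : GQ)⁻¹), hρ'invQ, mem_primeZbar_iff] at h6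
      convert h6 using 2
      simp only [smul_sub, inv_smul_smul]
      rfl
  · intro x hx
    change (ρ' : GQ)⁻¹ (((ρ : GQ) * σ0) x) = σ0 x
    rw [hσ1F x hx]
    have h7 : (ρ' : GQ)⁻¹ ∈ F.fixingSubgroup := inv_mem ρ'.2
    exact (IntermediateField.mem_fixingSubgroup_iff F _).1 h7 _ (hF σ0 x hx)

end Lift3

section Lift4

variable (F : IntermediateField ℚ Qbar)

/-- Every nonzero prime of `𝓞 F` is cut out by a valuation subring of `ℚ̄`. -/
theorem exists_primeUnder_eq [NumberField ↥F] (P : Ideal (𝓞 ↥F)) [P.IsPrime] (hP : P ≠ ⊥) :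
    ∃ A : ValuationSubring Qbar, primeUnder F A = P := by
  let f : 𝓞 ↥F →+* Qbar := (algebraMap ↥F Qbar).comp (algebraMap (𝓞 ↥F) ↥F)
  have hf : Function.Injective f :=
    (algebraMap ↥F Qbar).injective.comp (RingOfIntegers.coe_injective)
  have hI : P.map f.rangeRestrict ≠ ⊤ := by
    intro htop
    have h1 : (1 : f.range) ∈ P.map f.rangeRestrict := htop ▸ Submodule.mem_top
    rw [Ideal.mem_map_iff_of_surjective _ f.rangeRestrict_surjective] at h1
    obtain ⟨p, hp, hp1⟩ := h1
    have h2 : f p = f 1 := by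
      have := congrArg Subtype.val hp1
      simpa using this
    rw [hf h2] at hp
    exact (Ideal.IsPrime.ne_top inferInstance) ((Ideal.eq_top_iff_one P).2 hp)
  obtain ⟨A, -, hA⟩ := Ideal.image_subset_nonunits_valuationSubring (P.map f.rangeRestrict) hI
  refine ⟨A, ?_⟩
  have hle : P ≤ primeUnder F A := by
    intro x hx
    rw [mem_primeUnder_iff, ← A.mem_nonunits_iff]
    exact hA ⟨f.rangeRestrict x, Ideal.mem_map_of_mem _ hx, rfl⟩
  have hmax : P.IsMaximal := Ideal.IsPrime.isMaximal inferInstance hP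
  exact (hmax.eq_of_le (Ideal.IsPrime.ne_top inferInstance) hle).symm

lemma liesOverPrime_of_natCast_mem_primeUnder {A : ValuationSubring Qbar} {q : ℕ}
    (h : ((q : ℕ) : 𝓞 ↥F) ∈ primeUnder F A) : A.LiesOverPrime q := by
  rw [mem_primeUnder_iff] at h
  change ((q : ℕ) : Qbar) ∈ A.nonunits
  rw [A.mem_nonunits_iff]
  simpa using h

lemma restrictRat_surjective (h : @Normal ℚ ↥F _ _ F.algebra') :
    Function.Surjective (restrictRat F h) := by
  intro τ
  letI : Algebra ℚ ↥F := F.algebra'
  let τ' : ↥F ≃ₐ[ℚ] ↥F := AlgEquiv.ofRingEquiv (f := τ.toRingEquiv) (fun q => by simp)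
  obtain ⟨σ, hσ⟩ := AlgEquiv.restrictNormalHom_surjective (F := ℚ) (K₁ := ↥F) Qbar τ'
  refine ⟨σ, ?_⟩
  ext x
  rw [restrictRat_coe]
  have h1 : (AlgEquiv.restrictNormalHom (F := ℚ) (K₁ := Qbar) ↥F σ) x = τ' x :=
    DFunLike.congr_fun hσ x
  have h2 : τ' x = τ x := rfl
  rw [← h2, ← h1]
  exact (AlgEquiv.restrictNormal_commutes σ ↥F x).symm

end Lift4

section Main

variable (F : IntermediateField ℚ Qbar)

/-- **Surjectivity of inertia.**  For a normal subfield `F` of `ℚ̄` and a valuation subring `A` of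
`ℚ̄` over `q`, every element of the inertia group of the prime of `𝓞 F` below `A` is the restriction
of an element of the inertia group of `A`. -/
theorem exists_mem_inertiaSubgroupIn_restrictRat_eq (h : @Normal ℚ ↥F _ _ F.algebra')
    {A : ValuationSubring Qbar} {q : ℕ} (hq : q.Prime) (hA : A.LiesOverPrime q)
    {τ : ↥F ≃ₐ[ℚ] ↥F} (hτ : τ ∈ Ideal.inertia (↥F ≃ₐ[ℚ] ↥F) (primeUnder F A)) :
    ∃ σ ∈ A.inertiaSubgroupIn ℚ, restrictRat F h σ = τ := by
  obtain ⟨σ0, rfl⟩ := restrictRat_surjective F h τ
  have hF : ∀ (σ : GQ) (x : Qbar), x ∈ F → σ x ∈ F := by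
    intro σ x hx
    have := restrictRat_coe F h σ ⟨x, hx⟩
    rw [← this]
    exact (restrictRat F h σ ⟨x, hx⟩).2
  have h0 : ∀ y : Qbar, y ∈ F → IsIntegral ℤ y → A.valuation (σ0 y - y) < 1 := by
    intro y hy hyint
    have hyint' : IsIntegral ℤ (⟨y, hy⟩ : ↥F) :=
      (isIntegral_algebraMap_iff (algebraMap ↥F Qbar).injective).1 hyint
    obtain ⟨z, rfl⟩ : ∃ z : 𝓞 ↥F, ((z : ↥F) : Qbar) = y := ⟨⟨⟨y, hy⟩, hyint'⟩, rfl⟩
    have h1 := (mem_primeUnder_iff F A _).1 (hτ z)
    convert h1 using 2
    push_cast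
    rw [← restrictRat_coe F h σ0]
    rfl
  obtain ⟨σ, hσ, hσF⟩ := exists_mem_inertiaSubgroupIn_eqOn F hF hq hA σ0 h0
  refine ⟨σ, hσ, ?_⟩
  ext x
  rw [restrictRat_coe, restrictRat_coe]
  exact hσF x x.2

/-- **C8-UNR, hard direction.**  A level which is unramified outside `S` in the sense of inertia
groups of valuation subrings of `ℚ̄` is unramified outside `S` in the semi-local sense. -/
theorem Level.unramifiedOutside_of_isS (S : Finset Nat.Primes) (L : Level) (h : L.IsS S) :
    UnramifiedOutside S ↥L.toIntermediateField := by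
  rw [Level.isS_iff] at h
  intro q hq
  haveI : Fact (q : ℕ).Prime := ⟨q.2⟩
  haveI : NumberField ↥L.toIntermediateField :=
    numberField_of_finiteDimensional _ L.finiteDimensional
  haveI : IsGalois ℚ ↥L.toIntermediateField := isGalois_toRatAlgebra _ L.isGalois
  rw [unramifiedAt_iff_forall_inertia_eq_bot]
  intro P hP hqP
  have hP0 : P ≠ ⊥ := by
    rintro rfl
    rw [Ideal.mem_bot] at hqP
    exact q.2.ne_zero (by exact_mod_cast hqP)
  obtain ⟨A, rfl⟩ := exists_primeUnder_eq L.toIntermediateField P hP0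
  have hA : A.LiesOverPrime (q : ℕ) :=
    liesOverPrime_of_natCast_mem_primeUnder L.toIntermediateField hqP
  rw [Subgroup.eq_bot_iff_forall]
  intro τ hτ
  obtain ⟨σ, hσ, rfl⟩ := exists_mem_inertiaSubgroupIn_restrictRat_eq L.toIntermediateField
    (Level.normal' L) q.2 hA hτ
  rw [restrictRat_eq_one_iff]
  exact h q hq A hA hσ

/-- **C8-UNR.**  For a level, the Prelude notion of "unramified outside `S`" (inertia groups of
valuation subrings of `ℚ̄`) agrees with the semi-local notion of layer C. -/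
theorem Level.isS_iff_unramifiedOutside (S : Finset Nat.Primes) (L : Level) :
    L.IsS S ↔ UnramifiedOutside S ↥L.toIntermediateField :=
  ⟨Level.unramifiedOutside_of_isS S L, Level.isS_of_unramifiedOutside S L⟩

end Main

end Bridge

end Fermat.Agent.CFT
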