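import Fermat.Agent.Lib.CFT.Bridge.LowDegree

/-!
# P4 / E-bridge: the archimedean place is invisible when `2` is invertible

The Prelude's archimedean decomposition group is generated by an involution.  When `2` is a unit
in the coefficient ring, its (level-continuous) `H²` and its abstract `H¹` vanish.
-/

set_option autoImplicit false

open groupCohomology CategoryTheory ExtCitation

namespace Fermat.Agent.CFT

namespace Bridge

noncomputable section

section general

variable {k : Type} [CommRing k] {G : Type} [Group G] (A : Rep k G)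
  (σ : G) (hσ : σ * σ = 1) (hG : ∀ h : G, h = 1 ∨ h = σ)

/-- The averaging cochain of a 2-cochain over the two-element multiset `{1, σ}`. -/
def avg₂ (f : G × G → A) : G → A := fun g => f (g, 1) + f (g, σ)

include hσ hG in
lemma d₁₂_avg₂ (f : G × G → A) (hf : f ∈ cocycles₂ A) :
    (d₁₂ A).hom (avg₂ A σ f) = (2 : k) • f := by
  rw [mem_cocycles₂_iff] at hf
  funext ⟨g, h⟩
  rw [d₁₂_hom_apply]
  simp only [avg₂, Pi.smul_apply]
  have h1 := hf g h 1
  have h2 := hf g h σ
  have key : f (g, h * 1) + f (g, h * σ) = f (g, 1) + f (g, σ) := by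
    rcases hG h with rfl | rfl
    · simp
    · rw [hσ, mul_one, add_comm]
  rw [map_add, two_smul]
  have e1 : A.ρ g (f (h, 1)) = f (g * h, 1) + f (g, h) - f (g, h * 1) :=
    eq_sub_of_add_eq h1.symm
  have e2 : A.ρ g (f (h, σ)) = f (g * h, σ) + f (g, h) - f (g, h * σ) :=
    eq_sub_of_add_eq h2.symm
  rw [e1, e2]
  have key' : f (g, 1) + f (g, σ) - (f (g, h * 1) + f (g, h * σ)) = 0 := by rw [key, sub_self]
  calc f (g * h, 1) + f (g, h) - f (g, h * 1) + (f (g * h, σ) + f (g, h) - f (g, h * σ))
        - (f (g * h, 1) + f (g * h, σ)) + (f (g, 1) + f (g, σ))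
      = f (g, h) + f (g, h) + (f (g, 1) + f (g, σ) - (f (g, h * 1) + f (g, h * σ))) := by abel
    _ = f (g, h) + f (g, h) := by rw [key', add_zero]

include hσ hG in
/-- A 1-cocycle of a group of order `≤ 2` is, up to the factor `2`, a coboundary. -/
lemma two_smul_cocycle₁ (c : G → A) (hc : c ∈ cocycles₁ A) :
    (2 : k) • c = (d₀₁ A).hom (-(c 1 + c σ)) := by
  rw [mem_cocycles₁_iff] at hc
  funext g
  rw [d₀₁_hom_apply]
  simp only [Pi.smul_apply]
  have h1 := hc g 1
  have h2 := hc g σ
  have key : c (g * 1) + c (g * σ) = c 1 + c σ := by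
    rcases hG g with rfl | rfl
    · simp
    · rw [hσ, mul_one, add_comm]
  rw [h1, h2] at key
  rw [map_neg, map_add, two_smul]
  have : c g + c g = c 1 + c σ - (A.ρ g (c 1) + A.ρ g (c σ)) := by
    rw [← key]; abel
  rw [this]; abel

end general

section arch

variable {k : Type} [CommRing k]

lemma archimedeanGen_mul_self : archimedeanGen * archimedeanGen = 1 :=
  Subtype.ext complexConjugation_mul_self

lemma archimedean_eq_one_or (h : archimedeanDecomposition) : h = 1 ∨ h = archimedeanGen := by
  obtain ⟨h, n, rfl⟩ := h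
  rcases Int.even_or_odd n with ⟨m, rfl⟩ | ⟨m, rfl⟩
  · left
    apply Subtype.ext
    change complexConjugation ^ (m + m) = 1
    rw [← two_mul, zpow_mul, zpow_ofNat, complexConjugation_sq, one_zpow]
  · right
    apply Subtype.ext
    change complexConjugation ^ (2 * m + 1) = complexConjugation
    rw [zpow_add, zpow_mul, zpow_ofNat, complexConjugation_sq, one_zpow, one_mul, zpow_one]

/-- The level-continuous `H²` of the archimedean decomposition group vanishes when `2` is a unit. -/
theorem continuousH2_archimedean_eq_zero (h2 : IsUnit (2 : k)) (A : Rep k archimedeanDecomposition)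
    (x : continuousH2 archimedeanLoc A) : x = 0 := by
  obtain ⟨⟨f, hfc, F, hF, hconst⟩, rfl⟩ := Submodule.Quotient.mk_surjective _ x
  obtain ⟨u, hu⟩ := h2
  change continuousH2π archimedeanLoc A ⟨f, hfc, F, hF, hconst⟩ = 0
  rw [continuousH2π_eq_zero_iff, mem_levelCoboundaries₂_iff]
  refine ⟨(↑u⁻¹ : k) • avg₂ A archimedeanGen f, ⟨F, hF, fun g s hs => ?_⟩, ?_⟩
  · simp only [Pi.smul_apply, avg₂]
    have e1 := hconst g 1 s 1 hs (by rw [map_one]; exact Subgroup.one_mem _)
    have e2 := hconst g archimedeanGen s 1 hs (by rw [map_one]; exact Subgroup.one_mem _)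
    rw [mul_one] at e1 e2
    rw [e1, e2]
  · rw [map_smul, d₁₂_avg₂ A archimedeanGen archimedeanGen_mul_self archimedean_eq_one_or f hfc,
      smul_smul, ← hu, Units.inv_mul, one_smul]

/-- The abstract `H¹` of the archimedean decomposition group vanishes when `2` is a unit. -/
theorem H1_archimedean_eq_zero (h2 : IsUnit (2 : k)) (A : Rep k archimedeanDecomposition)
    (x : H1 A) : x = 0 := by
  obtain ⟨c, rfl⟩ := H1π_surjective A x
  obtain ⟨u, hu⟩ := h2
  rw [H1π_eq_zero_iff]
  have h := two_smul_cocycle₁ A archimedeanGen archimedeanGen_mul_self archimedean_eq_one_or c c.2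
  refine ⟨(↑u⁻¹ : k) • (-((c : archimedeanDecomposition → A) 1
    + (c : archimedeanDecomposition → A) archimedeanGen)), ?_⟩
  rw [map_smul, ← h, smul_smul, ← hu, Units.inv_mul, one_smul]

end arch

end

end Bridge

end Fermat.Agent.CFT
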