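/-
P4 / C8-TOW (1): the field of a level, with its Galois action.

For a level `L` (finite Galois subextension of `ℚ̄ / ℚ`):
* `L.field` : the field, a number field; `Level.incl h : L.field →+* L'.field` for `L ≤ L'`;
* `MulSemiringAction L.G L.field` with `(L.proj σ • x : ℚ̄) = σ x`, and `IsGaloisGroup L.G ℚ L.field`;
* `Level.incl h (Level.map h g • x) = g • Level.incl h x`;
* `Level.relGroup h := ker (L'.G → L.G)` is a Galois group for `L'.field / L.field`.
-/
import Fermat.Agent.Lib.CFT.Bridge.UnramifiedLevel
import Fermat.Agent.Lib.CFT.Duality.LevelTower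

set_option autoImplicit false
set_option linter.style.haveILetI false
set_option linter.unusedSectionVars false

namespace Fermat.Agent.CFT

noncomputable section

open Bridge

namespace Level

/-- The field of a level. -/
abbrev field (L : Level) : Type := ↥L.toIntermediateField

instance numberField_field (L : Level) : NumberField L.field :=
  numberField_of_finiteDimensional _ L.finiteDimensional

instance isGalois_field (L : Level) : IsGalois ℚ L.field :=
  isGalois_toRatAlgebra _ L.isGalois

/-- Restriction `G_ℚ → Gal(L/ℚ)` as a group homomorphism. -/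
def restrictHom (L : Level) : GQ →* (L.field ≃ₐ[ℚ] L.field) where
  toFun σ := restrictRat L.toIntermediateField (Level.normal' L) σ
  map_one' := by
    ext x
    rw [restrictRat_coe]
    rfl
  map_mul' σ τ := by
    ext x
    have h1 : ((restrictRat L.toIntermediateField (Level.normal' L) σ *
        restrictRat L.toIntermediateField (Level.normal' L) τ) x) =
        restrictRat L.toIntermediateField (Level.normal' L) σ
          (restrictRat L.toIntermediateField (Level.normal' L) τ x) := rfl
    rw [h1, restrictRat_coe, restrictRat_coe, restrictRat_coe]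
    rfl

lemma restrictHom_coe (L : Level) (σ : GQ) (x : L.field) :
    ((L.restrictHom σ x : L.field) : Qbar) = σ (x : Qbar) :=
  restrictRat_coe _ _ σ x

lemma restrictHom_eq_one_iff (L : Level) (σ : GQ) : L.restrictHom σ = 1 ↔ σ ∈ L.N :=
  restrictRat_eq_one_iff _ _ σ

lemma restrictHom_surjective (L : Level) : Function.Surjective L.restrictHom :=
  restrictRat_surjective _ _

/-- `L.G ≃ Gal(L/ℚ)`. -/
def toAut (L : Level) : L.G →* (L.field ≃ₐ[ℚ] L.field) :=
  QuotientGroup.lift L.N L.restrictHom (fun σ hσ => (L.restrictHom_eq_one_iff σ).2 hσ)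

@[simp] lemma toAut_proj (L : Level) (σ : GQ) : L.toAut (L.proj σ) = L.restrictHom σ := rfl

lemma toAut_injective (L : Level) : Function.Injective L.toAut := by
  rw [injective_iff_map_eq_one]
  intro g hg
  obtain ⟨σ, rfl⟩ := L.proj_surjective g
  rw [toAut_proj, restrictHom_eq_one_iff] at hg
  exact (QuotientGroup.eq_one_iff σ).2 hg

lemma toAut_surjective (L : Level) : Function.Surjective L.toAut := by
  intro τ
  obtain ⟨σ, rfl⟩ := L.restrictHom_surjective τ
  exact ⟨L.proj σ, rfl⟩

/-- `L.G ≃* Gal(L/ℚ)`. -/
def autEquiv (L : Level) : L.G ≃* (L.field ≃ₐ[ℚ] L.field) :=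
  MulEquiv.ofBijective L.toAut ⟨L.toAut_injective, L.toAut_surjective⟩

/-- The Galois action of `L.G` on the field of the level `L`. -/
instance mulSemiringAction_field (L : Level) : MulSemiringAction L.G L.field :=
  MulSemiringAction.compHom L.field L.toAut

lemma smul_field_def (L : Level) (g : L.G) (x : L.field) : g • x = L.toAut g x := rfl

@[simp] lemma coe_proj_smul (L : Level) (σ : GQ) (x : L.field) :
    ((L.proj σ • x : L.field) : Qbar) = σ (x : Qbar) :=
  L.restrictHom_coe σ x

instance isGaloisGroup_field (L : Level) : IsGaloisGroup L.G ℚ L.field :=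
  IsGaloisGroup.of_mulEquiv (G := L.field ≃ₐ[ℚ] L.field) L.autEquiv (fun _ _ => rfl)

instance faithfulSMul_field (L : Level) : FaithfulSMul L.G L.field :=
  (isGaloisGroup_field L).faithful

/-- The inclusion of the fields of two levels. -/
def incl {L L' : Level} (h : L ≤ L') : L.field →+* L'.field :=
  (IntermediateField.inclusion (E := L.toIntermediateField) (F := L'.toIntermediateField)
    h).toRingHom

@[simp] lemma coe_incl {L L' : Level} (h : L ≤ L') (x : L.field) :
    ((incl h x : L'.field) : Qbar) = (x : Qbar) := rfl

lemma incl_injective {L L' : Level} (h : L ≤ L') : Function.Injective (incl h) :=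
  (incl h).injective

lemma incl_refl (L : Level) : incl (le_refl L) = RingHom.id L.field := by
  ext x
  rfl

lemma incl_comp {L L' L'' : Level} (h : L ≤ L') (h' : L' ≤ L'') :
    (incl h').comp (incl h) = incl (h.trans h') := by
  ext x
  rfl

/-- Equivariance of the inclusion. -/
lemma incl_map_smul {L L' : Level} (h : L ≤ L') (g : L'.G) (x : L.field) :
    incl h (Level.map h g • x) = g • incl h x := by
  obtain ⟨σ, rfl⟩ := L'.proj_surjective g
  apply Subtype.ext
  rw [Level.map_proj, coe_incl, coe_proj_smul, coe_proj_smul, coe_incl]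

lemma incl_comp_toRingHom {L L' : Level} (h : L ≤ L') (g : L'.G) :
    (incl h).comp (MulSemiringAction.toRingHom L.G L.field (Level.map h g)) =
      (MulSemiringAction.toRingHom L'.G L'.field g).comp (incl h) := by
  ext x
  exact congrArg Subtype.val (incl_map_smul h g x)

/-- An element of the upper field fixed by `ker (L'.G → L.G)` lies in the lower field. -/
lemma exists_incl_eq_of_forall_smul_eq {L L' : Level} (h : L ≤ L') (y : L'.field)
    (hy : ∀ g : L'.G, Level.map h g = 1 → g • y = y) : ∃ x : L.field, incl h x = y := by
  have h1 : (y : Qbar) ∈ IntermediateField.fixedField L.toIntermediateField.fixingSubgroup := by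
    rw [IntermediateField.mem_fixedField_iff]
    intro σ hσ
    have h2 : Level.map h (L'.proj σ) = 1 := by
      rw [Level.map_proj]
      exact (QuotientGroup.eq_one_iff σ).2 hσ
    have h3 := congrArg Subtype.val (hy _ h2)
    rw [coe_proj_smul] at h3
    exact h3
  rw [InfiniteGalois.fixedField_fixingSubgroup] at h1
  exact ⟨⟨(y : Qbar), h1⟩, Subtype.ext rfl⟩

/-- The algebra structure of the field of a larger level over the field of a smaller one
(NOT an instance: use `letI := Level.algebraOfLE h`). -/
abbrev algebraOfLE {L L' : Level} (h : L ≤ L') : Algebra L.field L'.field := (incl h).toAlgebra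

/-- The relative Galois group `Gal(L'/L)` as a subgroup of `L'.G`. -/
abbrev relGroup {L L' : Level} (h : L ≤ L') : Subgroup L'.G := (Level.map h).ker

lemma relGroup_smul_incl {L L' : Level} (h : L ≤ L') (k : relGroup h) (x : L.field) :
    k • incl h x = incl h x := by
  have h1 := incl_map_smul h (k : L'.G) x
  rw [(MonoidHom.mem_ker).1 k.2, one_smul] at h1
  exact h1.symm

/-- `ker (L'.G → L.G)` is a Galois group for `L'.field / L.field`. -/
theorem isGaloisGroup_relGroup {L L' : Level} (h : L ≤ L') :
    letI := algebraOfLE h
    IsGaloisGroup (relGroup h) L.field L'.field := by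
  letI := algebraOfLE h
  refine ⟨⟨fun {k k'} hk => ?_⟩, ⟨fun k a y => ?_⟩, ⟨fun y hy => ?_⟩⟩
  · apply Subtype.ext
    apply (faithfulSMul_field L').eq_of_smul_eq_smul
    intro x
    exact hk x
  · change k • (incl h a * y) = incl h a * k • y
    rw [smul_mul', relGroup_smul_incl]
  · exact exists_incl_eq_of_forall_smul_eq h y (fun g hg => hy ⟨g, hg⟩)

end Level

end

end Fermat.Agent.CFT
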