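/-
P4 / C8-TOW (2): the concrete tower modules over the tower of levels.

* `mulTowerModule` : generic constructor (a family of multiplicative `L.G`-modules with equivariant
  transition maps gives a `TowerModule ℤ (levelTower L₀)`);
* `CStow S L₀` (`C_S(L)`), `SLtow q L₀` (`(ℚ_q ⊗ L)ˣ`), `SUtow S L₀` (`S`-units), `mutow p L₀` (`μ_p(L)`);
* the morphisms `eJtow`, `jCtow`, `kappatow`.
-/
import Fermat.Agent.Lib.CFT.Bridge.LevelField
import Fermat.Agent.Lib.CFT.Coh.MulRep
import Fermat.Agent.Lib.CFT.Global.Limits
import Fermat.Agent.Lib.CFT.Global.FirstIneq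
import Fermat.Agent.Lib.CFT.Duality.ExtLim

set_option autoImplicit false
set_option linter.style.haveILetI false
set_option linter.unusedSectionVars false

open CategoryTheory

namespace Fermat.Agent.CFT.Bridge

noncomputable section

open Duality Global

/-! ## The generic constructor -/

section Generic

variable (L₀ : Level) (A : Level → Type) [∀ L, CommGroup (A L)]
  [∀ L : Level, MulDistribMulAction L.G (A L)]
  (f : ∀ {L L' : Level}, L ≤ L' → (A L →* A L'))
  (hf : ∀ {L L' : Level} (h : L ≤ L') (g : L'.G) (a : A L), f h (Level.map h g • a) = g • f h a)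
  (hrefl : ∀ (L : Level) (a : A L), f (le_refl L) a = a)
  (hcomp : ∀ {L L' L'' : Level} (h : L ≤ L') (h' : L' ≤ L'') (a : A L),
    f h' (f h a) = f (h.trans h') a)

/-- A family of multiplicative `L.G`-modules with equivariant transition maps, as a tower module
over the tower of all levels above `L₀`. -/
def mulTowerModule : TowerModule ℤ (levelTower L₀) where
  C L := Rep.ofMulDistribMulAction L.1.G (A L.1)
  φ {i j} h := Coh.mulRepHom (Level.map (L := i.1) (L' := j.1) h) (f h) (hf h)
  φ_refl i x := congrArg Additive.ofMul (hrefl i.1 x.toMul)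
  φ_comp h h' x := congrArg Additive.ofMul (hcomp h h' x.toMul)

lemma mulTowerModule_φ_apply {i j : (levelTower L₀).ι} (h : i ≤ j)
    (x : Additive (A i.1)) :
    ((mulTowerModule L₀ A f hf hrefl hcomp).φ h).hom x = Additive.ofMul (f h x.toMul) := rfl

lemma mulTowerModule_ρ_apply (i : (levelTower L₀).ι) (g : i.1.G) (x : Additive (A i.1)) :
    ((mulTowerModule L₀ A f hf hrefl hcomp).C i).ρ g x = Additive.ofMul (g • x.toMul) := rfl

/-- If all transition maps are bijective, the tower module is cartesian. -/
theorem mulTowerModule_isCartesian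
    (hbij : ∀ {L L' : Level} (h : L ≤ L'), L₀ ≤ L → Function.Bijective (f h)) :
    (mulTowerModule L₀ A f hf hrefl hcomp).IsCartesian where
  isIso {i j} h := by
    let e : A i.1 ≃* A j.1 := MulEquiv.ofBijective (f h) (hbij h i.2)
    have he : ∀ (g : j.1.G) (b : A j.1),
        e.symm.toMonoidHom (g • b) = Level.map (L := i.1) (L' := j.1) h g • e.symm.toMonoidHom b := by
      intro g b
      apply e.injective
      change e (e.symm (g • b)) = f h (Level.map h g • e.symm b)
      rw [hf h, e.apply_symm_apply]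
      change g • b = g • e (e.symm b)
      rw [e.apply_symm_apply]
    refine ⟨Coh.mulRepHomBack (Level.map (L := i.1) (L' := j.1) h) e.symm.toMonoidHom he, ?_, ?_⟩
    · ext x
      exact congrArg Additive.ofMul (e.symm_apply_apply x.toMul)
    · ext x
      exact congrArg Additive.ofMul (e.apply_symm_apply x.toMul)

end Generic

/-! ## Morphisms between multiplicative tower modules -/

section GenericHom

variable (L₀ : Level) {A B : Level → Type} [∀ L, CommGroup (A L)] [∀ L, CommGroup (B L)]
  [∀ L : Level, MulDistribMulAction L.G (A L)] [∀ L : Level, MulDistribMulAction L.G (B L)]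
  {fA : ∀ {L L' : Level}, L ≤ L' → (A L →* A L')}
  (hfA : ∀ {L L' : Level} (h : L ≤ L') (g : L'.G) (a : A L), fA h (Level.map h g • a) = g • fA h a)
  (hreflA : ∀ (L : Level) (a : A L), fA (le_refl L) a = a)
  (hcompA : ∀ {L L' L'' : Level} (h : L ≤ L') (h' : L' ≤ L'') (a : A L),
    fA h' (fA h a) = fA (h.trans h') a)
  {fB : ∀ {L L' : Level}, L ≤ L' → (B L →* B L')}
  (hfB : ∀ {L L' : Level} (h : L ≤ L') (g : L'.G) (a : B L), fB h (Level.map h g • a) = g • fB h a)
  (hreflB : ∀ (L : Level) (a : B L), fB (le_refl L) a = a)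
  (hcompB : ∀ {L L' L'' : Level} (h : L ≤ L') (h' : L' ≤ L'') (a : B L),
    fB h' (fB h a) = fB (h.trans h') a)
  (t : ∀ L : Level, A L →* B L)
  (ht : ∀ (L : Level) (g : L.G) (a : A L), t L (g • a) = g • t L a)
  (hnat : ∀ {L L' : Level} (h : L ≤ L') (a : A L), t L' (fA h a) = fB h (t L a))

/-- A natural family of equivariant homomorphisms, as a morphism of tower modules. -/
def mulTowerHom :
    (mulTowerModule L₀ A fA hfA hreflA hcompA).Hom (mulTowerModule L₀ B fB hfB hreflB hcompB) where
  f i := Coh.mulRepHomId (t i.1) (ht i.1)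
  comm {i j} h := by
    ext x
    exact congrArg Additive.ofMul (hnat h x.toMul)

lemma mulTowerHom_f_apply (i : (levelTower L₀).ι) (x : Additive (A i.1)) :
    ((mulTowerHom L₀ hfA hreflA hcompA hfB hreflB hcompB t ht hnat).f i).hom x =
      Additive.ofMul (t i.1 x.toMul) := rfl

end GenericHom

/-! ## Actions on `S`-units and roots of unity -/

section Actions

variable (S : Finset Nat.Primes) {K L M : Type} [Field K] [NumberField K] [Field L] [NumberField L]
  [Field M] [NumberField M]

/-- Functoriality of the `S`-units. -/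
def SUnits.mapHom (f : K →+* L) : SUnits S K →* SUnits S L :=
  ((Units.map (f : K →* L)).comp (SUnits S K).subtype).codRestrict (SUnits S L)
    (fun y => map_mem_SUnits f y.2)

@[simp] lemma SUnits.coe_mapHom (f : K →+* L) (x : SUnits S K) :
    (((SUnits.mapHom S f x : SUnits S L) : Lˣ) : L) = f ((x : Kˣ) : K) := rfl

lemma SUnits.mapHom_id (x : SUnits S K) : SUnits.mapHom S (RingHom.id K) x = x :=
  Subtype.ext (Units.ext rfl)

lemma SUnits.mapHom_comp (g : L →+* M) (f : K →+* L) (x : SUnits S K) :
    SUnits.mapHom S (g.comp f) x = SUnits.mapHom S g (SUnits.mapHom S f x) :=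
  Subtype.ext (Units.ext rfl)

variable {G : Type} [Group G] [MulSemiringAction G K]

/-- The action of field automorphisms on the `S`-units. -/
instance SUnits.instMulDistribMulAction : MulDistribMulAction G (SUnits S K) where
  smul g x := SUnits.mapHom S (MulSemiringAction.toRingHom G K g) x
  one_smul x := by
    change SUnits.mapHom S (MulSemiringAction.toRingHom G K 1) x = x
    rw [toRingHom_one, SUnits.mapHom_id]
  mul_smul g h x := by
    change SUnits.mapHom S (MulSemiringAction.toRingHom G K (g * h)) x = SUnits.mapHom S _ (SUnits.mapHom S _ x)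
    rw [toRingHom_mul, SUnits.mapHom_comp]
  smul_mul g x y := map_mul _ x y
  smul_one g := map_one _

lemma SUnits.smul_def (g : G) (x : SUnits S K) :
    g • x = SUnits.mapHom S (MulSemiringAction.toRingHom G K g) x := rfl

@[simp] lemma SUnits.coe_smul (g : G) (x : SUnits S K) :
    (((g • x : SUnits S K) : Kˣ) : K) = g • ((x : Kˣ) : K) := rfl

end Actions

section RootsAction

variable (n : ℕ) {K L M : Type} [Field K] [Field L] [Field M]

lemma restrictRootsOfUnity_id (x : rootsOfUnity n K) :
    restrictRootsOfUnity (RingHom.id K) n x = x := Subtype.ext (Units.ext rfl)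

lemma restrictRootsOfUnity_comp (g : L →+* M) (f : K →+* L) (x : rootsOfUnity n K) :
    restrictRootsOfUnity (g.comp f) n x = restrictRootsOfUnity g n (restrictRootsOfUnity f n x) :=
  Subtype.ext (Units.ext rfl)

variable {G : Type} [Group G] [MulSemiringAction G K]

/-- The action of field automorphisms on the roots of unity. -/
instance rootsOfUnity.instMulDistribMulActionField : MulDistribMulAction G (rootsOfUnity n K) where
  smul g x := restrictRootsOfUnity (MulSemiringAction.toRingHom G K g) n x
  one_smul x := by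
    change restrictRootsOfUnity (MulSemiringAction.toRingHom G K 1) n x = x
    rw [toRingHom_one, restrictRootsOfUnity_id]
  mul_smul g h x := by
    change restrictRootsOfUnity (MulSemiringAction.toRingHom G K (g * h)) n x =
      restrictRootsOfUnity _ n (restrictRootsOfUnity _ n x)
    rw [toRingHom_mul, restrictRootsOfUnity_comp]
  smul_mul g x y := map_mul _ x y
  smul_one g := map_one _

lemma rootsOfUnity.smul_def_field (g : G) (x : rootsOfUnity n K) :
    g • x = restrictRootsOfUnity (MulSemiringAction.toRingHom G K g) n x := rfl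

@[simp] lemma rootsOfUnity.coe_smul_field (g : G) (x : rootsOfUnity n K) :
    (((g • x : rootsOfUnity n K) : Kˣ) : K) = g • ((x : Kˣ) : K) := rfl

end RootsAction

/-! ## The concrete tower modules -/

section Concrete

variable (S : Finset Nat.Primes) (L₀ : Level)

lemma CStow_smul {L L' : Level} (h : L ≤ L') (g : L'.G) (a : CS S L.field) :
    CS.map S (Level.incl h) (Level.map h g • a) = g • CS.map S (Level.incl h) a := by
  rw [CS.smul_def, CS.smul_def, ← CS.map_comp, ← CS.map_comp, Level.incl_comp_toRingHom]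

lemma CStow_refl (L : Level) (a : CS S L.field) : CS.map S (Level.incl (le_refl L)) a = a := by
  rw [Level.incl_refl, CS.map_id]

lemma CStow_comp {L L' L'' : Level} (h : L ≤ L') (h' : L' ≤ L'') (a : CS S L.field) :
    CS.map S (Level.incl h') (CS.map S (Level.incl h) a) = CS.map S (Level.incl (h.trans h')) a := by
  rw [← CS.map_comp, Level.incl_comp]

/-- The tower module `L ↦ C_S(L)`. -/
def CStow : TowerModule ℤ (levelTower L₀) :=
  mulTowerModule L₀ (fun L => CS S L.field) (fun h => CS.map S (Level.incl h))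
    (CStow_smul S) (CStow_refl S) (CStow_comp S)

lemma SLtow_smul (q : ℕ) [Fact q.Prime] {L L' : Level} (h : L ≤ L') (g : L'.G)
    (a : (SL q L.field)ˣ) :
    SL.unitsMap q (Level.incl h) (Level.map h g • a) = g • SL.unitsMap q (Level.incl h) a := by
  rw [SL.smul_units_def, SL.smul_units_def, ← SL.unitsMap_comp, ← SL.unitsMap_comp,
    Level.incl_comp_toRingHom]

lemma SLtow_refl (q : ℕ) [Fact q.Prime] (L : Level) (a : (SL q L.field)ˣ) :
    SL.unitsMap q (Level.incl (le_refl L)) a = a := by
  rw [Level.incl_refl, SL.unitsMap_id]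

lemma SLtow_comp (q : ℕ) [Fact q.Prime] {L L' L'' : Level} (h : L ≤ L') (h' : L' ≤ L'')
    (a : (SL q L.field)ˣ) :
    SL.unitsMap q (Level.incl h') (SL.unitsMap q (Level.incl h) a) =
      SL.unitsMap q (Level.incl (h.trans h')) a := by
  rw [← SL.unitsMap_comp, Level.incl_comp]

/-- The tower module `L ↦ (ℚ_q ⊗ L)ˣ`. -/
def SLtow (q : ℕ) [Fact q.Prime] : TowerModule ℤ (levelTower L₀) :=
  mulTowerModule L₀ (fun L => (SL q L.field)ˣ) (fun h => SL.unitsMap q (Level.incl h))
    (SLtow_smul q) (SLtow_refl q) (SLtow_comp q)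

lemma SUtow_smul {L L' : Level} (h : L ≤ L') (g : L'.G) (a : SUnits S L.field) :
    SUnits.mapHom S (Level.incl h) (Level.map h g • a) = g • SUnits.mapHom S (Level.incl h) a := by
  rw [SUnits.smul_def, SUnits.smul_def, ← SUnits.mapHom_comp, ← SUnits.mapHom_comp,
    Level.incl_comp_toRingHom]

lemma SUtow_refl (L : Level) (a : SUnits S L.field) :
    SUnits.mapHom S (Level.incl (le_refl L)) a = a := by
  rw [Level.incl_refl, SUnits.mapHom_id]

lemma SUtow_comp {L L' L'' : Level} (h : L ≤ L') (h' : L' ≤ L'') (a : SUnits S L.field) :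
    SUnits.mapHom S (Level.incl h') (SUnits.mapHom S (Level.incl h) a) =
      SUnits.mapHom S (Level.incl (h.trans h')) a := by
  rw [← SUnits.mapHom_comp, Level.incl_comp]

/-- The tower module `L ↦ O_{L,S}ˣ`. -/
def SUtow : TowerModule ℤ (levelTower L₀) :=
  mulTowerModule L₀ (fun L => SUnits S L.field) (fun h => SUnits.mapHom S (Level.incl h))
    (SUtow_smul S) (SUtow_refl S) (SUtow_comp S)

lemma mutow_smul (n : ℕ) {L L' : Level} (h : L ≤ L') (g : L'.G) (a : rootsOfUnity n L.field) :
    restrictRootsOfUnity (Level.incl h) n (Level.map h g • a) =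
      g • restrictRootsOfUnity (Level.incl h) n a := by
  rw [rootsOfUnity.smul_def_field, rootsOfUnity.smul_def_field, ← restrictRootsOfUnity_comp,
    ← restrictRootsOfUnity_comp, Level.incl_comp_toRingHom]

lemma mutow_refl (n : ℕ) (L : Level) (a : rootsOfUnity n L.field) :
    restrictRootsOfUnity (Level.incl (le_refl L)) n a = a := by
  rw [Level.incl_refl, restrictRootsOfUnity_id]

lemma mutow_comp (n : ℕ) {L L' L'' : Level} (h : L ≤ L') (h' : L' ≤ L'')
    (a : rootsOfUnity n L.field) :
    restrictRootsOfUnity (Level.incl h') n (restrictRootsOfUnity (Level.incl h) n a) =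
      restrictRootsOfUnity (Level.incl (h.trans h')) n a := by
  rw [← restrictRootsOfUnity_comp, Level.incl_comp]

/-- The tower module `L ↦ μ_n(L)`. -/
def mutow (n : ℕ) : TowerModule ℤ (levelTower L₀) :=
  mulTowerModule L₀ (fun L => rootsOfUnity n L.field)
    (fun h => restrictRootsOfUnity (Level.incl h) n)
    (mutow_smul n) (mutow_refl n) (mutow_comp n)

end Concrete

/-! ## The morphisms `E → J_q → C` and `μ → E` -/

section Maps

variable {K L : Type} [Field K] [NumberField K] [Field L] [NumberField L]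

lemma FinIdele.map_single (f : K →+* L) (q : Nat.Primes) (u : (SL (q : ℕ) K)ˣ) :
    FinIdele.map f (FinIdele.single q u) = FinIdele.single q (SL.unitsMap (q : ℕ) f u) := by
  ext r
  rw [FinIdele.comp_map]
  by_cases h : r = q
  · subst h
    rw [FinIdele.comp_single_same, FinIdele.comp_single_same]
  · rw [FinIdele.comp_single_of_ne h, FinIdele.comp_single_of_ne h, map_one]

variable (S : Finset Nat.Primes) (L₀ : Level)

/-- `O_{L,S}ˣ → (ℚ_q ⊗ L)ˣ`. -/
def eJtow (q : ℕ) [Fact q.Prime] : (SUtow S L₀).Hom (SLtow L₀ q) :=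
  mulTowerHom L₀ (SUtow_smul S) (SUtow_refl S) (SUtow_comp S) (SLtow_smul q) (SLtow_refl q)
    (SLtow_comp q)
    (fun L => (SL.unitsIncl q L.field).comp (SUnits S L.field).subtype)
    (fun L g a => by
      change SL.unitsIncl q L.field ((g • a : SUnits S L.field) : L.fieldˣ) = g • SL.unitsIncl q L.field a
      rw [SL.smul_unitsIncl]
      rfl)
    (fun {L L'} h a => by
      change SL.unitsIncl q L'.field ((SUnits.mapHom S (Level.incl h) a : SUnits S L'.field) : L'.fieldˣ)
        = SL.unitsMap q (Level.incl h) (SL.unitsIncl q L.field a)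
      rw [SL.unitsMap_unitsIncl]
      rfl)

/-- `(ℚ_q ⊗ L)ˣ → C_S(L)`. -/
def jCtow (q : Nat.Primes) : (SLtow L₀ (q : ℕ)).Hom (CStow S L₀) :=
  mulTowerHom L₀ (SLtow_smul (q : ℕ)) (SLtow_refl (q : ℕ)) (SLtow_comp (q : ℕ)) (CStow_smul S)
    (CStow_refl S) (CStow_comp S)
    (fun L => (CS.mk S L.field).comp (FinIdele.single q))
    (fun L g a => by
      change CS.mk S L.field (FinIdele.single q (g • a)) = g • CS.mk S L.field (FinIdele.single q a)
      rw [CS.smul_mk, FinIdele.smul_single])
    (fun {L L'} h a => by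
      change CS.mk S L'.field (FinIdele.single q (SL.unitsMap (q : ℕ) (Level.incl h) a))
        = CS.map S (Level.incl h) (CS.mk S L.field (FinIdele.single q a))
      rw [CS.map_mk, FinIdele.map_single])

/-- `μ_n(L) → O_{L,S}ˣ` (roots of unity are `S`-units). -/
def kappaHom (n : ℕ) (hn : n ≠ 0) (K : Type) [Field K] [NumberField K] :
    rootsOfUnity n K →* SUnits S K where
  toFun ζ := ⟨(ζ : Kˣ), mem_SUnits_of_pow_eq_one hn ((mem_rootsOfUnity n _).1 ζ.2)⟩
  map_one' := rfl
  map_mul' _ _ := rfl

@[simp] lemma coe_kappaHom (n : ℕ) (hn : n ≠ 0) (K : Type) [Field K] [NumberField K]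
    (ζ : rootsOfUnity n K) : ((kappaHom S n hn K ζ : SUnits S K) : Kˣ) = (ζ : Kˣ) := rfl

/-- `μ_n → O_Sˣ` as a morphism of tower modules. -/
def kappatow (n : ℕ) (hn : n ≠ 0) : (mutow L₀ n).Hom (SUtow S L₀) :=
  mulTowerHom L₀ (mutow_smul n) (mutow_refl n) (mutow_comp n) (SUtow_smul S) (SUtow_refl S)
    (SUtow_comp S)
    (fun L => kappaHom S n hn L.field)
    (fun _ _ _ => Subtype.ext (Units.ext rfl))
    (fun {_ _} _ _ => Subtype.ext (Units.ext rfl))

end Maps

end

end Fermat.Agent.CFT.Bridge
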