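/-
P4 / C8-TOW (3): the elementary fields of `PTData` for the concrete tower modules.
-/
import Fermat.Agent.Lib.CFT.Bridge.TowerModules
import Fermat.Agent.Lib.CFT.Global.IdeleClass
import Fermat.Agent.Lib.CFT.Global.Descent
import Fermat.Agent.Lib.CFT.Duality.CohLimMap
import Fermat.Agent.Lib.CFT.Duality.PTData

set_option autoImplicit false
set_option linter.style.haveILetI false
set_option linter.unusedSectionVars false

open CategoryTheory

namespace Fermat.Agent.CFT.Bridge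

noncomputable section

open Duality Global

/-! ## Multiplicative preliminaries -/

section Prelim

variable (S : Finset Nat.Primes) {K : Type} [Field K] [NumberField K]

/-- An `S`-idele is the product of its components. -/
lemma JS.toFinIdele_eq_prod_single (y : JS S K) :
    JS.toFinIdele S K y = ∏ q : ↥S, FinIdele.single (q : Nat.Primes) (y q) := by
  classical
  apply FinIdele.ext
  intro r
  rw [map_prod]
  by_cases hr : r ∈ S
  · rw [JS.comp_toFinIdele_of_mem y hr, Finset.prod_eq_single (⟨r, hr⟩ : ↥S)]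
    · rw [FinIdele.comp_single_same]
      rfl
    · intro q _ hq
      apply FinIdele.comp_single_of_ne
      intro h
      exact hq (Subtype.ext h.symm)
    · intro h
      exact absurd (Finset.mem_univ _) h
  · rw [JS.comp_toFinIdele_of_notMem y hr]
    symm
    apply Finset.prod_eq_one
    intro q _
    apply FinIdele.comp_single_of_ne
    rintro rfl
    exact hr q.2

lemma JS.toCS_eq_prod (y : JS S K) :
    JS.toCS S K y = ∏ q : ↥S, CS.mk S K (FinIdele.single (q : Nat.Primes) (y q)) := by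
  change CS.mk S K (JS.toFinIdele S K y) = _
  rw [JS.toFinIdele_eq_prod_single, map_prod]

end Prelim

/-! ## The `S`-tower modules -/

section STower

variable (p : ℕ) [Fact p.Prime] (S : Finset Nat.Primes) (L₀ : Level) (h₀ : L₀.IsS S)

/-- `C_S` over the `S`-levels. -/
abbrev Ctow : TowerModule ℤ (towerS S L₀ h₀) :=
  (CStow S L₀).filter (isSPred S L₀) (isSPred_nonempty h₀) (isSPred_directed S L₀)

/-- the `S`-units over the `S`-levels. -/
abbrev Etow : TowerModule ℤ (towerS S L₀ h₀) :=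
  (SUtow S L₀).filter (isSPred S L₀) (isSPred_nonempty h₀) (isSPred_directed S L₀)

/-- the semi-local units at `q ∈ S` over the `S`-levels. -/
abbrev Jtow (q : ↥S) : TowerModule ℤ (towerS S L₀ h₀) :=
  (SLtow L₀ ((q : Nat.Primes) : ℕ)).filter (isSPred S L₀) (isSPred_nonempty h₀)
    (isSPred_directed S L₀)

/-- `E → J_q`. -/
abbrev eJ (q : ↥S) : (Etow S L₀ h₀).Hom (Jtow S L₀ h₀ q) :=
  (eJtow S L₀ ((q : Nat.Primes) : ℕ)).filter (isSPred S L₀) (isSPred_nonempty h₀)
    (isSPred_directed S L₀)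

/-- `J_q → C`. -/
abbrev jC (q : ↥S) : (Jtow S L₀ h₀ q).Hom (Ctow S L₀ h₀) :=
  (jCtow S L₀ (q : Nat.Primes)).filter (isSPred S L₀) (isSPred_nonempty h₀)
    (isSPred_directed S L₀)

/-- The field of an `S`-level. -/
abbrev fieldOf (L : (towerS S L₀ h₀).ι) : Type := L.1.1.field

lemma eJ_apply (q : ↥S) (L : (towerS S L₀ h₀).ι) (e : Additive (SUnits S L.1.1.field)) :
    ((eJ S L₀ h₀ q).f L).hom e =
      Additive.ofMul (SL.unitsIncl ((q : Nat.Primes) : ℕ) L.1.1.field (e.toMul : L.1.1.fieldˣ)) :=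
  rfl

lemma jC_apply (q : ↥S) (L : (towerS S L₀ h₀).ι)
    (x : Additive (SL ((q : Nat.Primes) : ℕ) L.1.1.field)ˣ) :
    ((jC S L₀ h₀ q).f L).hom x =
      Additive.ofMul (CS.mk S L.1.1.field (FinIdele.single (q : Nat.Primes) x.toMul)) := rfl

/-- **`PTData.eJ_injective`**. -/
theorem eJ_injective (hS : S.Nonempty) (L : (towerS S L₀ h₀).ι) (e : (Etow S L₀ h₀).C L)
    (he : ∀ q, ((eJ S L₀ h₀ q).f L).hom e = 0) : e = 0 := by
  obtain ⟨q, hq⟩ := hS
  have h1 := he ⟨q, hq⟩
  change Additive (SUnits S L.1.1.field) at e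
  rw [eJ_apply] at h1
  have h2 : SL.unitsIncl (q : ℕ) L.1.1.field (e.toMul : L.1.1.fieldˣ) = 1 :=
    congrArg Additive.toMul h1
  have h3 : (e.toMul : L.1.1.fieldˣ) = 1 :=
    SL.unitsIncl_injective L.1.1.field (q : ℕ) (h2.trans (map_one _).symm)
  have h4 : e.toMul = 1 := Subtype.ext h3
  exact congrArg Additive.ofMul h4

/-- **`PTData.exact_EJC`**. -/
theorem exact_EJC (L : (towerS S L₀ h₀).ι) (x : ∀ q, (Jtow S L₀ h₀ q).C L) :
    (∑ q, ((jC S L₀ h₀ q).f L).hom (x q) = 0) ↔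
      ∃ e : (Etow S L₀ h₀).C L, ∀ q, ((eJ S L₀ h₀ q).f L).hom e = x q := by
  set K := L.1.1.field
  let y : JS S K := fun q => Additive.toMul (x q)
  have h1 : (∑ q, ((jC S L₀ h₀ q).f L).hom (x q)) = Additive.ofMul (JS.toCS S K y) := by
    rw [JS.toCS_eq_prod, ofMul_prod]
    rfl
  rw [h1]
  have h2 : Additive.ofMul (JS.toCS S K y) = (0 : (Ctow S L₀ h₀).C L) ↔ JS.toCS S K y = 1 :=
    Iff.rfl
  refine h2.trans ((JS.toCS_eq_one_iff y).trans ?_)
  constructor
  · rintro ⟨a, ha, hay⟩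
    refine ⟨Additive.ofMul (⟨a, ha⟩ : SUnits S K), fun q => ?_⟩
    have := congrFun hay q
    exact congrArg Additive.ofMul this
  · rintro ⟨e, he⟩
    change Additive (SUnits S K) at e
    refine ⟨(e.toMul : Kˣ), e.toMul.2, ?_⟩
    funext q
    exact congrArg Additive.toMul (he q)

/-- **`PTData.cl_finite`**. -/
theorem cl_finite (L : (towerS S L₀ h₀).ι) : ∃ F : Finset ((Ctow S L₀ h₀).C L),
    ∀ c : (Ctow S L₀ h₀).C L, ∃ f ∈ F, ∃ x : ∀ q, (Jtow S L₀ h₀ q).C L,
      c = f + ∑ q, ((jC S L₀ h₀ q).f L).hom (x q) := by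
  classical
  set K := L.1.1.field
  haveI : Fintype (CS S K ⧸ (JS.toCS S K).range) := Fintype.ofFinite _
  let F0 : Finset (CS S K) := Finset.univ.image (fun t : CS S K ⧸ (JS.toCS S K).range => t.out)
  refine ⟨F0.image (fun c => (Additive.ofMul c : (Ctow S L₀ h₀).C L)), fun c => ?_⟩
  change Additive (CS S K) at c
  set t : CS S K ⧸ (JS.toCS S K).range := QuotientGroup.mk c.toMul with ht
  have h1 : (t.out)⁻¹ * c.toMul ∈ (JS.toCS S K).range := by
    rw [← QuotientGroup.eq, ht]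
    exact QuotientGroup.out_eq' _
  obtain ⟨y, hy⟩ := h1
  refine ⟨Additive.ofMul t.out, Finset.mem_image.2 ⟨t.out, Finset.mem_image.2 ⟨t, Finset.mem_univ _, rfl⟩,
    rfl⟩, fun q => Additive.ofMul (y q), ?_⟩
  have h2 : (∑ q, ((jC S L₀ h₀ q).f L).hom (Additive.ofMul (y q)))
      = Additive.ofMul (JS.toCS S K y) := by
    rw [JS.toCS_eq_prod, ofMul_prod]
    rfl
  rw [h2, hy]
  change c = Additive.ofMul (t.out * ((t.out)⁻¹ * c.toMul))
  rw [mul_inv_cancel_left]
  rfl

/-! ## Capitulation and `p`-divisibility of the `S`-units -/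

/-- **`PTData.cl_capitulation`**. -/
theorem cl_capitulation (hpS : ExtCitation.pPrime p ∈ S) (L : (towerS S L₀ h₀).ι) :
    ∃ (L' : (towerS S L₀ h₀).ι) (h : L ≤ L'),
      ∀ c : (Ctow S L₀ h₀).C L,
        (∃ (n : ℕ) (x : ∀ q, (Jtow S L₀ h₀ q).C L),
          p ^ n • c = ∑ q, ((jC S L₀ h₀ q).f L).hom (x q)) →
        ∃ x' : ∀ q, (Jtow S L₀ h₀ q).C L',
          ((Ctow S L₀ h₀).φ h).hom c = ∑ q, ((jC S L₀ h₀ q).f L').hom (x' q) := by
  have hp : p.Prime := Fact.out
  set K := L.1.1.field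
  have hK : UnramifiedOutside S K := Level.unramifiedOutside_of_isS S L.1.1 L.2
  obtain ⟨F, ψ', hψ', hF, hcap⟩ := exists_level_capitulation_pPart S (Ω := Qbar) hp hpS hK
    (L.1.1.toIntermediateField.val : K →+* Qbar)
  have h1 : L.1.1 ≤ F := by
    intro x hx
    have := hψ' ⟨x, hx⟩
    change ((ψ' ⟨x, hx⟩ : F.toIntermediateField) : Qbar) = x at this
    rw [← this]
    exact (ψ' ⟨x, hx⟩).2
  refine ⟨⟨⟨F, L.1.2.trans h1⟩, Level.isS_of_unramifiedOutside S F hF⟩, h1, ?_⟩
  have hψ'' : ψ' = Level.incl (L := L.1.1) (L' := F) h1 := by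
    ext k
    exact hψ' k
  rintro c ⟨n, x, hx⟩
  change Additive (CS S K) at c
  let y : JS S K := fun q => Additive.toMul (x q)
  have h2 : (∑ q, ((jC S L₀ h₀ q).f L).hom (x q)) = Additive.ofMul (JS.toCS S K y) := by
    rw [JS.toCS_eq_prod, ofMul_prod]
    rfl
  rw [h2] at hx
  have h3 : c.toMul ^ p ^ n = JS.toCS S K y := congrArg Additive.toMul hx
  obtain ⟨y', hy'⟩ := hcap c.toMul ⟨n, by rw [h3]; exact ⟨y, rfl⟩⟩
  refine ⟨fun q => Additive.ofMul (y' q), ?_⟩
  have h4 : (∑ q, ((jC S L₀ h₀ q).f ⟨⟨F, L.1.2.trans h1⟩, Level.isS_of_unramifiedOutside S F hF⟩).hom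
      (Additive.ofMul (y' q))) = Additive.ofMul (JS.toCS S (Level.field F) y') := by
    rw [JS.toCS_eq_prod, ofMul_prod]
    rfl
  rw [h4, hy', hψ'']
  rfl

/-- **`PTData.E_pdiv`**. -/
theorem E_pdiv (hpS : ExtCitation.pPrime p ∈ S) (L : (towerS S L₀ h₀).ι)
    (e : (Etow S L₀ h₀).C L) :
    ∃ (L' : (towerS S L₀ h₀).ι) (h : L ≤ L') (e' : (Etow S L₀ h₀).C L'),
      p • e' = ((Etow S L₀ h₀).φ h).hom e := by
  have hp : p.Prime := Fact.out
  set K := L.1.1.field
  have hK : UnramifiedOutside S K := Level.unramifiedOutside_of_isS S L.1.1 L.2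
  change Additive (SUnits S K) at e
  have hn : ∀ r : Nat.Primes, r ∉ S → ¬ (r : ℕ) ∣ p := by
    intro r hr
    have := not_dvd_prime_pow_of_mem S hp hpS 1 r hr
    rwa [pow_one] at this
  obtain ⟨F, ψ', hψ', hF, y, hy, hyx⟩ := exists_level_SUnit_root S (Ω := Qbar) hp.ne_zero hn hK
    (L.1.1.toIntermediateField.val : K →+* Qbar) (x := (e.toMul : Kˣ)) e.toMul.2
  have h1 : L.1.1 ≤ F := by
    intro x hx
    have := hψ' ⟨x, hx⟩
    change ((ψ' ⟨x, hx⟩ : F.toIntermediateField) : Qbar) = x at this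
    rw [← this]
    exact (ψ' ⟨x, hx⟩).2
  have hψ'' : ψ' = Level.incl (L := L.1.1) (L' := F) h1 := by
    ext k
    exact hψ' k
  refine ⟨⟨⟨F, L.1.2.trans h1⟩, Level.isS_of_unramifiedOutside S F hF⟩, h1,
    Additive.ofMul (⟨y, hy⟩ : SUnits S (Level.field F)), ?_⟩
  change Additive.ofMul ((⟨y, hy⟩ : SUnits S (Level.field F)) ^ p) =
    Additive.ofMul (SUnits.mapHom S (Level.incl h1) e.toMul)
  congr 1
  apply Subtype.ext
  rw [← hψ'']
  exact hyx

/-! ## Galois descent for `C_S` -/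

/-- **Galois descent for `C_S` over the `S`-levels** (`PClassFormation.descent`). -/
theorem Ctow_hasDescent (hS : S.Nonempty) : (Ctow S L₀ h₀).HasDescent := by
  constructor
  · intro i j h
    letI := Level.algebraOfLE (L := i.1.1) (L' := j.1.1) h
    haveI := Level.isGaloisGroup_relGroup (L := i.1.1) (L' := j.1.1) h
    have h1 := CS.map_algebraMap_injective (S := S) (K := i.1.1.field) (L := j.1.1.field)
      (Level.relGroup (L := i.1.1) (L' := j.1.1) h) hS
    intro a b hab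
    change Additive (CS S i.1.1.field) at a b
    have h2 : CS.map S (Level.incl (L := i.1.1) (L' := j.1.1) h) a.toMul =
        CS.map S (Level.incl (L := i.1.1) (L' := j.1.1) h) b.toMul := congrArg Additive.toMul hab
    exact congrArg Additive.ofMul (h1 h2)
  · intro i j h y hy
    letI := Level.algebraOfLE (L := i.1.1) (L' := j.1.1) h
    haveI := Level.isGaloisGroup_relGroup (L := i.1.1) (L' := j.1.1) h
    change Additive (CS S j.1.1.field) at y
    have hunr : UnramifiedOutside S j.1.1.field := Level.unramifiedOutside_of_isS S j.1.1 j.2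
    obtain ⟨c₀, hc₀⟩ := CS.exists_map_eq_of_forall_smul_eq (K := i.1.1.field) (L := j.1.1.field)
      (G := Level.relGroup (L := i.1.1) (L' := j.1.1) h) hS hunr y.toMul (fun g => by
        have := hy (g : j.1.1.G) g.2
        exact congrArg Additive.toMul this)
    exact ⟨Additive.ofMul c₀, congrArg Additive.ofMul hc₀⟩

end STower

/-! ## The module `μ_p` -/

section Mu

variable (p : ℕ) [Fact p.Prime] (S : Finset Nat.Primes) (L₀ : Level) (h₀ : L₀.IsS S)

/-- the hypothesis `μ_p ⊆ L₀` -/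
def HasMu : Prop := ∃ ζ : L₀.field, IsPrimitiveRoot ζ p

variable {p L₀}

lemma HasMu.exists_primitiveRoot (hμ : HasMu p L₀) (L : Level) (h : L₀ ≤ L) :
    ∃ ζ : L.field, IsPrimitiveRoot ζ p := by
  obtain ⟨ζ, hζ⟩ := hμ
  exact ⟨Level.incl h ζ, hζ.map_of_injective (Level.incl_injective h)⟩

lemma HasMu.card_rootsOfUnity (hμ : HasMu p L₀) (L : Level) (h : L₀ ≤ L) :
    Nat.card (rootsOfUnity p L.field) = p := by
  haveI : NeZero p := ⟨(Fact.out : p.Prime).ne_zero⟩
  obtain ⟨ζ, hζ⟩ := hμ.exists_primitiveRoot L h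
  exact hζ.card_rootsOfUnity

lemma HasMu.bijective_restrictRootsOfUnity (hμ : HasMu p L₀) {L L' : Level} (h : L ≤ L')
    (hL : L₀ ≤ L) : Function.Bijective (restrictRootsOfUnity (Level.incl h) p) := by
  haveI : NeZero p := ⟨(Fact.out : p.Prime).ne_zero⟩
  have hinj : Function.Injective (restrictRootsOfUnity (Level.incl h) p) := by
    intro a b hab
    have h1 := congrArg (fun z : rootsOfUnity p L'.field => ((z : L'.fieldˣ) : L'.field)) hab
    exact Subtype.ext (Units.ext (Level.incl_injective h h1))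
  haveI : Finite (rootsOfUnity p L'.field) := inferInstance
  refine hinj.bijective_of_nat_card_le ?_
  rw [hμ.card_rootsOfUnity L hL, hμ.card_rootsOfUnity L' (hL.trans h)]

variable (p L₀)

/-- **`PTData.μ`**. -/
abbrev muTow : TowerModule ℤ (levelTower L₀) := mutow L₀ p

variable {p L₀}

/-- **`PTData.μ_cart`**. -/
theorem muTow_isCartesian (hμ : HasMu p L₀) : (muTow p L₀).IsCartesian :=
  mulTowerModule_isCartesian L₀ _ _ _ _ _ (fun h hL => hμ.bijective_restrictRootsOfUnity h hL)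

/-- **`PTData.μ_card`**. -/
theorem muTow_card (hμ : HasMu p L₀) (L : (levelTower L₀).ι) :
    Nat.card ((muTow p L₀).C L) = p :=
  hμ.card_rootsOfUnity L.1 L.2

/-- **`PTData.μ_cyclo`**. -/
theorem muTow_cyclo (L : (levelTower L₀).ι) (σ : GQ) (m : (muTow p L₀).C L) :
    ((muTow p L₀).C L).ρ (L.1.proj σ) m =
      (((ExtCitation.cycloChar p σ : (ZMod p)ˣ) : ZMod p).val : ℤ) • m := by
  haveI : NeZero p := ⟨(Fact.out : p.Prime).ne_zero⟩
  change Additive (rootsOfUnity p L.1.field) at m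
  set k := ((ExtCitation.cycloChar p σ : (ZMod p)ˣ) : ZMod p).val with hk
  change Additive.ofMul (L.1.proj σ • m.toMul) = (k : ℤ) • m
  rw [natCast_zsmul]
  change _ = Additive.ofMul (m.toMul ^ k)
  congr 1
  apply Subtype.ext
  apply Units.ext
  apply Subtype.ext
  set ζ : rootsOfUnity p L.1.field := m.toMul
  have h1 : ((((L.1.proj σ • ζ : rootsOfUnity p L.1.field) : L.1.fieldˣ) : L.1.field) : Qbar) =
      σ (((ζ : L.1.fieldˣ) : L.1.field) : Qbar) := by
    rw [rootsOfUnity.coe_smul_field, Level.coe_proj_smul]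
  rw [h1]
  -- the root of unity in `ℚ̄`
  let t : Qbarˣ := Units.map (L.1.toIntermediateField.val : L.1.field →* Qbar) (ζ : L.1.fieldˣ)
  have ht : t ∈ rootsOfUnity p Qbar := by
    rw [mem_rootsOfUnity, ← map_pow, (mem_rootsOfUnity p _).1 ζ.2, map_one]
  have h2 := modularCyclotomicCharacter.spec Qbar (ExtCitation.card_rootsOfUnity_eq_self p)
    (σ : Qbar ≃+* Qbar) ht
  have h3 : ((ζ ^ k : rootsOfUnity p L.1.field) : L.1.fieldˣ) = (ζ : L.1.fieldˣ) ^ k := rfl
  rw [h3, Units.val_pow_eq_pow_val]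
  push_cast
  exact h2

/-- **`PTData.κ`**. -/
abbrev kappa : ((muTow p L₀).filter (isSPred S L₀) (isSPred_nonempty h₀)
    (isSPred_directed S L₀)).Hom (Etow S L₀ h₀) :=
  (kappatow S L₀ p (Fact.out : p.Prime).ne_zero).filter (isSPred S L₀) (isSPred_nonempty h₀)
    (isSPred_directed S L₀)

/-- **`PTData.κ_injective`**. -/
theorem kappa_injective (L : (towerS S L₀ h₀).ι) :
    Function.Injective ((kappa (p := p) S h₀).f L).hom := by
  intro a b hab
  change Additive (rootsOfUnity p L.1.1.field) at a b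
  have h1 : kappaHom S p (Fact.out : p.Prime).ne_zero L.1.1.field a.toMul =
      kappaHom S p (Fact.out : p.Prime).ne_zero L.1.1.field b.toMul := congrArg Additive.toMul hab
  have h2 := congrArg (fun z : SUnits S L.1.1.field => (z : L.1.1.fieldˣ)) h1
  exact congrArg Additive.ofMul (Subtype.ext h2)

/-- **`PTData.κ_surjective`**. -/
theorem kappa_surjective (L : (towerS S L₀ h₀).ι) (e : (Etow S L₀ h₀).C L) (he : p • e = 0) :
    ∃ m, ((kappa (p := p) S h₀).f L).hom m = e := by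
  change Additive (SUnits S L.1.1.field) at e
  have h1 : e.toMul ^ p = 1 := congrArg Additive.toMul he
  have h2 : (e.toMul : L.1.1.fieldˣ) ^ p = 1 := congrArg Subtype.val h1
  exact ⟨Additive.ofMul ⟨(e.toMul : L.1.1.fieldˣ), (mem_rootsOfUnity p _).2 h2⟩, rfl⟩

end Mu

end

end Fermat.Agent.CFT.Bridge
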