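/-
P4 / Layer C5-CHAR: the cyclotomic characters mod `p^(e+1)` on the levels, and the invariant idele
classes `aCl`.

* `cycLevel p e` : the level `ℚ(ζ_{p^(e+1)})`; `HasZeta p L e := cycLevel p e ≤ L`
  (`hasZeta_iff_mem`, `hasZeta_iff_forall_mem`, `hasZeta_iff_exists_primitiveRoot`); monotone in
  `L` (`HasZeta.mono`), antitone in `e` (`HasZeta.anti`, `HasZeta.of_le`), cofinal among the
  `S`-levels if `p ∈ S` (`exists_hasZeta`, `exists_hasZeta_towerS`; `cycLevel_isS`).
* `cycloCharLevel p e L h : L.G →* (ZMod (p^(e+1)))ˣ` with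
  `cycloCharLevel_spec : g • z = z ^ (χ g).val` for all `z : L.field` with `z^(p^(e+1)) = 1`;
  uniqueness `natCast_eq_cycloCharLevel(')`; `cycloCharLevel_surjective`;
  `cycloCharLevel_comp_map : χ_L ∘ Level.map h' = χ_{L'}`;
  `unitsMap_comp_cycloCharLevel : ZMod.unitsMap ∘ χ_{e+1} = χ_e`.
* `aCl p S L : ℚ_[p]ˣ →* CS S L.field`, the class of the idele of `ℚ` with component `u` at `p` and
  `1` elsewhere; `smul_aCl` (Galois invariant), `map_aCl` (compatible with the transition maps);
  tower form `aClTow`, `ρ_aClTow`, `φ_aClTow`.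
-/
import Fermat.Agent.Lib.CFT.Bridge.TowerFields
import Fermat.Agent.Lib.CFT.Duality.PinfGlobal
import Fermat.Agent.Lib.CFT.Global.Recip.PsiNonSplit

set_option autoImplicit false
set_option linter.style.haveILetI false
set_option linter.unusedSectionVars false

namespace Fermat.Agent.CFT.Bridge

noncomputable section

open Duality Global

variable (p : ℕ) [hp : Fact p.Prime]

/-! ## The levels `ℚ(ζ_{p^(e+1)})` -/

/-- the level `ℚ(ζ_{p^(e+1)})` -/
def cycLevel (e : ℕ) : Level := Pinf.cycloLevel (p ^ (e + 1))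

/-- the chosen primitive `p^(e+1)`-th root of unity of `ℚ̄` -/
def zetaPow (e : ℕ) : Qbar := Pinf.zetaQbar (p ^ (e + 1))

lemma zetaPow_spec (e : ℕ) : IsPrimitiveRoot (zetaPow p e) (p ^ (e + 1)) :=
  Pinf.zetaQbar_spec _

lemma zetaPow_mem_cycLevel (e : ℕ) : zetaPow p e ∈ (cycLevel p e).toIntermediateField :=
  IntermediateField.subset_adjoin ℚ _ rfl

/-- the level `L` contains the `p^(e+1)`-th roots of unity -/
def HasZeta (L : Level) (e : ℕ) : Prop := cycLevel p e ≤ L

lemma hasZeta_def (L : Level) (e : ℕ) : HasZeta p L e ↔ Pinf.cycloLevel (p ^ (e + 1)) ≤ L :=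
  Iff.rfl

variable {p}

lemma HasZeta.mono {L L' : Level} {e : ℕ} (h : L ≤ L') (hL : HasZeta p L e) : HasZeta p L' e :=
  le_trans hL h

lemma hasZeta_iff_mem {L : Level} {e : ℕ} :
    HasZeta p L e ↔ zetaPow p e ∈ L.toIntermediateField := by
  constructor
  · intro h
    exact h (zetaPow_mem_cycLevel p e)
  · intro h
    change IntermediateField.adjoin ℚ {zetaPow p e} ≤ L.toIntermediateField
    rw [IntermediateField.adjoin_le_iff]
    rintro x rfl
    exact h

lemma hasZeta_iff_forall_mem {L : Level} {e : ℕ} :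
    HasZeta p L e ↔ ∀ z : Qbar, z ^ p ^ (e + 1) = 1 → z ∈ L.toIntermediateField := by
  rw [hasZeta_iff_mem]
  constructor
  · intro h z hz
    obtain ⟨i, -, rfl⟩ := (zetaPow_spec p e).eq_pow_of_pow_eq_one hz
    exact pow_mem h i
  · intro h
    exact h _ (zetaPow_spec p e).pow_eq_one

lemma hasZeta_iff_exists_primitiveRoot {L : Level} {e : ℕ} :
    HasZeta p L e ↔ ∃ ζ : L.field, IsPrimitiveRoot ζ (p ^ (e + 1)) := by
  constructor
  · intro h
    refine ⟨⟨zetaPow p e, hasZeta_iff_mem.1 h⟩, ?_⟩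
    refine IsPrimitiveRoot.of_map_of_injective (f := L.toIntermediateField.val) ?_
      L.toIntermediateField.val.injective
    exact zetaPow_spec p e
  · rintro ⟨ζ, hζ⟩
    rw [hasZeta_iff_mem]
    have h1 : IsPrimitiveRoot (ζ : Qbar) (p ^ (e + 1)) :=
      hζ.map_of_injective (f := L.toIntermediateField.val) L.toIntermediateField.val.injective
    obtain ⟨i, -, hi⟩ := h1.eq_pow_of_pow_eq_one (zetaPow_spec p e).pow_eq_one
    rw [← hi]
    exact pow_mem ζ.2 i

lemma HasZeta.anti {L : Level} {e : ℕ} (hL : HasZeta p L (e + 1)) : HasZeta p L e := by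
  rw [hasZeta_iff_forall_mem] at hL ⊢
  intro z hz
  apply hL
  rw [pow_succ, pow_mul, hz, one_pow]

lemma HasZeta.of_le {L : Level} {e e' : ℕ} (he : e ≤ e') (hL : HasZeta p L e') : HasZeta p L e := by
  obtain ⟨d, rfl⟩ := Nat.exists_eq_add_of_le he
  induction d with
  | zero => exact hL
  | succ d ih => exact ih (Nat.le_add_right _ _) hL.anti

variable (p)

lemma cycLevel_isS (S : Finset Nat.Primes) (hpS : pPrimes p ∈ S) (e : ℕ) :
    (cycLevel p e).IsS S := by
  refine Pinf.cycloLevel_isS S _ (fun q hq => ?_)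
  refine Nat.Coprime.pow_left _ ((Nat.coprime_primes hp.out q.2).mpr ?_)
  rintro h
  exact hq ((Subtype.ext h : pPrimes p = q) ▸ hpS)

lemma hasZeta_cycLevel (e : ℕ) : HasZeta p (cycLevel p e) e := le_refl _

/-- cofinality of `HasZeta` among the `S`-levels (`p ∈ S`) -/
lemma exists_hasZeta (S : Finset Nat.Primes) (hpS : pPrimes p ∈ S) (L : Level) (hL : L.IsS S)
    (e : ℕ) : ∃ L' : Level, L ≤ L' ∧ L'.IsS S ∧ HasZeta p L' e :=
  ⟨L ⊔ cycLevel p e, le_sup_left, Level.IsS.sup hL (cycLevel_isS p S hpS e), le_sup_right⟩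

/-- cofinality of `HasZeta` in the tower of `S`-levels above `L₀` -/
lemma exists_hasZeta_towerS (S : Finset Nat.Primes) (hpS : pPrimes p ∈ S) (L₀ : Level)
    (h₀ : L₀.IsS S) (j : (towerS S L₀ h₀).ι) (e : ℕ) :
    ∃ k : (towerS S L₀ h₀).ι, j ≤ k ∧ HasZeta p k.1.1 e := by
  obtain ⟨L', h1, h2, h3⟩ := exists_hasZeta p S hpS j.1.1 j.2 e
  exact ⟨⟨⟨L', j.1.2.trans h1⟩, h2⟩, h1, h3⟩

/-! ## The cyclotomic characters of the levels -/

section Char

variable (e : ℕ) (L : Level) (h : HasZeta p L e)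

/-- the chosen primitive `p^(e+1)`-th root of unity, in the field of a level containing it -/
def zetaL : L.field := ⟨zetaPow p e, hasZeta_iff_mem.1 h⟩

@[simp] lemma coe_zetaL : ((zetaL p e L h : L.field) : Qbar) = zetaPow p e := rfl

lemma zetaL_spec : IsPrimitiveRoot (zetaL p e L h) (p ^ (e + 1)) := by
  refine IsPrimitiveRoot.of_map_of_injective (f := L.toIntermediateField.val) ?_
    L.toIntermediateField.val.injective
  exact zetaPow_spec p e

lemma incl_zetaL {L L' : Level} (h : HasZeta p L e) (h' : L ≤ L') :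
    Level.incl h' (zetaL p e L h) = zetaL p e L' (h.mono h') := rfl

/-- the cyclotomic character mod `p^(e+1)` of a level containing `ζ_{p^(e+1)}` -/
def cycloCharLevel : L.G →* (ZMod (p ^ (e + 1)))ˣ :=
  PsiNonSplit.cycloChar (G := L.G) (zetaL_spec p e L h)

lemma cycloCharLevel_zetaL (g : L.G) :
    g • zetaL p e L h =
      zetaL p e L h ^ ((cycloCharLevel p e L h g : (ZMod (p ^ (e + 1)))ˣ) : ZMod (p ^ (e + 1))).val :=
  (PsiNonSplit.cycloChar_spec (zetaL_spec p e L h) g).symm

/-- the defining property of the cyclotomic character, on all `p^(e+1)`-th roots of unity -/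
lemma cycloCharLevel_spec (g : L.G) (z : L.field) (hz : z ^ p ^ (e + 1) = 1) :
    g • z = z ^ ((cycloCharLevel p e L h g : (ZMod (p ^ (e + 1)))ˣ) : ZMod (p ^ (e + 1))).val := by
  obtain ⟨i, -, rfl⟩ := (zetaL_spec p e L h).eq_pow_of_pow_eq_one hz
  rw [smul_pow', cycloCharLevel_zetaL, ← pow_mul, ← pow_mul, mul_comm]

/-- the cyclotomic character is determined by the action on the chosen root of unity -/
lemma natCast_eq_cycloCharLevel {g : L.G} {c : ℕ} (hc : g • zetaL p e L h = zetaL p e L h ^ c) :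
    (c : ZMod (p ^ (e + 1))) =
      ((cycloCharLevel p e L h g : (ZMod (p ^ (e + 1)))ˣ) : ZMod (p ^ (e + 1))) :=
  PsiNonSplit.natCast_eq_cycloChar (zetaL_spec p e L h) hc

/-- the cyclotomic character is determined by the action on any primitive root of unity -/
lemma natCast_eq_cycloCharLevel' {g : L.G} {c : ℕ} {z : L.field}
    (hz : IsPrimitiveRoot z (p ^ (e + 1))) (hc : g • z = z ^ c) :
    (c : ZMod (p ^ (e + 1))) =
      ((cycloCharLevel p e L h g : (ZMod (p ^ (e + 1)))ˣ) : ZMod (p ^ (e + 1))) := by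
  apply natCast_eq_cycloCharLevel
  obtain ⟨i, -, hi⟩ := hz.eq_pow_of_pow_eq_one (zetaL_spec p e L h).pow_eq_one
  rw [← hi, smul_pow', hc, ← pow_mul, ← pow_mul, mul_comm]

/-- compatibility of the cyclotomic characters with the restriction maps of the tower -/
lemma cycloCharLevel_map {L L' : Level} (h : HasZeta p L e) (h' : L ≤ L') (g : L'.G) :
    cycloCharLevel p e L h (Level.map h' g) = cycloCharLevel p e L' (h.mono h') g := by
  apply Units.ext
  rw [← natCast_eq_cycloCharLevel p e L' (h.mono h')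
    (c := ((cycloCharLevel p e L h (Level.map h' g) : (ZMod (p ^ (e + 1)))ˣ) :
      ZMod (p ^ (e + 1))).val), ZMod.natCast_zmod_val]
  rw [← incl_zetaL p e h h', ← Level.incl_map_smul, cycloCharLevel_zetaL, map_pow]

lemma cycloCharLevel_comp_map {L L' : Level} (h : HasZeta p L e) (h' : L ≤ L') :
    (cycloCharLevel p e L h).comp (Level.map h') = cycloCharLevel p e L' (h.mono h') :=
  MonoidHom.ext (cycloCharLevel_map p e h h')

end Char

/-- compatibility of the cyclotomic characters mod `p^(e+2)` and mod `p^(e+1)` -/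
lemma unitsMap_cycloCharLevel (e : ℕ) (L : Level) (h : HasZeta p L (e + 1)) (g : L.G) :
    ZMod.unitsMap (pow_dvd_pow p (Nat.le_succ (e + 1))) (cycloCharLevel p (e + 1) L h g) =
      cycloCharLevel p e L h.anti g := by
  apply Units.ext
  rw [ZMod.unitsMap_def, Units.coe_map, MonoidHom.coe_coe, ZMod.castHom_apply, ← ZMod.natCast_val]
  apply natCast_eq_cycloCharLevel
  apply cycloCharLevel_spec
  rw [pow_succ, pow_mul, (zetaL_spec p e L h.anti).pow_eq_one, one_pow]

lemma unitsMap_comp_cycloCharLevel (e : ℕ) (L : Level) (h : HasZeta p L (e + 1)) :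
    (ZMod.unitsMap (pow_dvd_pow p (Nat.le_succ (e + 1)))).comp (cycloCharLevel p (e + 1) L h) =
      cycloCharLevel p e L h.anti :=
  MonoidHom.ext (unitsMap_cycloCharLevel p e L h)

/-! ## Surjectivity -/

section Surj

variable (e : ℕ)

lemma cycloCharLevel_cycLevel_injective :
    Function.Injective (cycloCharLevel p e (cycLevel p e) (hasZeta_cycLevel p e)) := by
  rw [injective_iff_map_eq_one]
  intro g hg
  obtain ⟨σ, rfl⟩ := (cycLevel p e).proj_surjective g
  have h1 := cycloCharLevel_zetaL p e _ (hasZeta_cycLevel p e) ((cycLevel p e).proj σ)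
  have hne : p ^ (e + 1) ≠ 1 :=
    (Nat.one_lt_pow (Nat.succ_ne_zero e) hp.out.one_lt).ne'
  rw [hg, Units.val_one, ZMod.val_one'' hne, pow_one] at h1
  have h2 : σ (zetaPow p e) = zetaPow p e := by
    have := congrArg (Subtype.val : (cycLevel p e).field → Qbar) h1
    rwa [Level.coe_proj_smul] at this
  exact (QuotientGroup.eq_one_iff σ).2 ((Pinf.mem_cycloLevel_N_iff _ σ).2 h2)

lemma cycloCharLevel_cycLevel_bijective :
    Function.Bijective (cycloCharLevel p e (cycLevel p e) (hasZeta_cycLevel p e)) := by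
  refine (Nat.bijective_iff_injective_and_card _).2 ⟨cycloCharLevel_cycLevel_injective p e, ?_⟩
  rw [cycLevel, Pinf.cycloLevel_natCard, Nat.card_eq_fintype_card, ZMod.card_units_eq_totient]

/-- the cyclotomic character mod `p^(e+1)` of a level containing `ζ_{p^(e+1)}` is surjective -/
theorem cycloCharLevel_surjective (L : Level) (h : HasZeta p L e) :
    Function.Surjective (cycloCharLevel p e L h) := by
  have h1 := cycloCharLevel_comp_map p e (hasZeta_cycLevel p e) h
  have h2 : Function.Surjective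
      ((cycloCharLevel p e (cycLevel p e) (hasZeta_cycLevel p e)).comp (Level.map h)) :=
    (cycloCharLevel_cycLevel_bijective p e).surjective.comp (Level.map_surjective h)
  rw [h1] at h2
  exact h2

end Surj

/-! ## The invariant idele classes -/

section ACl

variable (S : Finset Nat.Primes)

/-- the class in `C_S(L)` of the idele of `ℚ` with component `u` at `p` and `1` elsewhere -/
def aCl (L : Level) : ℚ_[p]ˣ →* CS S L.field :=
  (CS.mk S L.field).comp (((FinIdele.map (algebraMap ℚ L.field)).comp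
    (FinIdele.single (pPrimes p))).comp (unitsOfQ p))

lemma aCl_apply (L : Level) (u : ℚ_[p]ˣ) :
    aCl p S L u = CS.mk S L.field (FinIdele.map (algebraMap ℚ L.field)
      (FinIdele.single (pPrimes p) (unitsOfQ p u))) := rfl

/-- `aCl` is invariant under the Galois group -/
lemma smul_aCl (L : Level) (g : L.G) (u : ℚ_[p]ˣ) : g • aCl p S L u = aCl p S L u := by
  rw [aCl_apply, CS.smul_mk, FinIdele.smul_def, ← FinIdele.map_comp,
    Subsingleton.elim ((MulSemiringAction.toRingHom L.G L.field g).comp (algebraMap ℚ L.field))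
      (algebraMap ℚ L.field)]

/-- `aCl` is compatible with the transition maps of the tower -/
lemma map_aCl {L L' : Level} (h : L ≤ L') (u : ℚ_[p]ˣ) :
    CS.map S (Level.incl h) (aCl p S L u) = aCl p S L' u := by
  rw [aCl_apply, CS.map_mk, ← FinIdele.map_comp]
  rfl

variable (L₀ : Level) (h₀ : L₀.IsS S)

/-- `aCl` as an element of the tower module `Ctow` -/
def aClTow (k : (towerS S L₀ h₀).ι) (u : ℚ_[p]ˣ) : (Ctow S L₀ h₀).C k :=
  Additive.ofMul (aCl p S k.1.1 u)

lemma ρ_aClTow (k : (towerS S L₀ h₀).ι) (g : (towerS S L₀ h₀).G k) (u : ℚ_[p]ˣ) :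
    ((Ctow S L₀ h₀).C k).ρ g (aClTow p S L₀ h₀ k u) = aClTow p S L₀ h₀ k u :=
  congrArg Additive.ofMul (smul_aCl p S k.1.1 g u)

lemma φ_aClTow {k k' : (towerS S L₀ h₀).ι} (h : k ≤ k') (u : ℚ_[p]ˣ) :
    ((Ctow S L₀ h₀).φ h).hom (aClTow p S L₀ h₀ k u) = aClTow p S L₀ h₀ k' u :=
  congrArg Additive.ofMul (map_aCl p S (L := k.1.1) (L' := k'.1.1) h u)

end ACl

end

end Fermat.Agent.CFT.Bridge
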