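/-
P4 / Layer C5: the characters `psiLevel = χ^(p-1)` on the levels and the unit `u₀ = 1 + p`.
(Definitions shared by the C5 leaves.)
-/
import Fermat.Agent.Lib.CFT.Bridge.CycloTower
import Fermat.Agent.Lib.CFT.Global.Recip.PsiKernel

set_option autoImplicit false
set_option linter.unusedSectionVars false

namespace Fermat.Agent.CFT.Bridge

open Fermat.Agent.CFT.Global Duality

noncomputable section

variable (p : ℕ) [hp : Fact p.Prime]

/-- the character `χ^(p-1) : L.G → (ℤ/p^(e+1))ˣ` (values in `⟨1+p⟩`, kernel = `Gal(L/ℚ_e)`,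
`ℚ_e` the `e`-th layer of the cyclotomic `ℤ_p`-extension) -/
def psiLevel (e : ℕ) (L : Level) (h : HasZeta p L e) : L.G →* (ZMod (p ^ (e + 1)))ˣ :=
  (powMonoidHom (p - 1)).comp (cycloCharLevel p e L h)

lemma psiLevel_apply (e : ℕ) (L : Level) (h : HasZeta p L e) (g : L.G) :
    psiLevel p e L h g = (cycloCharLevel p e L h g) ^ (p - 1) := rfl

/-- the unit `1 + p` of `ℚ_p` -/
def u₀ : ℚ_[p]ˣ := zpToQp p (onePlusP p)

lemma psiLevel_map (e : ℕ) {L L' : Level} (h : HasZeta p L e) (h' : L ≤ L') (g : L'.G) :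
    psiLevel p e L h (Level.map h' g) = psiLevel p e L' (h.mono h') g := by
  rw [psiLevel_apply, psiLevel_apply, cycloCharLevel_map]

lemma psiLevel_comp_map (e : ℕ) {L L' : Level} (h : HasZeta p L e) (h' : L ≤ L') :
    (psiLevel p e L h).comp (Level.map h') = psiLevel p e L' (h.mono h') :=
  MonoidHom.ext (psiLevel_map p e h h')

lemma redUnits_psiLevel (e : ℕ) (L : Level) (h : HasZeta p L (e + 1)) (g : L.G) :
    redUnits p e (psiLevel p (e + 1) L h g) = psiLevel p e L h.anti g := by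
  rw [psiLevel_apply, psiLevel_apply, map_pow]
  congr 1
  exact unitsMap_cycloCharLevel p e L h g

variable {p}

lemma psiLevel_mem_zpowers (hp2 : p ≠ 2) (e : ℕ) (L : Level) (h : HasZeta p L e) (g : L.G) :
    psiLevel p e L h g ∈ Subgroup.zpowers (oneAddP p e) :=
  pow_pred_mem_zpowers_oneAddP e hp2 _

end

end Fermat.Agent.CFT.Bridge
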