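/-
P4 / Layer C5-f (formal part, instance): the system of characters `χ_{k,e} = (cyclotomic character
mod p^(e+1))^(p-1) : G_k → Z_e = ⟨1 + p⟩ ≤ (ℤ/p^(e+1))ˣ` on the tower of `S`-levels, and the
invariant idele classes `a_k = aClTow k u`, as a `ChiData p (towerS S L₀ h₀) (Ctow S L₀ h₀)`
(`Duality/CycChi.lean`).
-/
import Fermat.Agent.Lib.CFT.Duality.CycChi
import Fermat.Agent.Lib.CFT.Bridge.PsiLevelDefs

set_option autoImplicit false
set_option linter.unusedSectionVars false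
set_option linter.style.haveILetI false

namespace Fermat.Agent.CFT.Bridge

open Duality Global Fermat.Agent.CFT.Coh

noncomputable section

/-! ## The subgroup `Z_e = ⟨1 + p⟩` of `(ℤ/p^(e+1))ˣ` as a group

(the arithmetic is in `Global/Recip/ZModUnits.lean`: `oneAddP`, `redUnits`) -/

section ZArith

variable (p : ℕ) [hp : Fact p.Prime]

/-- the cyclic group `Z_e = ⟨1 + p⟩` of order `p ^ e` -/
def Zcyc (e : ℕ) : Subgroup (ZMod (p ^ (e + 1)))ˣ := Subgroup.zpowers (oneAddP p e)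

lemma card_Zcyc (hp2 : p ≠ 2) (e : ℕ) : Nat.card (Zcyc p e) = p ^ e := by
  rw [Zcyc, Nat.card_zpowers, orderOf_oneAddP e hp2]

/-- every element of `Z_e` is a `(p-1)`-th power -/
lemma exists_pow_pred_eq (hp2 : p ≠ 2) (e : ℕ) (z : (ZMod (p ^ (e + 1)))ˣ) (hz : z ∈ Zcyc p e) :
    ∃ y : (ZMod (p ^ (e + 1)))ˣ, y ^ (p - 1) = z := by
  have hcop : (Nat.card (Zcyc p e)).Coprime (p - 1) := by
    rw [card_Zcyc p hp2]
    apply Nat.Coprime.pow_left
    refine (Nat.Prime.coprime_iff_not_dvd hp.out).2 fun h => ?_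
    have h2 := hp.out.two_le
    have := Nat.le_of_dvd (by omega) h
    omega
  obtain ⟨y, hy⟩ := (powCoprime hcop).surjective ⟨z, hz⟩
  refine ⟨y.1, ?_⟩
  have := congrArg Subtype.val hy
  simpa using this

/-- the transition map `Z_{e+1} → Z_e` -/
def ZcycMap (e : ℕ) : Zcyc p (e + 1) →* Zcyc p e :=
  ((redUnits p e).comp (Zcyc p (e + 1)).subtype).codRestrict (Zcyc p e) (fun z => by
    obtain ⟨i, hi⟩ := Subgroup.mem_zpowers_iff.1 z.2
    rw [MonoidHom.comp_apply, Subgroup.coe_subtype, ← hi, map_zpow, redUnits_oneAddP]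
    exact Subgroup.zpow_mem_zpowers _ i)

lemma coe_ZcycMap (e : ℕ) (z : Zcyc p (e + 1)) :
    ((ZcycMap p e z : Zcyc p e) : (ZMod (p ^ (e + 1)))ˣ) =
      redUnits p e (z : (ZMod (p ^ (e + 2)))ˣ) := rfl

/-- the generator `1 + p` of `Z_e` -/
def ZcycGen (e : ℕ) : Zcyc p e := ⟨oneAddP p e, Subgroup.mem_zpowers _⟩

lemma mem_zpowers_ZcycGen (e : ℕ) (z : Zcyc p e) : z ∈ Subgroup.zpowers (ZcycGen p e) := by
  obtain ⟨i, hi⟩ := Subgroup.mem_zpowers_iff.1 z.2
  refine Subgroup.mem_zpowers_iff.2 ⟨i, Subtype.ext ?_⟩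
  rw [Subgroup.coe_zpow]
  exact hi

lemma ZcycMap_gen (e : ℕ) : ZcycMap p e (ZcycGen p (e + 1)) = ZcycGen p e :=
  Subtype.ext (redUnits_oneAddP p e)

end ZArith

/-! ## The characters `χ_{k,e}` and the `ChiData` of the tower of `S`-levels -/

section Chi

variable (p : ℕ) [hp : Fact p.Prime] (hp2 : p ≠ 2)

/-- the character `psiLevel = (cyclotomic character mod p^(e+1))^(p-1)`, as a map `L.G → Z_e` -/
def chiLevel (e : ℕ) (L : Level) (h : HasZeta p L e) : L.G →* Zcyc p e :=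
  (psiLevel p e L h).codRestrict (Zcyc p e) (fun g => psiLevel_mem_zpowers hp2 e L h g)

lemma coe_chiLevel (e : ℕ) (L : Level) (h : HasZeta p L e) (g : L.G) :
    ((chiLevel p hp2 e L h g : Zcyc p e) : (ZMod (p ^ (e + 1)))ˣ) = psiLevel p e L h g := rfl

lemma chiLevel_eq_one_iff (e : ℕ) (L : Level) (h : HasZeta p L e) (g : L.G) :
    chiLevel p hp2 e L h g = 1 ↔ psiLevel p e L h g = 1 := by
  rw [← coe_chiLevel p hp2, ← Subgroup.coe_one (Zcyc p e), Subtype.ext_iff]

lemma ker_chiLevel (e : ℕ) (L : Level) (h : HasZeta p L e) :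
    (chiLevel p hp2 e L h).ker = (psiLevel p e L h).ker := by
  ext g
  rw [MonoidHom.mem_ker, MonoidHom.mem_ker, chiLevel_eq_one_iff]

theorem chiLevel_surjective (e : ℕ) (L : Level) (h : HasZeta p L e) :
    Function.Surjective (chiLevel p hp2 e L h) := by
  intro z
  obtain ⟨y, hy⟩ := exists_pow_pred_eq p hp2 e z.1 z.2
  obtain ⟨g, hg⟩ := cycloCharLevel_surjective p e L h y
  refine ⟨g, Subtype.ext ?_⟩
  rw [coe_chiLevel, psiLevel_apply, hg, hy]

lemma chiLevel_comp_map (e : ℕ) {L L' : Level} (h : HasZeta p L e) (h' : L ≤ L') :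
    (chiLevel p hp2 e L h).comp (Level.map h') = chiLevel p hp2 e L' (h.mono h') := by
  refine MonoidHom.ext fun g => Subtype.ext ?_
  rw [MonoidHom.comp_apply, coe_chiLevel, coe_chiLevel, psiLevel_map]

lemma ZcycMap_comp_chiLevel (e : ℕ) (L : Level) (h : HasZeta p L (e + 1)) :
    (ZcycMap p e).comp (chiLevel p hp2 (e + 1) L h) = chiLevel p hp2 e L h.anti := by
  refine MonoidHom.ext fun g => Subtype.ext ?_
  rw [MonoidHom.comp_apply, coe_ZcycMap, coe_chiLevel, coe_chiLevel, redUnits_psiLevel]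

variable (S : Finset Nat.Primes) (L₀ : Level) (h₀ : L₀.IsS S)

/-- **the system of characters and invariant idele classes on the tower of `S`-levels**
(`u : ℚ_pˣ` is the unit defining the idele class `a`) -/
def chiDataS (hpS : pPrimes p ∈ S) (u : ℚ_[p]ˣ) :
    ChiData p (towerS S L₀ h₀) (Ctow S L₀ h₀) where
  Has k e := HasZeta p k.1.1 e
  has_mono {k k' e} h hk := HasZeta.mono (L := k.1.1) (L' := k'.1.1) h hk
  has_anti hk := hk.anti
  cofinal j e := exists_hasZeta_towerS p S hpS L₀ h₀ j e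
  Z e := Zcyc p e
  γ e := ZcycGen p e
  hγ e z := mem_zpowers_ZcycGen p e z
  card_Z e := card_Zcyc p hp2 e
  ρ e := ZcycMap p e
  ρ_γ e := ZcycMap_gen p e
  χ k e hk := chiLevel p hp2 e k.1.1 hk
  χ_π {k k'} h {e} hk := chiLevel_comp_map p hp2 e (L := k.1.1) (L' := k'.1.1) hk h
  ρ_χ {k e} hk := ZcycMap_comp_chiLevel p hp2 e k.1.1 hk
  a k := aClTow p S L₀ h₀ k u
  a_inv k g := ρ_aClTow p S L₀ h₀ k g u
  φ_a h := φ_aClTow p S L₀ h₀ h u

/-- **cyclotomic classes on the tower of `S`-levels**, from Hilbert 90 for `p`-subgroups and the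
two arithmetic inputs in multiplicative form (`psiLevel = χ^(p-1)` of `Bridge/PsiLevelDefs.lean`):
* `hnorm` : `a ^ (p ^ e)` is not a norm from the fixed field of `ker psiLevel_{k,e+1}`;
* `hres` : for every level `j` (with `m = v_p |G_j|`) there is a level `k ≥ j` containing
  `ζ_{p^(m+1)}` at which `a` is a norm from `ker (G_k → G_j) ∩ ker psiLevel_{k,m}` to
  `ker (G_k → G_j)`. -/
def cycClassesS (hpS : pPrimes p ∈ S) (u : ℚ_[p]ˣ)
    (h1P : ∀ (j : (towerS S L₀ h₀).ι) (P : Subgroup ((towerS S L₀ h₀).G j)), IsPGroup p P →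
      Subsingleton (groupCohomology ((Ctow S L₀ h₀).atSub j P) 1))
    (hnorm : ∀ (k : (towerS S L₀ h₀).ι) (e : ℕ) (hk : HasZeta p k.1.1 (e + 1))
      (b : CS S k.1.1.field), (∀ n ∈ (psiLevel p (e + 1) k.1.1 hk).ker, n • b = b) →
        ∏ᶠ q : k.1.1.G ⧸ (psiLevel p (e + 1) k.1.1 hk).ker, (q.out : k.1.1.G) • b ≠
          aCl p S k.1.1 u ^ p ^ e)
    (hres : ∀ j : (towerS S L₀ h₀).ι, ∃ (k : (towerS S L₀ h₀).ι) (h : j.1.1 ≤ k.1.1)
      (hk : HasZeta p k.1.1 ((Nat.card j.1.1.G).factorization p))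
      (b : CS S k.1.1.field),
      (∀ n ∈ (Level.map h).ker, psiLevel p _ k.1.1 hk n = 1 → n • b = b) ∧
        ∏ᶠ q : (Level.map h).ker ⧸ ((psiLevel p _ k.1.1 hk).ker.subgroupOf (Level.map h).ker),
          ((q.out : (Level.map h).ker) : k.1.1.G) • b = aCl p S k.1.1 u) :
    CycClasses p (towerS S L₀ h₀) (Ctow S L₀ h₀) :=
  (chiDataS p hp2 S L₀ h₀ hpS u).toCycClasses
    (fun k e hk => chiLevel_surjective p hp2 e k.1.1 hk) h1P
    (fun k e hk b hb hsum => by
      obtain ⟨b', rfl⟩ : ∃ b' : CS S k.1.1.field, Additive.ofMul b' = b :=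
        ⟨Additive.toMul (show Additive (CS S k.1.1.field) from b), rfl⟩
      have hb' : ∀ n ∈ (psiLevel p (e + 1) k.1.1 hk).ker, n • b' = b' := fun n hn =>
        Additive.ofMul.injective (hb n (by rw [← ker_chiLevel p hp2] at hn; exact hn))
      have h0 := hnorm k e hk b' hb'
      rw [← ker_chiLevel p hp2] at h0
      refine h0 ?_
      have h1 : ∑ᶠ q : k.1.1.G ⧸ (chiLevel p hp2 (e + 1) k.1.1 hk).ker,
          Additive.ofMul ((q.out : k.1.1.G) • b') =
            Additive.ofMul (aCl p S k.1.1 u ^ p ^ e) := hsum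
      rw [finsum_ofMul_eq] at h1
      exact Additive.ofMul.injective h1)
    (fun j => by
      obtain ⟨k, h, hk, b, hb, hab⟩ := hres j
      refine ⟨k, h, hk, Additive.ofMul b, fun n hn hχ => congrArg Additive.ofMul
        (hb n hn ((chiLevel_eq_one_iff p hp2 _ k.1.1 hk n).1 hχ)), ?_⟩
      rw [← ker_chiLevel p hp2] at hab
      have h1 := congrArg Additive.ofMul hab
      rw [← finsum_ofMul_eq] at h1
      exact h1)

end Chi

end

end Fermat.Agent.CFT.Bridge
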