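/-
P4 / C6-PREP: `PFundamental.finite_mod_p` (and `PClassFormation.finite_mod_p`) for the global tower
module `Ctow S L₀ h₀` (`C_S` over the `S`-levels): for every level `L` and every subgroup `U` of
`Gal(L/ℚ)`, `C_S(L)^U / n` is finite.
-/
import Fermat.Agent.Lib.CFT.Bridge.TowerFields
import Fermat.Agent.Lib.CFT.Global.FiniteModP

set_option autoImplicit false
set_option linter.style.haveILetI false
set_option linter.unusedSectionVars false

open CategoryTheory

namespace Fermat.Agent.CFT.Bridge

noncomputable section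

open Duality Global

variable (S : Finset Nat.Primes) (L₀ : Level) (h₀ : L₀.IsS S)

/-- **`finite_mod_p` for the global tower**: the `U`-invariants of `C_S(L)` modulo `n` are represented
by a finite set (modulo `n`-multiples of `U`-invariant classes). -/
theorem Ctow_finite_mod_n (hS : S.Nonempty) {n : ℕ} (hn : n ≠ 0) (j : (towerS S L₀ h₀).ι)
    (U : Subgroup ((towerS S L₀ h₀).G j)) :
    ∃ F : Finset ((Ctow S L₀ h₀).C j), ∀ c : (Ctow S L₀ h₀).C j,
      (∀ u ∈ U, ((Ctow S L₀ h₀).C j).ρ u c = c) →
        ∃ f ∈ F, ∃ e : (Ctow S L₀ h₀).C j,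
          (∀ u ∈ U, ((Ctow S L₀ h₀).C j).ρ u e = e) ∧ c = f + n • e := by
  classical
  have hunr : UnramifiedOutside S j.1.1.field := Level.unramifiedOutside_of_isS S j.1.1 j.2
  change Subgroup j.1.1.G at U
  haveI := IsGaloisGroup.subgroup j.1.1.G ℚ j.1.1.field U
  obtain ⟨F, hF⟩ := CS.exists_finset_invariants_mul_pow S
    (↥(FixedPoints.intermediateField U : IntermediateField ℚ j.1.1.field)) (L := j.1.1.field)
    (G := U) hS hunr hn
  refine ⟨F.image Additive.ofMul, fun c hc => ?_⟩
  change Additive (CS S j.1.1.field) at c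
  obtain ⟨f, hf, e, he, hce⟩ := hF c.toMul (fun g => by
    have := hc (g : j.1.1.G) g.2
    exact congrArg Additive.toMul this)
  refine ⟨Additive.ofMul f, Finset.mem_image_of_mem _ hf, Additive.ofMul e, ?_, ?_⟩
  · intro u hu
    exact congrArg Additive.ofMul (he ⟨u, hu⟩)
  · exact congrArg Additive.ofMul hce

end

end Fermat.Agent.CFT.Bridge
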