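/-
P4 / Layer C5-f (assembly): the global fundamental `p`-classes of the tower of `S`-levels,
`Ctow_pFundamental_of : PFundamental p (towerS S L₀ h₀) (Ctow S L₀ h₀)`, from the cyclotomic classes
`cycClassesS` (`Bridge/CycChiS.lean`), Galois descent, Hilbert 90 and the second inequality for
`p`-subgroups, `pinf`, finiteness mod `p`, and the two arithmetic inputs

* `OrderInput` (P4) : `a ^ (p ^ (e-1))` is not a norm from the `e`-th cyclotomic layer;
* `ResInput` (P5 = C5-e (B')) : `a` is a norm from `L'(ζ)`-layers, `m = v_p [L : ℚ]`.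
-/
import Fermat.Agent.Lib.CFT.Bridge.CycChiS
import Fermat.Agent.Lib.CFT.Bridge.FiniteModP
import Fermat.Agent.Lib.CFT.Bridge.UnramifiedLevel
import Fermat.Agent.Lib.CFT.Duality.PinfTower
import Fermat.Agent.Lib.CFT.Global.LayerCoh
import Fermat.Agent.Lib.CFT.Global.CyclicLayers
import Fermat.Agent.Lib.CFT.Global.SecondIneq.Statement

set_option autoImplicit false
set_option linter.unusedSectionVars false
set_option linter.style.haveILetI false

namespace Fermat.Agent.CFT.Bridge

open Duality Global Fermat.Agent.CFT.Coh CategoryTheory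

noncomputable section

variable (p : ℕ) [hp : Fact p.Prime] (hp2 : p ≠ 2) (S : Finset Nat.Primes) (L₀ : Level)
  (h₀ : L₀.IsS S)

include hp2 in
/-- **Hilbert 90 for `p`-subgroups** in the tower of `S`-levels -/
theorem Ctow_h1P (hS : S.Nonempty) (j : (towerS S L₀ h₀).ι)
    (P : Subgroup ((towerS S L₀ h₀).G j)) (hP : IsPGroup p P) :
    Subsingleton (groupCohomology ((Ctow S L₀ h₀).atSub j P) 1) := by
  have hunr : UnramifiedOutside S j.1.1.field := Level.unramifiedOutside_of_isS S j.1.1 j.2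
  change Subgroup j.1.1.G at P
  have h := (h1P_h2P_CS (G := j.1.1.G) (L := j.1.1.field) hp2 hS hunr
    (secondInequalityStatement p hp2) P hP).1
  exact ModuleCat.subsingleton_of_isZero h

include hp2 in
/-- **the second inequality for `p`-subgroups** in the tower of `S`-levels -/
theorem Ctow_h2P (hS : S.Nonempty) (j : (towerS S L₀ h₀).ι)
    (P : Subgroup ((towerS S L₀ h₀).G j)) (hP : IsPGroup p P) :
    Finite (groupCohomology ((Ctow S L₀ h₀).atSub j P) 2) ∧
      Nat.card (groupCohomology ((Ctow S L₀ h₀).atSub j P) 2) ≤ Nat.card P := by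
  have hunr : UnramifiedOutside S j.1.1.field := Level.unramifiedOutside_of_isS S j.1.1 j.2
  change Subgroup j.1.1.G at P
  exact (h1P_h2P_CS (G := j.1.1.G) (L := j.1.1.field) hp2 hS hunr
    (secondInequalityStatement p hp2) P hP).2

/-- the arithmetic input (P4) for the order of the cyclotomic classes -/
def OrderInput : Prop :=
  ∀ (L : Level) (_ : L.IsS S) (e : ℕ) (_ : 0 < e) (h : HasZeta p L e) (b : CS S L.field)
    (_ : ∀ g : L.G, psiLevel p e L h g = 1 → g • b = b),
    relNormProd (psiLevel p e L h).ker b ≠ (aCl p S L (u₀ p)) ^ p ^ (e - 1)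

/-- the arithmetic input (P5) for the vanishing of the restrictions of the cyclotomic classes -/
def ResInput : Prop :=
  ∀ {L L' : Level} (hLL' : L ≤ L') (_ : L'.IsS S)
    (h : HasZeta p L' ((Nat.card L.G).factorization p)),
    ∃ b : CS S L'.field, (∀ g ∈ Level.relGroup hLL', psiLevel p _ L' h g = 1 → g • b = b) ∧
      ∏ᶠ q : ↥(Level.relGroup hLL') ⧸ ((psiLevel p _ L' h).ker.subgroupOf (Level.relGroup hLL')),
        ((q.out : ↥(Level.relGroup hLL')) : L'.G) • b = aCl p S L' (u₀ p)

/-- **the cyclotomic classes of the tower of `S`-levels** -/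
def Ctow_cycClasses (hpS : pPrimes p ∈ S) (hord : OrderInput p S) (hres : ResInput p S) :
    CycClasses p (towerS S L₀ h₀) (Ctow S L₀ h₀) :=
  cycClassesS p hp2 S L₀ h₀ hpS (u₀ p) (Ctow_h1P p hp2 S L₀ h₀ ⟨_, hpS⟩)
    (fun k e hk b hb => by
      have h := hord k.1.1 k.2 (e + 1) (Nat.succ_pos e) hk b
        (fun g hg => hb g (MonoidHom.mem_ker.2 hg))
      rw [Nat.add_sub_cancel] at h
      exact h)
    (fun j => by
      obtain ⟨k, hjk, hk⟩ := exists_hasZeta_towerS p S hpS L₀ h₀ j
        ((Nat.card j.1.1.G).factorization p)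
      obtain ⟨b, hb, hab⟩ := hres (L := j.1.1) (L' := k.1.1) hjk k.2 hk
      exact ⟨k, hjk, hk, b, hb, hab⟩)

/-- **the global fundamental `p`-classes** (C5-f), from the two arithmetic inputs -/
def Ctow_pFundamental_of (hpS : pPrimes p ∈ S) (hord : OrderInput p S) (hres : ResInput p S) :
    PFundamental p (towerS S L₀ h₀) (Ctow S L₀ h₀) :=
  (Ctow_cycClasses p hp2 S L₀ h₀ hpS hord hres).pFundamental
    (Ctow_hasDescent S L₀ h₀ ⟨_, hpS⟩) (Ctow_h1P p hp2 S L₀ h₀ ⟨_, hpS⟩)
    (pinf_towerS p S L₀ h₀ hpS) (Ctow_h2P p hp2 S L₀ h₀ ⟨_, hpS⟩)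
    (fun j U => Ctow_finite_mod_n S L₀ h₀ ⟨_, hpS⟩ hp.out.ne_zero j U)

end

end Fermat.Agent.CFT.Bridge
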