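/-
P4 / Layer C5 (P3, PSI-MAIN in level form): the explicit reciprocity character `PsiQ e` kills the
norms from the `e`-th layer of the cyclotomic `ℤ_p`-extension, for an arbitrary `S`-level `L`
containing `μ_{p^(e+1)}`: reduction to the cyclotomic level `cycLevel p e` by Galois descent.
-/
import Fermat.Agent.Lib.CFT.Bridge.CycChiS
import Fermat.Agent.Lib.CFT.Bridge.TowerFields
import Fermat.Agent.Lib.CFT.Global.CyclicLayers
import Fermat.Agent.Lib.CFT.Global.Recip.PsiNorm

set_option autoImplicit false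
set_option linter.unusedSectionVars false
set_option linter.style.haveILetI false

namespace Fermat.Agent.CFT.Bridge

open Duality Global

noncomputable section

/-! ## Relative norms along a surjection of groups -/

section RelNormMap

variable {G G' : Type} [Group G] [Group G'] [Finite G] [Finite G'] {M M' : Type*} [CommGroup M]
  [CommGroup M'] [MulDistribMulAction G M] [MulDistribMulAction G' M']

/-- **Relative norms and descent**: for a surjection `π : G → G'`, `V = π⁻¹ V'` and an equivariant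
map `f : M' → M`, `N_{G/V} (f b₁) = f (N_{G'/V'} b₁)` on `V'`-invariant elements. -/
theorem relNormProd_comap_map (π : G →* G') (hπ : Function.Surjective π) (V' : Subgroup G')
    (f : M' →* M) (hf : ∀ (g : G) (m : M'), f (π g • m) = g • f m) (b₁ : M')
    (hb₁ : ∀ v ∈ V', v • b₁ = b₁) :
    relNormProd (V'.comap π) (f b₁) = f (relNormProd V' b₁) := by
  classical
  -- the bijection `G ⧸ π⁻¹ V' ≃ G' ⧸ V'`
  let e₀ : G ⧸ V'.comap π → G' ⧸ V' :=
    Quotient.map' π (fun a b hab => by
      rw [QuotientGroup.leftRel_apply] at hab ⊢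
      have : π (a⁻¹ * b) ∈ V' := hab
      rwa [map_mul, map_inv] at this)
  have he₀ : ∀ g : G, e₀ (g : G ⧸ V'.comap π) = ((π g : G') : G' ⧸ V') := fun g => rfl
  have hinj : Function.Injective e₀ := by
    intro a b hab
    obtain ⟨a, rfl⟩ := QuotientGroup.mk_surjective a
    obtain ⟨b, rfl⟩ := QuotientGroup.mk_surjective b
    rw [he₀, he₀, QuotientGroup.eq] at hab
    rw [QuotientGroup.eq]
    change π (a⁻¹ * b) ∈ V'
    rwa [map_mul, map_inv]
  have hsurj : Function.Surjective e₀ := by
    intro c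
    obtain ⟨c, rfl⟩ := QuotientGroup.mk_surjective c
    obtain ⟨g, rfl⟩ := hπ c
    exact ⟨(g : G ⧸ V'.comap π), he₀ g⟩
  let e : G ⧸ V'.comap π ≃ G' ⧸ V' := Equiv.ofBijective e₀ ⟨hinj, hsurj⟩
  have h1 : ∀ q : G ⧸ V'.comap π, q.out • f b₁ = f ((e q).out • b₁) := by
    intro q
    rw [← hf]
    congr 1
    have h2 : e q = ((π q.out : G') : G' ⧸ V') := by
      change e₀ q = _
      rw [← he₀, QuotientGroup.out_eq']
    rw [h2, out_smul_eq_of_invariant V' hb₁]
  unfold relNormProd
  rw [map_finprod _ (Set.toFinite _)]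
  simp only [h1]
  exact finprod_comp_equiv e (f := fun q' : G' ⧸ V' => f (q'.out • b₁))

end RelNormMap

/-! ## The cyclotomic level -/

section CycLevel

variable (p : ℕ) [hp : Fact p.Prime]

/-- the index of the kernel of `psiLevel` is `p ^ e` -/
theorem index_ker_psiLevel (hp2 : p ≠ 2) (e : ℕ) (L : Level) (h : HasZeta p L e) :
    (psiLevel p e L h).ker.index = p ^ e := by
  rw [← ker_chiLevel p hp2, Subgroup.index_ker,
    MonoidHom.range_eq_top.2 (chiLevel_surjective p hp2 e L h), ← card_Zcyc p hp2 e]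
  exact Nat.card_congr Subgroup.topEquiv.toEquiv

/-- the quotient by the kernel of `psiLevel` is cyclic -/
theorem exists_generator_quotient_ker_psiLevel (hp2 : p ≠ 2) (e : ℕ) (L : Level)
    (h : HasZeta p L e) :
    ∃ k₀ : L.G, ∀ g : L.G ⧸ (psiLevel p e L h).ker,
      g ∈ Subgroup.zpowers ((k₀ : L.G) : L.G ⧸ (psiLevel p e L h).ker) := by
  obtain ⟨k₀, hk₀⟩ := chiLevel_surjective p hp2 e L h (ZcycGen p e)
  refine ⟨k₀, fun g => ?_⟩
  obtain ⟨g, rfl⟩ := QuotientGroup.mk_surjective g
  obtain ⟨m, hm⟩ := Subgroup.mem_zpowers_iff.1 (mem_zpowers_ZcycGen p e (chiLevel p hp2 e L h g))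
  rw [Subgroup.mem_zpowers_iff]
  refine ⟨m, ?_⟩
  rw [← QuotientGroup.mk_zpow, QuotientGroup.eq, ← ker_chiLevel p hp2, MonoidHom.mem_ker, map_mul,
    map_inv, map_zpow, hk₀, hm, inv_mul_cancel]

end CycLevel

/-! ## PSI-MAIN in level form -/

section Main

variable (p : ℕ) [hp : Fact p.Prime]

/-- **(P2)**, the pair form of "`Ψ_n` kills the norms from the `n`-th cyclotomic layer" (for fields
unramified outside `p`), as a statement. -/
def PsiNormStatement (hp2 : p ≠ 2) : Prop :=
  ∀ (S : Finset Nat.Primes) (hpS : pPrimes p ∈ S) {G L : Type} [Group G] [Finite G] [Field L]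
    [NumberField L] [MulSemiringAction G L] [IsGaloisGroup G ℚ L]
    (_ : UnramifiedOutside {pPrimes p} L) (V : Subgroup G) [V.Normal] (n : ℕ)
    (_ : V.index = p ^ n) (k₀ : G)
    (_ : ∀ g : G ⧸ V, g ∈ Subgroup.zpowers (k₀ : G ⧸ V)) (b : CS S L)
    (_ : ∀ v ∈ V, v • b = b) (y : CS S ℚ)
    (_ : CS.map S (algebraMap ℚ L) y = relNormProd V b), PsiQ n S hpS hp2 y = 1

/-- **PSI-MAIN, level form**, from the pair form. -/
theorem Level.PsiQ_eq_one_of_relNormProd_of (hp2 : p ≠ 2) (hP2 : PsiNormStatement p hp2)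
    (S : Finset Nat.Primes) (hpS : pPrimes p ∈ S) (L : Level) (hL : L.IsS S) (e : ℕ)
    (h : HasZeta p L e) (b : CS S L.field)
    (hb : ∀ g : L.G, psiLevel p e L h g = 1 → g • b = b) (y : CS S ℚ)
    (hy : CS.map S (algebraMap ℚ L.field) y = relNormProd (psiLevel p e L h).ker b) :
    PsiQ e S hpS hp2 y = 1 := by
  classical
  have hS : S.Nonempty := ⟨_, hpS⟩
  set K : Level := cycLevel p e with hK
  have hKL : K ≤ L := h
  have hKe : HasZeta p K e := hasZeta_cycLevel p e
  letI := Level.algebraOfLE hKL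
  haveI := Level.isGaloisGroup_relGroup hKL
  have hunrL : UnramifiedOutside S L.field := Level.unramifiedOutside_of_isS S L hL
  have hunrK : UnramifiedOutside {pPrimes p} K.field :=
    Level.unramifiedOutside_of_isS {pPrimes p} K
      (cycLevel_isS p {pPrimes p} (Finset.mem_singleton_self _) e)
  -- the characters on `L` and `K`
  have hψ : ∀ g : L.G, psiLevel p e K hKe (Level.map hKL g) = psiLevel p e L h g :=
    fun g => psiLevel_map p e hKe hKL g
  have hker : (psiLevel p e L h).ker = (psiLevel p e K hKe).ker.comap (Level.map hKL) := by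
    ext g
    rw [Subgroup.mem_comap, MonoidHom.mem_ker, MonoidHom.mem_ker, hψ]
  -- descent of `b`
  obtain ⟨b₁, hb₁⟩ := CS.exists_map_eq_of_forall_smul_eq (K := K.field) (L := L.field)
    (G := Level.relGroup hKL) hS hunrL b (fun g => hb (g : L.G) (by
      rw [← hψ, (MonoidHom.mem_ker).1 g.2, map_one]))
  have hb₁' : CS.map S (Level.incl hKL) b₁ = b := hb₁
  have hinj : Function.Injective (CS.map S (Level.incl hKL)) :=
    CS.map_algebraMap_injective (S := S) (K := K.field) (L := L.field) (Level.relGroup hKL) hS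
  have hb₁inv : ∀ v ∈ (psiLevel p e K hKe).ker, v • b₁ = b₁ := by
    intro v hv
    obtain ⟨g, rfl⟩ := Level.map_surjective hKL v
    apply hinj
    rw [CStow_smul S hKL g b₁, hb₁']
    exact hb g (by rw [← hψ]; exact hv)
  -- the norm descends
  have hnorm : relNormProd (psiLevel p e L h).ker b
      = CS.map S (Level.incl hKL) (relNormProd (psiLevel p e K hKe).ker b₁) := by
    rw [hker, ← hb₁']
    exact relNormProd_comap_map (Level.map hKL) (Level.map_surjective hKL) _
      (CS.map S (Level.incl hKL)) (fun g m => CStow_smul S hKL g m) b₁ hb₁inv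
  have hcomp : (algebraMap ℚ L.field) = (Level.incl hKL).comp (algebraMap ℚ K.field) :=
    RingHom.ext fun x => by simp
  have hy' : CS.map S (algebraMap ℚ K.field) y = relNormProd (psiLevel p e K hKe).ker b₁ := by
    apply hinj
    rw [← hnorm, ← hy, hcomp, CS.map_comp]
  obtain ⟨k₀, hk₀⟩ := exists_generator_quotient_ker_psiLevel p hp2 e K hKe
  exact hP2 S hpS hunrK (psiLevel p e K hKe).ker e (index_ker_psiLevel p hp2 e K hKe) k₀ hk₀ b₁
    hb₁inv y hy'

/-- (P2) holds (helper6, `Global/Recip/PsiNorm.lean`). -/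
theorem psiNormStatement (hp2 : p ≠ 2) : PsiNormStatement p hp2 :=
  fun S hpS _ _ _ _ _ _ _ _ hunr V _ n hidx k₀ hk₀ b hb y hy =>
    PsiQ_eq_one_of_relNormProd hp2 S hpS hunr V n hidx k₀ hk₀ b hb y hy

/-- **(P3) PSI-MAIN, level form**: for an `S`-level `L ⊇ μ_{p^(e+1)}`, the character `PsiQ e` kills
the classes of `C_S(ℚ)` which become norms from the fixed field of `ker (psiLevel p e L)` (the
`e`-th layer of the cyclotomic `ℤ_p`-extension). -/
theorem Level.PsiQ_eq_one_of_relNormProd (hp2 : p ≠ 2)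
    (S : Finset Nat.Primes) (hpS : pPrimes p ∈ S) (L : Level) (hL : L.IsS S) (e : ℕ)
    (h : HasZeta p L e) (b : CS S L.field)
    (hb : ∀ g : L.G, psiLevel p e L h g = 1 → g • b = b) (y : CS S ℚ)
    (hy : CS.map S (algebraMap ℚ L.field) y = relNormProd (psiLevel p e L h).ker b) :
    PsiQ e S hpS hp2 y = 1 :=
  Level.PsiQ_eq_one_of_relNormProd_of p hp2 (psiNormStatement p hp2) S hpS L hL e h b hb y hy

end Main

end

end Fermat.Agent.CFT.Bridge
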