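/-
P4 / Layer C5, leaf (P5) = C5-e: the restriction input of the cyclotomic classes.
Let `L ≤ L'` be levels, `L'` an `S`-level containing `ζ_{p^(m+1)}`, `m = v_p [L : ℚ]`.  Then the class
`a = aCl p S L' (u₀ p)` is the relative norm, from `L'^{N ∩ ker ψ}` to `L'^N = L` (`N = Gal(L'/L)`,
`ψ = psiLevel`), of a class fixed by `N ∩ ker ψ`.  Proof: `Global/Recip/PsiNormLayer.lean` (counting
with the reciprocity character `PsiQ m`, which kills the norms from the `m`-th cyclotomic layer (P3)).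
-/
import Fermat.Agent.Lib.CFT.Bridge.PsiLevelDefs
import Fermat.Agent.Lib.CFT.Bridge.UnramifiedLevel
import Fermat.Agent.Lib.CFT.Global.Recip.PsiNormLayer
import Fermat.Agent.Lib.CFT.Global.CyclicLayers
import Fermat.Agent.Lib.CFT.Bridge.PsiLevel
import Fermat.Agent.Lib.CFT.Bridge.CycClassesS

set_option autoImplicit false
set_option linter.style.haveILetI false
set_option linter.unusedSectionVars false
set_option linter.unusedVariables false

namespace Fermat.Agent.CFT.Bridge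

noncomputable section

open Duality Global

/-- `psiLevel` is the character `θ` of `Global/Recip/PsiNormLayer.lean` -/
lemma psiLevel_eq_theta (p : ℕ) [Fact p.Prime] (e : ℕ) (L : Level) (h : HasZeta p L e) :
    psiLevel p e L h = PsiNorm.theta L.G (zetaL_spec p e L h) := rfl

/-- the index of `Gal(L'/L)` in `Gal(L'/ℚ)` is `[L : ℚ]` -/
lemma Level.index_relGroup {L L' : Level} (h : L ≤ L') :
    (Level.relGroup h).index = Nat.card L.G := by
  rw [Subgroup.index_ker, MonoidHom.range_eq_top.2 (Level.map_surjective h)]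
  exact Nat.card_congr Subgroup.topEquiv.toEquiv

/-- **C5-e, level form**, for an arbitrary exponent `m` with `p^m ∣ [L : ℚ]`, an arbitrary unit `u`,
and with (P3) as a hypothesis. -/
theorem Level.exists_relNormProd_eq_aCl_of_dvd (p : ℕ) [Fact p.Prime] (hp2 : p ≠ 2)
    (S : Finset Nat.Primes) (hpS : pPrimes p ∈ S) {L L' : Level} (hLL' : L ≤ L') (hL' : L'.IsS S)
    (m : ℕ) (hm : p ^ m ∣ Nat.card L.G) (h : HasZeta p L' m)
    (hP3 : ∀ b : CS S L'.field, (∀ g : L'.G, psiLevel p m L' h g = 1 → g • b = b) →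
      ∀ y : CS S ℚ, CS.map S (algebraMap ℚ L'.field) y =
        relNormProd (psiLevel p m L' h).ker b → PsiQ m S hpS hp2 y = 1)
    (u : ℚ_[p]ˣ) :
    ∃ b : CS S L'.field, (∀ g ∈ Level.relGroup hLL', psiLevel p m L' h g = 1 → g • b = b) ∧
      ∏ᶠ q : ↥(Level.relGroup hLL') ⧸ ((psiLevel p m L' h).ker.subgroupOf (Level.relGroup hLL')),
        ((q.out : ↥(Level.relGroup hLL')) : L'.G) • b = aCl p S L' u := by
  have hunr : UnramifiedOutside S L'.field := Level.unramifiedOutside_of_isS S L' hL'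
  have hidx : p ^ m ∣ (Level.relGroup hLL').index := by
    rw [Level.index_relGroup]
    exact hm
  obtain ⟨b, hb1, hb2⟩ := PsiNorm.exists_relNorm_eq_map (G := L'.G) (L := L'.field) hp2 hpS hunr
    (zetaL_spec p m L' h) (Level.relGroup hLL') hidx (PsiQ m S hpS hp2) (fun x => PsiQ_mk m S hpS hp2 x)
    hP3 (CS.mk S ℚ (FinIdele.single (pPrimes p) (unitsOfQ p u)))
  refine ⟨b, hb1, ?_⟩
  rw [aCl_apply, ← CS.map_mk]
  exact hb2

/-- **(P5) = C5-e** in the shape of `ResInput`, with (P3) as a hypothesis. -/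
theorem Level.exists_relNormProd_eq_aCl_of (p : ℕ) [Fact p.Prime] (hp2 : p ≠ 2)
    (S : Finset Nat.Primes) (hpS : pPrimes p ∈ S) {L L' : Level} (hLL' : L ≤ L') (hL' : L'.IsS S)
    (h : HasZeta p L' ((Nat.card L.G).factorization p))
    (hP3 : ∀ b : CS S L'.field,
      (∀ g : L'.G, psiLevel p ((Nat.card L.G).factorization p) L' h g = 1 → g • b = b) →
      ∀ y : CS S ℚ, CS.map S (algebraMap ℚ L'.field) y =
        relNormProd (psiLevel p ((Nat.card L.G).factorization p) L' h).ker b →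
          PsiQ ((Nat.card L.G).factorization p) S hpS hp2 y = 1) :
    ∃ b : CS S L'.field, (∀ g ∈ Level.relGroup hLL', psiLevel p _ L' h g = 1 → g • b = b) ∧
      ∏ᶠ q : ↥(Level.relGroup hLL') ⧸ ((psiLevel p _ L' h).ker.subgroupOf (Level.relGroup hLL')),
        ((q.out : ↥(Level.relGroup hLL')) : L'.G) • b = aCl p S L' (u₀ p) :=
  Level.exists_relNormProd_eq_aCl_of_dvd p hp2 S hpS hLL' hL' _ (Nat.ordProj_dvd _ _) h hP3 (u₀ p)

/-- **C5-e, level form**, for an arbitrary exponent `m` with `p^m ∣ [L : ℚ]` and an arbitrary unit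
`u` of `ℚ_p`: the class `aCl p S L' u` is a relative norm from `L'^{N ∩ ker ψ}` to `L = L'^N`. -/
theorem Level.exists_relNormProd_eq_aCl_dvd (p : ℕ) [Fact p.Prime] (hp2 : p ≠ 2)
    (S : Finset Nat.Primes) (hpS : pPrimes p ∈ S) {L L' : Level} (hLL' : L ≤ L') (hL' : L'.IsS S)
    (m : ℕ) (hm : p ^ m ∣ Nat.card L.G) (h : HasZeta p L' m) (u : ℚ_[p]ˣ) :
    ∃ b : CS S L'.field, (∀ g ∈ Level.relGroup hLL', psiLevel p m L' h g = 1 → g • b = b) ∧
      ∏ᶠ q : ↥(Level.relGroup hLL') ⧸ ((psiLevel p m L' h).ker.subgroupOf (Level.relGroup hLL')),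
        ((q.out : ↥(Level.relGroup hLL')) : L'.G) • b = aCl p S L' u :=
  Level.exists_relNormProd_eq_aCl_of_dvd p hp2 S hpS hLL' hL' m hm h
    (fun b hb y hy => Level.PsiQ_eq_one_of_relNormProd p hp2 S hpS L' hL' m h b hb y hy) u

/-- **(P5) = C5-e**, verbatim the shape of `ResInput`. -/
theorem Level.exists_relNormProd_eq_aCl (p : ℕ) [Fact p.Prime] (hp2 : p ≠ 2)
    (S : Finset Nat.Primes) (hpS : pPrimes p ∈ S) {L L' : Level} (hLL' : L ≤ L') (hL' : L'.IsS S)
    (h : HasZeta p L' ((Nat.card L.G).factorization p)) :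
    ∃ b : CS S L'.field, (∀ g ∈ Level.relGroup hLL', psiLevel p _ L' h g = 1 → g • b = b) ∧
      ∏ᶠ q : ↥(Level.relGroup hLL') ⧸ ((psiLevel p _ L' h).ker.subgroupOf (Level.relGroup hLL')),
        ((q.out : ↥(Level.relGroup hLL')) : L'.G) • b = aCl p S L' (u₀ p) :=
  Level.exists_relNormProd_eq_aCl_dvd p hp2 S hpS hLL' hL' _ (Nat.ordProj_dvd _ _) h (u₀ p)

/-- **the arithmetic input (P5)** of `Ctow_pFundamental_of` -/
theorem resInput (p : ℕ) [Fact p.Prime] (hp2 : p ≠ 2) (S : Finset Nat.Primes)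
    (hpS : pPrimes p ∈ S) : ResInput p S :=
  fun hLL' hL' h => Level.exists_relNormProd_eq_aCl p hp2 S hpS hLL' hL' h

end

end Fermat.Agent.CFT.Bridge
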