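/-
P4 / Layer C6-K (leaf of the existence theorem): Kummer levels.

* `Level.exists_smul_eq_of_ringHom` : every embedding `L.field →+* ℚ̄` is induced by an element of
  `L.G`.
* `Level.exists_kummer_level` : for an `S`-level `L` containing `μ_p` (all prime divisors of `p` in
  `S`) and a Galois-stable subgroup `Δ ≤ Lˣ` of finite index modulo `p`-th powers whose elements are,
  locally outside `S`, a `p`-th power times a unit, there is an `S`-level `L' ≥ L` with
  `L' = L(Δ^{1/p})` and `Δ ≤ Lˣ ∩ L'ˣᵖ`.  (`L'` is the level of `kummerSplit L p A ℚ̄` for a finite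
  set `A` of representatives of `Δ` modulo `p`-th powers.)
* `Level.exists_kummer_level'` : moreover `Gal(L'/L) = Level.relGroup h` is abelian of exponent `p`
  and order `[Δ Lˣᵖ : Lˣᵖ]`.
-/
import Fermat.Agent.Lib.CFT.Bridge.TowerFields
import Fermat.Agent.Lib.CFT.Global.Kummer
import Fermat.Agent.Lib.CFT.Global.KummerUnramified

set_option autoImplicit false
set_option linter.style.haveILetI false
set_option linter.unusedSectionVars false

namespace Fermat.Agent.CFT.Bridge

open Fermat.Agent.CFT.Global Fermat.Agent.CFT.Duality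

noncomputable section

/-- every embedding of the field of a level into `ℚ̄` is induced by an element of the Galois group
of the level -/
lemma Level.exists_smul_eq_of_ringHom (L : Level) (ψ : L.field →+* Qbar) :
    ∃ g : L.G, ∀ x : L.field, ((g • x : L.field) : Qbar) = ψ x := by
  let ψ' : L.field →ₐ[ℚ] Qbar := ψ.toRatAlgHom
  let σ₀ : Qbar →ₐ[ℚ] Qbar := ψ'.liftNormal Qbar
  let σ : GQ := AlgEquiv.ofBijective σ₀ (AlgHom.normal_bijective ℚ Qbar Qbar σ₀)
  refine ⟨L.proj σ, fun x => ?_⟩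
  rw [Level.coe_proj_smul]
  exact ψ'.liftNormal_commutes Qbar x

/-- **C6-K**: Kummer levels.  For an `S`-level `L` containing `μ_p` and a Galois-stable subgroup
`Δ ≤ Lˣ`, finite modulo `p`-th powers, whose elements are locally outside `S` a `p`-th power times a
unit, the field `L(Δ^{1/p})` is an `S`-level. -/
theorem Level.exists_kummer_level {p : ℕ} [Fact p.Prime] (S : Finset Nat.Primes)
    (hpS : ∀ r : Nat.Primes, r ∉ S → ¬ (r : ℕ) ∣ p)
    (L : Level) (hL : L.IsS S) (ζ : L.field) (hζ : IsPrimitiveRoot ζ p)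
    (Δ : Subgroup L.fieldˣ)
    (hfin : (powMonoidHom p : L.fieldˣ →* L.fieldˣ).range.relIndex Δ ≠ 0)
    (hstable : ∀ (g : L.G) (a : L.fieldˣ), a ∈ Δ →
      Units.map (MulSemiringAction.toRingHom L.G L.field g : L.field →* L.field) a ∈ Δ)
    (hloc : ∀ a ∈ Δ, ∀ r : Nat.Primes, r ∉ S → ∃ t : (SL (r : ℕ) L.field)ˣ,
      ∃ u ∈ SL.unitGroup (r : ℕ) L.field,
        SL.incl (r : ℕ) L.field (a : L.field) = (t : SL (r : ℕ) L.field) ^ p * (u : SL (r : ℕ) L.field)) :
    ∃ (L' : Level) (h : L ≤ L'), L'.IsS S ∧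
      letI := Level.algebraOfLE h
      IntermediateField.adjoin L.field (Kummer.rootSetOf (L := L'.field) Δ p) = ⊤ ∧
      Δ ≤ Kummer.kummerGroup L.field L'.field p := by
  classical
  have hp : p.Prime := Fact.out
  have hKS : UnramifiedOutside S L.field := Level.unramifiedOutside_of_isS S L hL
  set R : Subgroup L.fieldˣ := (powMonoidHom p : L.fieldˣ →* L.fieldˣ).range with hR
  haveI : (R.subgroupOf Δ).FiniteIndex := ⟨hfin⟩
  haveI : Finite (↥Δ ⧸ R.subgroupOf Δ) := Subgroup.finite_quotient_of_finiteIndex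
  letI := Fintype.ofFinite (↥Δ ⧸ R.subgroupOf Δ)
  let rep : (↥Δ ⧸ R.subgroupOf Δ) → L.fieldˣ := fun t => ((Quotient.out t : ↥Δ) : L.fieldˣ)
  have hrepΔ : ∀ t, rep t ∈ Δ := fun t => (Quotient.out t).2
  set A : Finset L.field := Finset.univ.image (fun t => ((rep t : L.fieldˣ) : L.field)) with hA
  have hrepA : ∀ t, ((rep t : L.fieldˣ) : L.field) ∈ A := fun t =>
    Finset.mem_image.2 ⟨t, Finset.mem_univ _, rfl⟩
  -- every element of `Δ` is a representative times a `p`-th power
  have hdecomp : ∀ a ∈ Δ, ∃ t, ∃ k : L.fieldˣ, a = rep t * k ^ p := by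
    intro a ha
    refine ⟨QuotientGroup.mk ⟨a, ha⟩, ?_⟩
    have h1 : (Quotient.out (QuotientGroup.mk ⟨a, ha⟩ : ↥Δ ⧸ R.subgroupOf Δ))⁻¹ * ⟨a, ha⟩ ∈
        R.subgroupOf Δ := by
      rw [← QuotientGroup.eq]
      exact Quotient.out_eq' _
    rw [Subgroup.mem_subgroupOf] at h1
    obtain ⟨k, hk⟩ := h1
    refine ⟨k, ?_⟩
    have hk' : k ^ p = (rep (QuotientGroup.mk ⟨a, ha⟩))⁻¹ * a := hk
    rw [hk', mul_inv_cancel_left]
  let ψ : L.field →+* Qbar := (L.toIntermediateField.val : L.field →+* Qbar)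
  let L' : Level := kummerLevel L.field p A Qbar
  have h : L ≤ L' := fun x hx => ringHom_mem_kummerSplit hp.ne_zero ψ ⟨x, hx⟩
  have hA' : ∀ a ∈ A, ∀ r : Nat.Primes, r ∉ S → ∃ t : (SL (r : ℕ) L.field)ˣ,
      ∃ u ∈ SL.unitGroup (r : ℕ) L.field,
        SL.incl (r : ℕ) L.field a = (t : SL (r : ℕ) L.field) ^ p * (u : SL (r : ℕ) L.field) := by
    intro a ha r hr
    obtain ⟨t, -, rfl⟩ := Finset.mem_image.1 ha
    exact hloc (rep t) (hrepΔ t) r hr
  have hS' : L'.IsS S :=
    Level.isS_of_unramifiedOutside S L' (kummerSplit_unramifiedOutside S hpS hKS hA')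
  refine ⟨L', h, hS', ?_⟩
  letI := Level.algebraOfLE h
  constructor
  · set T := IntermediateField.adjoin L.field (Kummer.rootSetOf (L := L'.field) Δ p) with hT
    -- each root of `kummerPoly` lies in (the image of) `T`
    have hroot : ∀ ρ ∈ (kummerPoly L.field p A).rootSet Qbar,
        ∃ y : L'.field, y ∈ T ∧ (y : Qbar) = ρ := by
      intro ρ hρ
      have hρL' : ρ ∈ kummerSplit L.field p A Qbar := IntermediateField.subset_adjoin ℚ _ hρ
      rw [mem_rootSet_kummerPoly_iff hp.ne_zero] at hρ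
      rcases hρ with ⟨j, hj⟩ | ⟨a, ha, hρa⟩ | hρ1
      · obtain ⟨ψ', hψ'⟩ := exists_ringHom_apply_eq hj
        obtain ⟨g, hg⟩ := Level.exists_smul_eq_of_ringHom L ψ'
        refine ⟨algebraMap L.field L'.field (g • Module.finBasis ℚ L.field j),
          T.algebraMap_mem _, ?_⟩
        rw [← hψ', ← hg]
        rfl
      · obtain ⟨ψ', hψ'⟩ := exists_ringHom_apply_eq hρa
        obtain ⟨g, hg⟩ := Level.exists_smul_eq_of_ringHom L ψ'
        obtain ⟨t, -, rfl⟩ := Finset.mem_image.1 ha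
        set b : L.fieldˣ := Units.map
          (MulSemiringAction.toRingHom L.G L.field g : L.field →* L.field) (rep t) with hb
        have hbΔ : b ∈ Δ := hstable g _ (hrepΔ t)
        have hy0 : (⟨ρ, hρL'⟩ : L'.field) ≠ 0 := by
          intro h0
          have h1 : ρ = 0 := congrArg Subtype.val h0
          rw [h1, zero_pow hp.ne_zero] at hψ'
          exact (rep t).ne_zero ((map_eq_zero ψ').1 hψ')
        refine ⟨⟨ρ, hρL'⟩, IntermediateField.subset_adjoin _ _
          ⟨Units.mk0 _ hy0, ⟨b, hbΔ, ?_⟩, rfl⟩, rfl⟩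
        apply Units.ext
        apply Subtype.ext
        change ((g • ((rep t : L.fieldˣ) : L.field) : L.field) : Qbar) = ρ ^ p
        rw [hg, hψ']
      · have hy0 : (⟨ρ, hρL'⟩ : L'.field) ≠ 0 := by
          intro h0
          have h1 : ρ = 0 := congrArg Subtype.val h0
          rw [h1, zero_pow hp.ne_zero] at hρ1
          exact zero_ne_one hρ1
        refine ⟨⟨ρ, hρL'⟩, IntermediateField.subset_adjoin _ _
          ⟨Units.mk0 _ hy0, ⟨1, Δ.one_mem, ?_⟩, rfl⟩, rfl⟩
        apply Units.ext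
        apply Subtype.ext
        rw [map_one]
        change (1 : Qbar) = ρ ^ p
        rw [hρ1]
    have key : ∀ z ∈ IntermediateField.adjoin ℚ ((kummerPoly L.field p A).rootSet Qbar),
        ∃ y' : L'.field, y' ∈ T ∧ (y' : Qbar) = z := by
      intro z hz
      induction hz using IntermediateField.adjoin_induction with
      | mem x hx => exact hroot x hx
      | algebraMap x =>
        exact ⟨algebraMap L.field L'.field (algebraMap ℚ L.field x), T.algebraMap_mem _, rfl⟩
      | add x y _ _ hx hy =>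
        obtain ⟨x', hx', rfl⟩ := hx
        obtain ⟨y', hy', rfl⟩ := hy
        exact ⟨x' + y', T.add_mem hx' hy', rfl⟩
      | inv x _ hx =>
        obtain ⟨x', hx', rfl⟩ := hx
        exact ⟨x'⁻¹, T.inv_mem hx', rfl⟩
      | mul x y _ _ hx hy =>
        obtain ⟨x', hx', rfl⟩ := hx
        obtain ⟨y', hy', rfl⟩ := hy
        exact ⟨x' * y', T.mul_mem hx' hy', rfl⟩
    rw [eq_top_iff]
    rintro y -
    obtain ⟨y', hy', hyy'⟩ := key (y : Qbar) y.2
    have : y' = y := Subtype.ext hyy'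
    rw [← this]
    exact hy'
  · intro a ha
    obtain ⟨t, k, rfl⟩ := hdecomp a ha
    obtain ⟨b, hb⟩ : ∃ b : L'.fieldˣ, b ^ p = Kummer.unitsIncl L.field L'.field (rep t) :=
      exists_unit_kummerSplit_pow_eq (A := A) (Ω := Qbar) hp.ne_zero ψ (a := rep t) (hrepA t)
    rw [Kummer.mem_kummerGroup]
    refine ⟨b * Kummer.unitsIncl L.field L'.field k, ?_⟩
    rw [mul_pow, hb, map_mul, map_pow]

/-- **C6-K, with the Galois group**: consequences of `Level.exists_kummer_level` via Kummer theory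
(`Kummer.kummer_generated`) and `Level.isGaloisGroup_relGroup`. -/
theorem Level.exists_kummer_level' {p : ℕ} [Fact p.Prime] (S : Finset Nat.Primes)
    (hpS : ∀ r : Nat.Primes, r ∉ S → ¬ (r : ℕ) ∣ p)
    (L : Level) (hL : L.IsS S) (ζ : L.field) (hζ : IsPrimitiveRoot ζ p)
    (Δ : Subgroup L.fieldˣ)
    (hfin : (powMonoidHom p : L.fieldˣ →* L.fieldˣ).range.relIndex Δ ≠ 0)
    (hstable : ∀ (g : L.G) (a : L.fieldˣ), a ∈ Δ →
      Units.map (MulSemiringAction.toRingHom L.G L.field g : L.field →* L.field) a ∈ Δ)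
    (hloc : ∀ a ∈ Δ, ∀ r : Nat.Primes, r ∉ S → ∃ t : (SL (r : ℕ) L.field)ˣ,
      ∃ u ∈ SL.unitGroup (r : ℕ) L.field,
        SL.incl (r : ℕ) L.field (a : L.field) = (t : SL (r : ℕ) L.field) ^ p * (u : SL (r : ℕ) L.field)) :
    ∃ (L' : Level) (h : L ≤ L'), L'.IsS S ∧
      Nat.card (Level.relGroup h) = (powMonoidHom p : L.fieldˣ →* L.fieldˣ).range.relIndex Δ ∧
      (∀ g ∈ Level.relGroup h, g ^ p = 1) ∧
      (∀ g ∈ Level.relGroup h, ∀ g' ∈ Level.relGroup h, g * g' = g' * g) ∧
      letI := Level.algebraOfLE h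
      IntermediateField.adjoin L.field (Kummer.rootSetOf (L := L'.field) Δ p) = ⊤ := by
  obtain ⟨L', h, hS', hgen, hΔ⟩ := Level.exists_kummer_level S hpS L hL ζ hζ Δ hfin hstable hloc
  letI := Level.algebraOfLE h
  haveI := Level.isGaloisGroup_relGroup h
  obtain ⟨hfd, hgal, hcomm, hexp, hrank, -⟩ := Kummer.kummer_generated hζ Δ hgen hΔ hfin
  let e := IsGaloisGroup.mulEquivAlgEquiv (Level.relGroup h) L.field L'.field
  refine ⟨L', h, hS', ?_, ?_, ?_, hgen⟩
  · rw [IsGaloisGroup.card_eq_finrank (Level.relGroup h) L.field L'.field, hrank]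
  · intro g hg
    have h1 : (⟨g, hg⟩ : Level.relGroup h) ^ p = 1 := by
      apply e.injective
      rw [map_pow, map_one]
      exact hexp _
    exact congrArg Subtype.val h1
  · intro g hg g' hg'
    have h1 : (⟨g, hg⟩ : Level.relGroup h) * ⟨g', hg'⟩ = ⟨g', hg'⟩ * ⟨g, hg⟩ := by
      apply e.injective
      rw [map_mul, map_mul]
      exact hcomm _ _
    exact congrArg Subtype.val h1

end

end Fermat.Agent.CFT.Bridge
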