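/-
P4 / C6: THE EXISTENCE THEOREM of global class field theory at exponent `p` over the `S`-levels
containing `μ_p` (`PTData.ex`).

For every `S`-level `K ⊇ μ_p` the Kummer level `M = K(Δ_S^{1/p})` satisfies
`N_{M/K} C_S(M) = C_S(K)ᵖ`.  Ingredients: Tate's theorem in degree `0` (`Coh/TateZero.lean`,
abstract tower form `Duality/ExistenceOfCount.lean`), Kummer levels (`Bridge/ExistenceLevel.lean`),
split places give norms (`Global/Existence/SplitNorm.lean`) and the counting
(`Global/Existence/{Count,Selmer}.lean`).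
-/
import Fermat.Agent.Lib.CFT.Bridge.TowerFields
import Fermat.Agent.Lib.CFT.Bridge.FiniteModP
import Fermat.Agent.Lib.CFT.Bridge.ExistenceLevel
import Fermat.Agent.Lib.CFT.Global.Existence.Selmer
import Fermat.Agent.Lib.CFT.Global.Existence.SplitNorm
import Fermat.Agent.Lib.CFT.Duality.ExistenceOfCount

set_option autoImplicit false
set_option linter.style.haveILetI false
set_option linter.unusedSectionVars false



open CategoryTheory

namespace Fermat.Agent.CFT.Bridge

noncomputable section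

open Duality Global

variable (p : ℕ) [hp : Fact p.Prime] (S : Finset Nat.Primes) (L₀ : Level) (h₀ : L₀.IsS S)

/-- the index of the `p`-th powers in `C_S(K)` -/
theorem CS.index_range_pow_eq (K : Type) [Field K] [NumberField K] (n : ℕ) :
    (powMonoidHom n : CS S K →* CS S K).range.index
      = ((FinIdele.princ K).range ⊔ unitsOutside S K
          ⊔ (powMonoidHom n : FinIdele K →* FinIdele K).range).index := by
  have h1 : (powMonoidHom n : CS S K →* CS S K).range
      = ((powMonoidHom n : FinIdele K →* FinIdele K).range).map (CS.mk S K) := by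
    ext x
    constructor
    · rintro ⟨y, rfl⟩
      obtain ⟨z, rfl⟩ := CS.mk_surjective S y
      exact ⟨z ^ n, ⟨z, rfl⟩, map_pow _ _ _⟩
    · rintro ⟨_, ⟨z, rfl⟩, rfl⟩
      exact ⟨CS.mk S K z, (map_pow _ _ _).symm⟩
  have h3 : (CS.mk S K).ker = CS.relations S K := QuotientGroup.ker_mk' _
  rw [h1, Subgroup.index_map, (CS.mk S K).range_eq_top_of_surjective (CS.mk_surjective S),
    Subgroup.index_top, mul_one, h3, CS.relations, sup_comm]

/-- the index of the image of `J_S Jᵖ` in `C_S(K)` -/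
theorem CS.index_map_range_sup_eq (K : Type) [Field K] [NumberField K] (n : ℕ) :
    (((JS.toFinIdele S K).range ⊔ (powMonoidHom n : FinIdele K →* FinIdele K).range).map
      (CS.mk S K)).index
      = ((FinIdele.princ K).range ⊔ (JS.toFinIdele S K).range ⊔ unitsOutside S K
          ⊔ (powMonoidHom n : FinIdele K →* FinIdele K).range).index := by
  have h3 : (CS.mk S K).ker = CS.relations S K := QuotientGroup.ker_mk' _
  rw [Subgroup.index_map, (CS.mk S K).range_eq_top_of_surjective (CS.mk_surjective S),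
    Subgroup.index_top, mul_one, h3, CS.relations]
  congr 1
  ac_rfl

end

end Fermat.Agent.CFT.Bridge

namespace Fermat.Agent.CFT.Bridge

noncomputable section

open Duality Global

variable (p : ℕ) [hp : Fact p.Prime] (S : Finset Nat.Primes) (L₀ : Level) (h₀ : L₀.IsS S)

/-- norms of ideles give norms in the tower module `C_S` -/
theorem Ctow_norm_of_mem_normIdeles {i j : (towerS S L₀ h₀).ι} (h : i ≤ j)
    (t : FinIdele i.1.1.field)
    (ht : letI := Level.algebraOfLE (L := i.1.1) (L' := j.1.1) h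
      t ∈ normIdeles i.1.1.field j.1.1.field (Level.relGroup (L := i.1.1) (L' := j.1.1) h)) :
    ∃ d : (Ctow S L₀ h₀).C j,
      ((Ctow S L₀ h₀).φ h).hom (Additive.ofMul (CS.mk S i.1.1.field t) : Additive (CS S i.1.1.field))
      = ∑ᶠ g : ((towerS S L₀ h₀).π h).ker,
          ((Ctow S L₀ h₀).C j).ρ (g : (towerS S L₀ h₀).G j) d := by
  classical
  letI := Level.algebraOfLE (L := i.1.1) (L' := j.1.1) h
  obtain ⟨X, hX⟩ := ht
  have hX' : normProd (Level.relGroup (L := i.1.1) (L' := j.1.1) h) X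
      = FinIdele.map (Level.incl (L := i.1.1) (L' := j.1.1) h) t := hX
  refine ⟨(Additive.ofMul (CS.mk S j.1.1.field X) : Additive (CS S j.1.1.field)), ?_⟩
  change (Additive.ofMul (CS.map S (Level.incl (L := i.1.1) (L' := j.1.1) h)
      (CS.mk S i.1.1.field t)) : Additive (CS S j.1.1.field))
    = ∑ᶠ g : Level.relGroup (L := i.1.1) (L' := j.1.1) h,
        (Additive.ofMul (CS.mk S j.1.1.field ((g : j.1.1.G) • X)) : Additive (CS S j.1.1.field))
  letI : Fintype (Level.relGroup (L := i.1.1) (L' := j.1.1) h) := Fintype.ofFinite _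
  rw [finsum_eq_sum_of_fintype, ← ofMul_prod, ← map_prod, CS.map_mk, ← hX', normProd_apply,
    finprod_eq_prod_of_fintype]
  rfl

end

end Fermat.Agent.CFT.Bridge

namespace Fermat.Agent.CFT.Bridge

noncomputable section

open Duality Global

variable (p : ℕ) [hp : Fact p.Prime] (S : Finset Nat.Primes) (L₀ : Level) (h₀ : L₀.IsS S)

/-- a finite set of representatives of `C_S(K) / p` of cardinality at most the index -/
theorem CS.exists_finset_card_le (K : Type) [Field K] [NumberField K] {n : ℕ} (hn : n ≠ 0) :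
    ∃ Fs : Finset (Additive (CS S K)),
      Fs.card ≤ (powMonoidHom n : CS S K →* CS S K).range.index ∧
      ∀ c : Additive (CS S K), ∃ f ∈ Fs, ∃ e : Additive (CS S K), c = f + n • e := by
  classical
  haveI : (powMonoidHom n : CS S K →* CS S K).range.FiniteIndex :=
    ⟨CS.index_range_pow_ne_zero S K hn⟩
  haveI : Finite (CS S K ⧸ (powMonoidHom n : CS S K →* CS S K).range) :=
    Subgroup.finite_quotient_of_finiteIndex
  letI : Fintype (CS S K ⧸ (powMonoidHom n : CS S K →* CS S K).range) := Fintype.ofFinite _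
  refine ⟨Finset.univ.image (fun q : CS S K ⧸ (powMonoidHom n : CS S K →* CS S K).range =>
    Additive.ofMul q.out), ?_, fun c => ?_⟩
  · refine Finset.card_image_le.trans ?_
    rw [Finset.card_univ, Subgroup.index, Nat.card_eq_fintype_card]
  · set q : CS S K ⧸ (powMonoidHom n : CS S K →* CS S K).range := QuotientGroup.mk c.toMul with hq
    have h1 : (q.out)⁻¹ * c.toMul ∈ (powMonoidHom n : CS S K →* CS S K).range := by
      rw [← QuotientGroup.eq, hq]
      exact QuotientGroup.out_eq' _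
    obtain ⟨e, he⟩ := h1
    refine ⟨Additive.ofMul q.out, Finset.mem_image.2 ⟨q, Finset.mem_univ _, rfl⟩,
      Additive.ofMul e, ?_⟩
    have h2 : c.toMul = q.out * e ^ n := by
      have he' : e ^ n = (q.out)⁻¹ * c.toMul := he
      rw [he', mul_inv_cancel_left]
    exact congrArg Additive.ofMul h2

/-- **The existence theorem at one level.** -/
theorem Ctow_existence_at (hp2 : p ≠ 2) (hpS : ExtCitation.pPrime p ∈ S) (hμ : HasMu p L₀)
    (F : PFundamental p (towerS S L₀ h₀) (Ctow S L₀ h₀)) (j₀ : (towerS S L₀ h₀).ι) :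
    ∃ (k : (towerS S L₀ h₀).ι) (h : j₀ ≤ k) (V : Subgroup ((towerS S L₀ h₀).G k)),
      V ≤ ((towerS S L₀ h₀).π h).ker ∧ (V.subgroupOf ((towerS S L₀ h₀).π h).ker).Normal ∧
      (∀ g ∈ ((towerS S L₀ h₀).π h).ker, g ^ p ∈ V) ∧
      (∀ g ∈ ((towerS S L₀ h₀).π h).ker, ∀ g' ∈ ((towerS S L₀ h₀).π h).ker,
        g * g' * g⁻¹ * g'⁻¹ ∈ V) ∧
      ∀ d : (Ctow S L₀ h₀).C k, (∀ v ∈ V, ((Ctow S L₀ h₀).C k).ρ v d = d) →
        ∃ e : (Ctow S L₀ h₀).C j₀, ((Ctow S L₀ h₀).φ h).hom (p • e) =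
          ∑ᶠ q : ((towerS S L₀ h₀).π h).ker ⧸ V.subgroupOf ((towerS S L₀ h₀).π h).ker,
            ((Ctow S L₀ h₀).C k).ρ ((q.out : ((towerS S L₀ h₀).π h).ker) : (towerS S L₀ h₀).G k) d := by
  classical
  have hp0 : p ≠ 0 := hp.out.ne_zero
  obtain ⟨ζ, hζ⟩ := hμ.exists_primitiveRoot j₀.1.1 j₀.1.2
  have hpS' : ∀ r : Nat.Primes, r ∉ S → ¬ (r : ℕ) ∣ p := by
    intro r hr hdvd
    have h1 : (r : ℕ) = p := (Nat.prime_dvd_prime_iff_eq r.2 hp.out).1 hdvd
    have h2 : r = ExtCitation.pPrime p := Subtype.ext h1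
    exact hr (h2 ▸ hpS)
  -- Step 1: the Selmer level
  obtain ⟨L₁, h₁, hL₁S, hcard₁, hexp₁, hcomm₁, hgen₁⟩ :=
    Level.exists_kummer_level' S hpS' j₀.1.1 j₀.2 ζ hζ (SelS S j₀.1.1.field p)
      (relIndex_SelS_ne_zero ζ hζ) (fun g a ha => SelS.map_mem _ ha)
      (fun a ha r hr => DeltaS.exists_local (SelS_le_DeltaS ha) r hr)
  let k₁ : (towerS S L₀ h₀).ι := ⟨⟨L₁, j₀.1.2.trans h₁⟩, hL₁S⟩
  have hk₁ : j₀ ≤ k₁ := h₁
  -- Step 2: the `S`-ideles are norms from `L₁`
  have hnorm : ∀ y : JS S j₀.1.1.field,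
      letI := Level.algebraOfLE (L := j₀.1.1) (L' := L₁) h₁
      JS.toFinIdele S j₀.1.1.field y ∈
        normIdeles j₀.1.1.field L₁.field (Level.relGroup (L := j₀.1.1) (L' := L₁) h₁) := by
    intro y
    letI := Level.algebraOfLE (L := j₀.1.1) (L' := L₁) h₁
    haveI := Level.isGaloisGroup_relGroup (L := j₀.1.1) (L' := L₁) h₁
    exact toFinIdele_mem_normIdeles_of_kummer S hζ (SelS S j₀.1.1.field p) hgen₁
      (fun a ha q hq => SelS.exists_local ha q hq) y
  -- Step 3: the first inequality for `L₁`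
  have hs : (powMonoidHom p : j₀.1.1.fieldˣ →* j₀.1.1.fieldˣ).range.relIndex
      (SelS S j₀.1.1.field p) ≤
      ((FinIdele.princ j₀.1.1.field).range ⊔ (JS.toFinIdele S j₀.1.1.field).range
        ⊔ unitsOutside S j₀.1.1.field
        ⊔ (powMonoidHom p : FinIdele j₀.1.1.field →* FinIdele j₀.1.1.field).range).index := by
    have hexp₁' : ∀ g ∈ ((towerS S L₀ h₀).π hk₁).ker, g ^ p = 1 := hexp₁
    have hcomm₁' : ∀ g ∈ ((towerS S L₀ h₀).π hk₁).ker, ∀ g' ∈ ((towerS S L₀ h₀).π hk₁).ker,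
        g * g' = g' * g := hcomm₁
    let H₀ : Subgroup (CS S j₀.1.1.field) :=
      ((JS.toFinIdele S j₀.1.1.field).range ⊔
        (powMonoidHom p : FinIdele j₀.1.1.field →* FinIdele j₀.1.1.field).range).map
        (CS.mk S j₀.1.1.field)
    let H' : AddSubgroup (Additive (CS S j₀.1.1.field)) := Subgroup.toAddSubgroup H₀
    let H : AddSubgroup ((Ctow S L₀ h₀).C j₀) := H'
    have hHidx : H.index = ((FinIdele.princ j₀.1.1.field).range ⊔
        (JS.toFinIdele S j₀.1.1.field).range ⊔ unitsOutside S j₀.1.1.field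
        ⊔ (powMonoidHom p : FinIdele j₀.1.1.field →* FinIdele j₀.1.1.field).range).index :=
      (Subgroup.index_toAddSubgroup (H := H₀)).trans (CS.index_map_range_sup_eq S j₀.1.1.field p)
    have hH : ∀ x ∈ H, ∃ d : (Ctow S L₀ h₀).C k₁, ((Ctow S L₀ h₀).φ hk₁).hom x
        = ∑ᶠ g : ((towerS S L₀ h₀).π hk₁).ker,
            ((Ctow S L₀ h₀).C k₁).ρ (g : (towerS S L₀ h₀).G k₁) d := by
      intro x hx
      obtain ⟨w, hw, hwx⟩ : ∃ w ∈ (JS.toFinIdele S j₀.1.1.field).range ⊔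
          (powMonoidHom p : FinIdele j₀.1.1.field →* FinIdele j₀.1.1.field).range,
          CS.mk S j₀.1.1.field w = Additive.toMul x := hx
      rw [Subgroup.mem_sup] at hw
      obtain ⟨_, ⟨y, rfl⟩, _, ⟨z, rfl⟩, rfl⟩ := hw
      let a₁ : (Ctow S L₀ h₀).C j₀ :=
        (Additive.ofMul (CS.mk S j₀.1.1.field (JS.toFinIdele S j₀.1.1.field y)) :
          Additive (CS S j₀.1.1.field))
      let a₂ : (Ctow S L₀ h₀).C j₀ :=
        (Additive.ofMul (CS.mk S j₀.1.1.field z) : Additive (CS S j₀.1.1.field))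
      obtain ⟨d₁, hd₁⟩ : ∃ d₁ : (Ctow S L₀ h₀).C k₁, ((Ctow S L₀ h₀).φ hk₁).hom a₁
          = ∑ᶠ g : ((towerS S L₀ h₀).π hk₁).ker,
            ((Ctow S L₀ h₀).C k₁).ρ (g : (towerS S L₀ h₀).G k₁) d₁ :=
        Ctow_norm_of_mem_normIdeles S L₀ h₀ hk₁ (JS.toFinIdele S j₀.1.1.field y) (hnorm y)
      obtain ⟨d₂, hd₂⟩ := F.exists_norm_eq_nsmul hk₁ hexp₁' hcomm₁' a₂
      refine ⟨d₁ + d₂, ?_⟩
      have hx' : x = a₁ + p • a₂ := by
        apply Additive.toMul.injective
        rw [← hwx, map_mul, powMonoidHom_apply, map_pow]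
        rfl
      have hfs : ∀ d : (Ctow S L₀ h₀).C k₁, (Function.support fun g : ((towerS S L₀ h₀).π hk₁).ker =>
          ((Ctow S L₀ h₀).C k₁).ρ (g : (towerS S L₀ h₀).G k₁) d).Finite := fun d => Set.toFinite _
      rw [hx', map_add, hd₁, hd₂, ← finsum_add_distrib (hfs d₁) (hfs d₂)]
      exact finsum_congr fun g => (map_add _ _ _).symm
    have hfin : H.index ≠ 0 := by
      rw [hHidx]
      exact Existence.index_sup_Jp_ne_zero index_princ_sup_range_sup_unitsOutside_ne_zero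
    have h5 := F.card_ker_le_index hk₁ hexp₁' hcomm₁' H hH hfin
    rw [hHidx] at h5
    have h6 : Nat.card ((towerS S L₀ h₀).π hk₁).ker
        = Nat.card (Level.relGroup (L := j₀.1.1) (L' := L₁) h₁) := rfl
    rw [h6, hcard₁] at h5
    exact h5
  -- Step 4: the counting
  have hc := index_le_relIndex_DeltaS (S := S) (K := j₀.1.1.field) hp2 hpS ζ hζ hs
  -- Step 5: the level of `Δ_S`
  obtain ⟨L₂, h₂, hL₂S, hcard₂, hexp₂, hcomm₂, -⟩ :=
    Level.exists_kummer_level' S hpS' j₀.1.1 j₀.2 ζ hζ (DeltaS S j₀.1.1.field p)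
      (relIndex_DeltaS_ne_zero ζ hζ) (fun g a ha => DeltaS.map_mem _ ha)
      (fun a ha r hr => DeltaS.exists_local ha r hr)
  let k₂ : (towerS S L₀ h₀).ι := ⟨⟨L₂, j₀.1.2.trans h₂⟩, hL₂S⟩
  have hk₂ : j₀ ≤ k₂ := h₂
  have hexp₂' : ∀ g ∈ ((towerS S L₀ h₀).π hk₂).ker, g ^ p = 1 := hexp₂
  have hcomm₂' : ∀ g ∈ ((towerS S L₀ h₀).π hk₂).ker, ∀ g' ∈ ((towerS S L₀ h₀).π hk₂).ker,
      g * g' = g' * g := hcomm₂
  obtain ⟨Fs, hFs, hcover⟩ := CS.exists_finset_card_le S j₀.1.1.field hp0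
  have hFs' : Fs.card ≤ Nat.card ((towerS S L₀ h₀).π hk₂).ker := by
    have h6 : Nat.card ((towerS S L₀ h₀).π hk₂).ker
        = Nat.card (Level.relGroup (L := j₀.1.1) (L' := L₂) h₂) := rfl
    rw [h6, hcard₂]
    refine hFs.trans ?_
    rw [CS.index_range_pow_eq]
    exact hc
  obtain ⟨V, hV⟩ := F.existence_of_card_le hk₂ hexp₂' hcomm₂' Fs hFs' hcover
  exact ⟨k₂, hk₂, V, hV⟩

end

end Fermat.Agent.CFT.Bridge

namespace Fermat.Agent.CFT.Bridge

noncomputable section

open Duality Global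

/-- **THE EXISTENCE THEOREM** (`PTData.ex`): the tower module `C_S` over the `S`-levels containing
`μ_p` satisfies `PExistence`, as soon as it carries fundamental `p`-classes. -/
theorem Ctow_pExistence (p : ℕ) [hp : Fact p.Prime] (S : Finset Nat.Primes) (L₀ : Level)
    (h₀ : L₀.IsS S) (hp2 : p ≠ 2) (hpS : ExtCitation.pPrime p ∈ S) (hμ : HasMu p L₀)
    (F : PFundamental p (towerS S L₀ h₀) (Ctow S L₀ h₀)) :
    PExistence p (towerS S L₀ h₀) (Ctow S L₀ h₀) :=
  ⟨fun j₀ => Ctow_existence_at p S L₀ h₀ hp2 hpS hμ F j₀⟩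

end

end Fermat.Agent.CFT.Bridge
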