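/-
P4 / Layer C5, leaf (P4) = C5-PSI-ORDER: the order input of the cyclotomic classes.
`a^(p^(e-1))` (`a` the class of the idele `1 + p` at `p`) is not a norm from the `e`-th layer of the
cyclotomic `ℤ_p`-extension: apply the reciprocity character `PsiQ e` (trivial on these norms, (P3))
and use that `psiQ p e (aIdele p)` has order `p^e`.
-/
import Fermat.Agent.Lib.CFT.Bridge.PsiLevelDefs
import Fermat.Agent.Lib.CFT.Global.CyclicLayers
import Fermat.Agent.Lib.CFT.Bridge.PsiLevel
import Fermat.Agent.Lib.CFT.Bridge.CycClassesS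

set_option autoImplicit false
set_option linter.unusedSectionVars false
set_option linter.unusedVariables false

namespace Fermat.Agent.CFT.Bridge

open Fermat.Agent.CFT.Global Duality

noncomputable section

/-- the class `aCl p S L (u₀ p)` is the image of the class of the idele `aIdele p` of `ℚ` -/
lemma aCl_u₀_eq (p : ℕ) [Fact p.Prime] (S : Finset Nat.Primes) (L : Level) :
    aCl p S L (u₀ p) = CS.map S (algebraMap ℚ L.field) (CS.mk S ℚ (aIdele p)) := by
  rw [CS.map_mk]
  rfl

/-- (P4) with (P3) as a hypothesis -/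
theorem Level.relNormProd_ne_aCl_pow_of (p : ℕ) [Fact p.Prime] (hp2 : p ≠ 2)
    (S : Finset Nat.Primes) (hpS : pPrimes p ∈ S) (L : Level) (e : ℕ) (he : 0 < e)
    (h : HasZeta p L e) (b : CS S L.field)
    (hP3 : ∀ y : CS S ℚ, CS.map S (algebraMap ℚ L.field) y =
      relNormProd (psiLevel p e L h).ker b → PsiQ e S hpS hp2 y = 1) :
    relNormProd (psiLevel p e L h).ker b ≠ (aCl p S L (u₀ p)) ^ p ^ (e - 1) := by
  intro heq
  have hp : p.Prime := Fact.out
  have h1 := hP3 ((CS.mk S ℚ (aIdele p)) ^ p ^ (e - 1)) (by rw [map_pow, ← aCl_u₀_eq, heq])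
  rw [map_pow, PsiQ_mk] at h1
  have h2 := orderOf_dvd_of_pow_eq_one h1
  rw [orderOf_psiQ_aIdele e hp2] at h2
  have h3 : e ≤ e - 1 := (Nat.pow_dvd_pow_iff_le_right hp.one_lt).1 h2
  omega

/-- **(P4)** `a^(p^(e-1))` is not a norm from the `e`-th layer of the cyclotomic `ℤ_p`-extension
(unconditional: (P3) is `Level.PsiQ_eq_one_of_relNormProd`) -/
theorem Level.relNormProd_ne_aCl_pow (p : ℕ) [Fact p.Prime] (hp2 : p ≠ 2)
    (S : Finset Nat.Primes) (hpS : pPrimes p ∈ S) (L : Level) (hL : L.IsS S) (e : ℕ) (he : 0 < e)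
    (h : HasZeta p L e) (b : CS S L.field)
    (hb : ∀ g : L.G, psiLevel p e L h g = 1 → g • b = b) :
    relNormProd (psiLevel p e L h).ker b ≠ (aCl p S L (u₀ p)) ^ p ^ (e - 1) :=
  Level.relNormProd_ne_aCl_pow_of p hp2 S hpS L e he h b
    (fun y hy => Level.PsiQ_eq_one_of_relNormProd p hp2 S hpS L hL e h b hb y hy)

/-- the arithmetic input `OrderInput p S` of `Ctow_pFundamental_of` / `poitouTateStatement_of_arith` -/
theorem orderInput (p : ℕ) [Fact p.Prime] (hp2 : p ≠ 2) (S : Finset Nat.Primes)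
    (hpS : pPrimes p ∈ S) : OrderInput p S :=
  fun L hL e he h b hb => Level.relNormProd_ne_aCl_pow p hp2 S hpS L hL e he h b hb

end

end Fermat.Agent.CFT.Bridge
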