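/-
P4 / Layer C5-f, final form: the global fundamental `p`-classes of the tower of `S`-levels,
UNCONDITIONALLY: `Ctow_pFundamental : PFundamental p (towerS S L₀ h₀) (Ctow S L₀ h₀)`, obtained by
feeding the two arithmetic inputs `orderInput` (P4, `Bridge/PsiOrder.lean`) and `resInput`
(P5, `Bridge/C5e.lean`) into `Ctow_pFundamental_of` (`Bridge/CycClassesS.lean`); and the resulting
unconditional existence theorem `Ctow_pExistence_final`.
-/
import Fermat.Agent.Lib.CFT.Bridge.PsiOrder
import Fermat.Agent.Lib.CFT.Bridge.C5e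
import Fermat.Agent.Lib.CFT.Bridge.Existence

set_option autoImplicit false
set_option linter.unusedSectionVars false

namespace Fermat.Agent.CFT.Bridge

open Fermat.Agent.CFT.Global Duality

noncomputable section

/-- **the global fundamental `p`-classes** of the tower of `S`-levels above `L₀` (`p` odd, `p ∈ S`) -/
def Ctow_pFundamental (p : ℕ) [Fact p.Prime] (hp2 : p ≠ 2) (S : Finset Nat.Primes) (L₀ : Level)
    (h₀ : L₀.IsS S) (hpS : pPrimes p ∈ S) : PFundamental p (towerS S L₀ h₀) (Ctow S L₀ h₀) :=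
  Ctow_pFundamental_of p hp2 S L₀ h₀ hpS (orderInput p hp2 S hpS) (resInput p hp2 S hpS)

/-- the existence theorem for the tower of `S`-levels above a level containing `μ_p`, unconditional -/
theorem Ctow_pExistence_final (p : ℕ) [Fact p.Prime] (hp2 : p ≠ 2) (S : Finset Nat.Primes)
    (L₀ : Level) (h₀ : L₀.IsS S) (hpS : pPrimes p ∈ S) (hμ : HasMu p L₀) :
    PExistence p (towerS S L₀ h₀) (Ctow S L₀ h₀) :=
  Ctow_pExistence p S L₀ h₀ hp2 hpS hμ (Ctow_pFundamental p hp2 S L₀ h₀ hpS)

end

end Fermat.Agent.CFT.Bridge
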