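import Fermat.Agent.Lib.CFT.Bridge.Inertia

/-!
# P4 / E-bridge: existence of levels

* every open normal subgroup of `G_ℚ` is `L.N` for a level `L`;
* a finite extension unramified outside `S` is contained in a level unramified outside `S`;
* a smooth finite-dimensional representation unramified outside `S` is defined on such a level.
-/

set_option autoImplicit false

open scoped Pointwise

namespace Fermat.Agent.CFT

namespace Bridge

open ExtCitation

/-- Every open normal subgroup of `G_ℚ` comes from a level. -/
theorem exists_level_N_eq (H : Subgroup GQ) [hn : H.Normal] (hH : IsOpen (H : Set GQ)) :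
    ∃ L : Level, L.N = H := by
  have hcl : IsClosed (H : Set GQ) := H.isClosed_of_isOpen hH
  let Hc : ClosedSubgroup GQ := ⟨H, hcl⟩
  have hfix : (IntermediateField.fixedField H).fixingSubgroup = H :=
    InfiniteGalois.fixingSubgroup_fixedField Hc
  have hgal := (InfiniteGalois.normal_iff_isGalois (IntermediateField.fixedField H)).mp
    (hfix.symm ▸ hn)
  have hfin := (InfiniteGalois.isOpen_iff_finite (IntermediateField.fixedField H)).mp
    (by rw [hfix]; exact hH)
  exact ⟨@FiniteGaloisIntermediateField.mk ℚ Qbar _ _ _ (IntermediateField.fixedField H) hfin hgal,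
    hfix⟩

lemma Level.N_isOpen (L : Level) : IsOpen (L.N : Set GQ) :=
  IntermediateField.fixingSubgroup_isOpen L.toIntermediateField

lemma Level.le_iff_N_le {L L' : Level} : L ≤ L' ↔ L'.N ≤ L.N := by
  constructor
  · exact Level.N_anti
  · intro h
    have h1 := IntermediateField.fixedField_antitone h
    change IntermediateField.fixedField L.toIntermediateField.fixingSubgroup
      ≤ IntermediateField.fixedField L'.toIntermediateField.fixingSubgroup at h1
    rw [InfiniteGalois.fixedField_fixingSubgroup, InfiniteGalois.fixedField_fixingSubgroup] at h1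
    exact h1

lemma Level.isS_iff (S : Finset Nat.Primes) (L : Level) :
    L.IsS S ↔ ∀ q : Nat.Primes, q ∉ S → ∀ A : ValuationSubring Qbar,
      A.LiesOverPrime (q : ℕ) → A.inertiaSubgroupIn ℚ ≤ L.N :=
  ⟨fun h => h.2, fun h => ⟨inferInstance, h⟩⟩

/-- The normal core of the fixing subgroup of a finite extension comes from a level
(the Galois closure). -/
theorem exists_level_N_eq_normalCore (F : IntermediateField ℚ Qbar) [FiniteDimensional ℚ F] :
    ∃ L : Level, L.N = F.fixingSubgroup.normalCore := by
  have hcore_open : IsOpen (F.fixingSubgroup.normalCore : Set GQ) := by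
    -- the normal closure of `F` gives an open normal subgroup inside
    have hfin := normalClosure.is_finiteDimensional ℚ F Qbar
    have hnorm := normalClosure.normal ℚ F Qbar
    have hgal : IsGalois ℚ (IntermediateField.normalClosure ℚ F Qbar) :=
      { to_isSeparable := inferInstance, to_normal := hnorm }
    have hN : (IntermediateField.normalClosure ℚ F Qbar).fixingSubgroup.Normal :=
      (InfiniteGalois.normal_iff_isGalois _).mpr hgal
    have hle : (IntermediateField.normalClosure ℚ F Qbar).fixingSubgroup ≤ F.fixingSubgroup :=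
      IntermediateField.fixingSubgroup_antitone F.le_normalClosure
    have hle' := (Subgroup.normal_le_normalCore (hN := hN)).mpr hle
    exact Subgroup.isOpen_mono hle'
      (IntermediateField.fixingSubgroup_isOpen (IntermediateField.normalClosure ℚ F Qbar))
  exact exists_level_N_eq F.fixingSubgroup.normalCore hcore_open

/-- Every finite extension is contained in a level. -/
theorem exists_level_N_le (F : IntermediateField ℚ Qbar) [FiniteDimensional ℚ F] :
    ∃ L : Level, L.N ≤ F.fixingSubgroup := by
  obtain ⟨L, hL⟩ := exists_level_N_eq_normalCore F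
  exact ⟨L, hL ▸ F.fixingSubgroup.normalCore_le⟩

/-- A finite extension unramified outside `S` is contained in a level unramified outside `S`. -/
theorem exists_levelS_of_isUnramifiedOutside {S : Finset Nat.Primes}
    {F : IntermediateField ℚ Qbar} (hF : F.IsUnramifiedOutside S) :
    ∃ L : Level, L.IsS S ∧ L.N ≤ F.fixingSubgroup := by
  have hfd := hF.1
  obtain ⟨L, hL⟩ := exists_level_N_eq_normalCore F
  refine ⟨L, ?_, hL ▸ F.fixingSubgroup.normalCore_le⟩
  rw [Level.isS_iff]
  intro q hq A hA σ hσ
  rw [hL]
  intro τ
  -- `τ σ τ⁻¹` is in the inertia group of `τ • A`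
  have h1 : τ * σ * τ⁻¹ ∈ (τ • A).inertiaSubgroupIn ℚ := by
    rw [mem_inertiaSubgroupIn_smul_iff]
    have : τ⁻¹ * (τ * σ * τ⁻¹) * τ = σ := by group
    rw [this]; exact hσ
  exact hF.2 q hq (τ • A) ((liesOverPrime_smul_iff A τ q).mpr hA) h1

variable {k : Type} [Field k] (M : Rep k GQ)

/-- A smooth finite-dimensional representation, unramified outside `S`, is defined on a level
unramified outside `S`. -/
theorem exists_levelS_trivialOn [FiniteDimensional k M] (S : Finset Nat.Primes)
    (hsm : ∀ m : M, ∃ F : IntermediateField ℚ Qbar, FiniteDimensional ℚ F ∧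
      ∀ s ∈ F.fixingSubgroup, M.ρ s m = m)
    (hMur : ∀ q : Nat.Primes, q ∉ S → ∀ A : ValuationSubring Qbar,
      A.LiesOverPrime (q : ℕ) → ∀ g ∈ A.inertiaSubgroupIn ℚ, M.ρ g = 1) :
    ∃ L : Level, L.IsS S ∧ TrivialOn M L := by
  classical
  -- the kernel of `ρ` is open
  have hker_open : IsOpen ((M.ρ : GQ →* (M.V →ₗ[k] M.V)).ker : Set GQ) := by
    obtain ⟨b, hb⟩ := Module.Finite.fg_top (R := k) (M := M.V)
    choose F hFfin hF using hsm
    -- the compositum of the fields fixing the generators
    have hopen : ∀ t : Finset M.V, ∃ U : Subgroup GQ, IsOpen (U : Set GQ) ∧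
        ∀ s ∈ U, ∀ m ∈ t, M.ρ s m = m := by
      intro t
      induction t using Finset.induction_on with
      | empty => exact ⟨⊤, isOpen_univ, fun _ _ _ h => absurd h (Finset.notMem_empty _)⟩
      | insert a t _ ih =>
        obtain ⟨U, hU, hUt⟩ := ih
        haveI := hFfin a
        refine ⟨U ⊓ (F a).fixingSubgroup,
          IsOpen.inter hU (IntermediateField.fixingSubgroup_isOpen (F a)), ?_⟩
        intro s hs m hm
        rcases Finset.mem_insert.mp hm with rfl | hm
        · exact hF _ s hs.2
        · exact hUt s hs.1 m hm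
    obtain ⟨U, hU, hUb⟩ := hopen b
    refine Subgroup.isOpen_mono ?_ hU
    intro s hs
    rw [MonoidHom.mem_ker]
    apply LinearMap.ext_on_range (v := fun x : b => (x : M.V))
    · rw [Subtype.range_coe_subtype]; simpa using hb
    · intro x
      simpa using hUb s hs x.1 x.2
  obtain ⟨L, hL⟩ := exists_level_N_eq _ hker_open
  refine ⟨L, ?_, ?_⟩
  · rw [Level.isS_iff]
    intro q hq A hA g hg
    rw [hL, MonoidHom.mem_ker]
    exact hMur q hq A hA g hg
  · intro s hs
    rw [hL, MonoidHom.mem_ker] at hs
    exact hs

end Bridge

end Fermat.Agent.CFT
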