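import Fermat.Agent.Lib.CFT.Bridge.Inertia
import Fermat.Agent.Lib.CFT.Bridge.Levels

/-!
# P4 / E-bridge: the mod `p` cyclotomic character is unramified outside `p` and of finite level
-/

set_option autoImplicit false

open ExtCitation

namespace Fermat.Agent.CFT

namespace Bridge

section general

variable {L : Type*} [Field L]

/-- A root of unity lies in every valuation subring. -/
lemma mem_valuationSubring_of_pow_eq_one (A : ValuationSubring L) {t : L} {n : ℕ} (hn : 0 < n)
    (ht : t ^ n = 1) : t ∈ A := by
  rcases A.mem_or_inv_mem t with h | h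
  · exact h
  · have : t = (t⁻¹) ^ (n - 1) := by
      have h1 : t * t ^ (n - 1) = 1 := by rw [← pow_succ', Nat.sub_add_cancel hn, ht]
      rw [inv_pow]
      exact eq_inv_of_mul_eq_one_left h1
    rw [this]
    exact pow_mem h _

/-- In a local domain whose residue field has two coprime integers equal to zero... impossible. -/
lemma residue_natCast_ne_zero_of_coprime (A : ValuationSubring L) {p q : ℕ} (hpq : Nat.Coprime p q)
    (hq : IsLocalRing.residue A (q : A) = 0) : IsLocalRing.residue A (p : A) ≠ 0 := by
  intro hp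
  have hcop : IsCoprime (p : ℤ) (q : ℤ) := Nat.isCoprime_iff_coprime.mpr hpq
  obtain ⟨a, b, hab⟩ := hcop
  have h1 : ((a * p + b * q : ℤ) : IsLocalRing.ResidueField A) = 1 := by rw [hab]; simp
  have hp' : ((p : ℤ) : IsLocalRing.ResidueField A) = 0 := by
    rw [Int.cast_natCast, ← map_natCast (IsLocalRing.residue A)]; exact hp
  have hq' : ((q : ℤ) : IsLocalRing.ResidueField A) = 0 := by
    rw [Int.cast_natCast, ← map_natCast (IsLocalRing.residue A)]; exact hq
  rw [Int.cast_add, Int.cast_mul, Int.cast_mul, hp', hq', mul_zero, mul_zero, add_zero] at h1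
  exact zero_ne_one h1

variable {K : Type*} [Field K] [Algebra K L]

/-- Inertia at a prime `q` fixes the roots of unity of prime order `p ≠ q`. -/
theorem inertia_fixes_root_of_unity (A : ValuationSubring L) {p q : ℕ} (hp : p.Prime)
    (hpq : Nat.Coprime p q) (hA : A.LiesOverPrime q) (σ : L ≃ₐ[K] L)
    (hσ : σ ∈ A.inertiaSubgroupIn K) {t : L} (ht : t ^ p = 1) : σ t = t := by
  rw [mem_inertiaSubgroupIn_iff] at hσ
  have htA : t ∈ A := mem_valuationSubring_of_pow_eq_one A hp.pos ht
  have hst : (σ t) ^ p = 1 := by rw [← map_pow, ht, map_one]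
  have hsA : σ t ∈ A := mem_valuationSubring_of_pow_eq_one A hp.pos hst
  set t' : A := ⟨t, htA⟩ with ht'
  set s' : A := ⟨σ t, hsA⟩ with hs'
  have ht'p : t' ^ p = 1 := Subtype.ext ht
  have hs'p : s' ^ p = 1 := Subtype.ext hst
  have hres : IsLocalRing.residue A s' = IsLocalRing.residue A t' := by
    have h1 : s' - t' ∈ IsLocalRing.maximalIdeal A :=
      (A.valuation_lt_one_iff _).mpr (hσ.2 t htA)
    have h2 : IsLocalRing.residue A (s' - t') = 0 := (IsLocalRing.residue_eq_zero_iff _).mpr h1
    rw [map_sub, sub_eq_zero] at h2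
    exact h2
  have hqres : IsLocalRing.residue A (q : A) = 0 := by
    obtain ⟨hqA, hqm⟩ := (ValuationSubring.mem_nonunits_iff_exists_mem_maximalIdeal).mp hA
    have : (q : A) = ⟨(q : L), hqA⟩ := Subtype.ext (by simp)
    rw [this]
    exact (IsLocalRing.residue_eq_zero_iff _).mpr hqm
  have htt : t' * t' ^ (p - 1) = 1 := by rw [← pow_succ', Nat.sub_add_cancel hp.pos, ht'p]
  set u : A := s' * t' ^ (p - 1) with hu
  have hup : u ^ p = 1 := by
    rw [hu, mul_pow, hs'p, one_mul, ← pow_mul, mul_comm, pow_mul, ht'p, one_pow]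
  have hures : IsLocalRing.residue A u = 1 := by
    rw [hu, map_mul, hres, ← map_mul, htt, map_one]
  have hu1 : u = 1 := by
    by_contra hne
    have hgeom : (u - 1) * ∑ i ∈ Finset.range p, u ^ i = 0 := by
      rw [mul_geom_sum, hup, sub_self]
    have hsum : ∑ i ∈ Finset.range p, u ^ i = 0 := by
      rcases mul_eq_zero.mp hgeom with h | h
      · exact absurd (sub_eq_zero.mp h) hne
      · exact h
    have := congrArg (IsLocalRing.residue A) hsum
    rw [map_sum, map_zero] at this
    simp only [map_pow, hures, one_pow, Finset.sum_const, Finset.card_range, nsmul_eq_mul,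
      mul_one] at this
    exact residue_natCast_ne_zero_of_coprime A hpq hqres (by rw [map_natCast]; exact this)
  have : s' = t' := by
    calc s' = s' * (t' * t' ^ (p - 1)) := by rw [htt, mul_one]
      _ = u * t' := by rw [hu]; ring
      _ = t' := by rw [hu1, one_mul]
  exact congrArg Subtype.val this

end general

section cyclo

variable (p : ℕ) [Fact p.Prime]

/-- The cyclotomic character is trivial on automorphisms fixing the `p`-th roots of unity. -/
theorem cycloChar_eq_one_of_fixes (σ : GQ) (h : ∀ t : Qbar, t ^ p = 1 → σ t = t) :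
    cycloChar p σ = 1 := by
  haveI : NeZero p := ⟨(Fact.out : p.Prime).ne_zero⟩
  haveI : Fact (1 < p) := ⟨(Fact.out : p.Prime).one_lt⟩
  have h1 := modularCyclotomicCharacter.unique (L := Qbar) (card_rootsOfUnity_eq_self p)
    (σ : Qbar ≃+* Qbar) (c := 1) (fun t ht => by
      rw [ZMod.val_one, pow_one]
      have : ((t : Qbarˣ) : Qbar) ^ p = 1 := by
        have := (mem_rootsOfUnity p t).mp ht
        rw [← Units.val_pow_eq_pow_val, this, Units.val_one]
      exact h _ this)
  apply Units.ext
  exact h1.symm

/-- The mod `p` cyclotomic character is unramified outside `p`. -/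
theorem cycloChar_eq_one_of_mem_inertia {q : ℕ} (hq : q.Prime) (hqp : q ≠ p)
    (A : ValuationSubring Qbar) (hA : A.LiesOverPrime q) (σ : GQ)
    (hσ : σ ∈ A.inertiaSubgroupIn ℚ) : cycloChar p σ = 1 :=
  cycloChar_eq_one_of_fixes p σ fun _ ht =>
    inertia_fixes_root_of_unity A (Fact.out : p.Prime)
      ((Nat.coprime_primes (Fact.out : p.Prime) hq).mpr (Ne.symm hqp)) hA σ hσ ht

/-- The mod `p` cyclotomic character factors through a finite level. -/
theorem exists_finiteDimensional_cycloChar :
    ∃ F : IntermediateField ℚ Qbar, FiniteDimensional ℚ F ∧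
      ∀ s ∈ F.fixingSubgroup, cycloChar p s = 1 := by
  have hfin : {t : Qbar | t ^ p = 1}.Finite := by
    have hp : 0 < p := (Fact.out : p.Prime).pos
    have hne : (Polynomial.X ^ p - 1 : Polynomial Qbar) ≠ 0 :=
      Polynomial.X_pow_sub_C_ne_zero hp 1
    refine ((Polynomial.X ^ p - 1 : Polynomial Qbar).rootSet_finite Qbar).subset ?_
    intro t ht
    rw [Polynomial.mem_rootSet]
    refine ⟨hne, ?_⟩
    simp only [map_sub, map_pow, Polynomial.aeval_X, map_one]
    rw [Set.mem_setOf_eq] at ht
    rw [ht, sub_self]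
  refine ⟨IntermediateField.adjoin ℚ {t : Qbar | t ^ p = 1}, ?_, fun s hs => ?_⟩
  · haveI : Finite {t : Qbar | t ^ p = 1} := hfin
    exact IntermediateField.finiteDimensional_adjoin
      (fun x _ => (Algebra.IsIntegral.isIntegral x))
  · apply cycloChar_eq_one_of_fixes
    intro t ht
    rw [IntermediateField.mem_fixingSubgroup_iff] at hs
    exact hs t (IntermediateField.subset_adjoin ℚ _ ht)

end cyclo

end Bridge

end Fermat.Agent.CFT
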