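import Fermat.Agent.Lib.CFT.Bridge.LowDegree

/-!
# P4 / E-bridge: pulling back cochains from a finite level, and descending level-constant cochains
-/

set_option autoImplicit false

open groupCohomology CategoryTheory

namespace Fermat.Agent.CFT

namespace Bridge

noncomputable section

variable {X : Type*}

/-- Pull back a 1-cochain from level `L` to `G_ℚ`. -/
def pull₁ (L : Level) (c : L.G → X) : GQ → X := fun g => c (L.proj g)

/-- Pull back a 2-cochain from level `L` to `G_ℚ`. -/
def pull₂ (L : Level) (z : L.G × L.G → X) : GQ × GQ → X := fun g => z (L.proj g.1, L.proj g.2)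

/-- Descend a 1-cochain on `G_ℚ` to level `L` (meaningful if it is constant on cosets of `L.N`). -/
def desc₁ (L : Level) (c : GQ → X) : L.G → X := fun x => c x.out

/-- Descend a 2-cochain on `G_ℚ` to level `L`. -/
def desc₂ (L : Level) (f : GQ × GQ → X) : L.G × L.G → X := fun x => f (x.1.out, x.2.out)

@[simp] lemma pull₁_apply (L : Level) (c : L.G → X) (g : GQ) : pull₁ L c g = c (L.proj g) := rfl

@[simp] lemma pull₂_apply (L : Level) (z : L.G × L.G → X) (g g' : GQ) :
    pull₂ L z (g, g') = z (L.proj g, L.proj g') := rfl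

lemma _root_.Fermat.Agent.CFT.Level.proj_mul_of_mem (L : Level) (g : GQ) {s : GQ} (hs : s ∈ L.N) :
    L.proj (g * s) = L.proj g := by
  rw [map_mul]
  have : L.proj s = 1 := (QuotientGroup.eq_one_iff s).mpr hs
  rw [this, mul_one]

lemma _root_.Fermat.Agent.CFT.Level.exists_out_eq (L : Level) (g : GQ) : ∃ s ∈ L.N, (L.proj g).out = g * s := by
  obtain ⟨h, hh⟩ := QuotientGroup.mk_out_eq_mul L.N g
  exact ⟨h.1, h.2, hh⟩

lemma _root_.Fermat.Agent.CFT.Level.proj_out (L : Level) (x : L.G) : L.proj x.out = x := QuotientGroup.out_eq' x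

lemma pull₁_desc₁ (L : Level) (c : GQ → X) (hc : ∀ g s, s ∈ L.N → c (g * s) = c g) :
    pull₁ L (desc₁ L c) = c := by
  funext g
  obtain ⟨s, hs, h⟩ := L.exists_out_eq g
  change c (L.proj g).out = c g
  rw [h, hc g s hs]

lemma pull₂_desc₂ (L : Level) (f : GQ × GQ → X)
    (hf : ∀ g g' s s', s ∈ L.N → s' ∈ L.N → f (g * s, g' * s') = f (g, g')) :
    pull₂ L (desc₂ L f) = f := by
  funext ⟨g, g'⟩
  obtain ⟨s, hs, h⟩ := L.exists_out_eq g
  obtain ⟨s', hs', h'⟩ := L.exists_out_eq g'
  change f ((L.proj g).out, (L.proj g').out) = f (g, g')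
  rw [h, h', hf g g' s s' hs hs']

lemma desc₁_pull₁ (L : Level) (c : L.G → X) : desc₁ L (pull₁ L c) = c := by
  funext x
  change c (L.proj x.out) = c x
  rw [L.proj_out]

lemma desc₂_pull₂ (L : Level) (z : L.G × L.G → X) : desc₂ L (pull₂ L z) = z := by
  funext ⟨x, y⟩
  change z (L.proj x.out, L.proj y.out) = z (x, y)
  rw [L.proj_out, L.proj_out]

lemma pull₁_injective (L : Level) : Function.Injective (pull₁ (X := X) L) := by
  intro c c' h
  rw [← desc₁_pull₁ L c, ← desc₁_pull₁ L c', h]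

lemma pull₂_injective (L : Level) : Function.Injective (pull₂ (X := X) L) := by
  intro c c' h
  rw [← desc₂_pull₂ L c, ← desc₂_pull₂ L c', h]

lemma pull₁_const_coset (L : Level) (c : L.G → X) (g s : GQ) (hs : s ∈ L.N) :
    pull₁ L c (g * s) = pull₁ L c g := by
  rw [pull₁_apply, pull₁_apply, L.proj_mul_of_mem g hs]

lemma pull₂_const_coset (L : Level) (z : L.G × L.G → X) (g g' s s' : GQ) (hs : s ∈ L.N)
    (hs' : s' ∈ L.N) : pull₂ L z (g * s, g' * s') = pull₂ L z (g, g') := by
  rw [pull₂_apply, pull₂_apply, L.proj_mul_of_mem g hs, L.proj_mul_of_mem g' hs']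

variable {k : Type} [CommRing k] (M : Rep k GQ)

/-- The differential commutes with pull-back. -/
lemma d₁₂_pull₁ (L : Level) (h : TrivialOn M L) (c : L.G → M.V) :
    (d₁₂ M).hom (pull₁ L c) = pull₂ L ((d₁₂ (atLevel M L h)).hom c) := by
  funext ⟨g, g'⟩
  rw [d₁₂_hom_apply, pull₂_apply, d₁₂_hom_apply]
  simp only [pull₁_apply, map_mul]
  rfl

lemma pull₂_mem_cocycles₂ (L : Level) (h : TrivialOn M L) {z : L.G × L.G → M.V}
    (hz : z ∈ cocycles₂ (atLevel M L h)) : pull₂ L z ∈ cocycles₂ M := by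
  have hz' := (mem_cocycles₂_iff (A := atLevel M L h) z).mp hz
  rw [mem_cocycles₂_iff]
  intro g g' g''
  have := hz' (L.proj g) (L.proj g') (L.proj g'')
  simp only [pull₂_apply, map_mul]
  exact this

lemma mem_cocycles₂_of_pull₂ (L : Level) (h : TrivialOn M L) {z : L.G × L.G → M.V}
    (hz : pull₂ L z ∈ cocycles₂ M) : z ∈ cocycles₂ (atLevel M L h) := by
  rw [mem_cocycles₂_iff] at hz
  refine (mem_cocycles₂_iff (A := atLevel M L h) z).mpr ?_
  intro x y w
  obtain ⟨g, rfl⟩ := L.proj_surjective x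
  obtain ⟨g', rfl⟩ := L.proj_surjective y
  obtain ⟨g'', rfl⟩ := L.proj_surjective w
  have := hz g g' g''
  simp only [pull₂_apply, map_mul] at this
  exact this

lemma pull₁_mem_cocycles₁ (L : Level) (h : TrivialOn M L) {c : L.G → M.V}
    (hc : c ∈ cocycles₁ (atLevel M L h)) : pull₁ L c ∈ cocycles₁ M := by
  have hc' := (mem_cocycles₁_iff (A := atLevel M L h) c).mp hc
  rw [mem_cocycles₁_iff]
  intro g g'
  have := hc' (L.proj g) (L.proj g')
  simp only [pull₁_apply, map_mul]
  exact this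

lemma mem_cocycles₁_of_pull₁ (L : Level) (h : TrivialOn M L) {c : L.G → M.V}
    (hc : pull₁ L c ∈ cocycles₁ M) : c ∈ cocycles₁ (atLevel M L h) := by
  rw [mem_cocycles₁_iff] at hc
  refine (mem_cocycles₁_iff (A := atLevel M L h) c).mpr ?_
  intro x y
  obtain ⟨g, rfl⟩ := L.proj_surjective x
  obtain ⟨g', rfl⟩ := L.proj_surjective y
  have := hc g g'
  simp only [pull₁_apply, map_mul] at this
  exact this

end

end Bridge

end Fermat.Agent.CFT
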