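import Fermat.Agent.Lib.CFT.Bridge.LowDegree

/-!
# P4 / E-bridge: pull-back and descent of cochains along a surjective group homomorphism
-/

set_option autoImplicit false

open groupCohomology CategoryTheory

namespace Fermat.Agent.CFT

namespace Bridge

namespace Gen

noncomputable section

variable {Γ Q : Type} [Group Γ] [Group Q] (π : Γ →* Q) {X : Type*}

/-- Pull back a 1-cochain along `π`. -/
def pull₁ (c : Q → X) : Γ → X := fun g => c (π g)

/-- Pull back a 2-cochain along `π`. -/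
def pull₂ (z : Q × Q → X) : Γ × Γ → X := fun g => z (π g.1, π g.2)

@[simp] lemma pull₁_apply (c : Q → X) (g : Γ) : pull₁ π c g = c (π g) := rfl

@[simp] lemma pull₂_apply (z : Q × Q → X) (g g' : Γ) : pull₂ π z (g, g') = z (π g, π g') := rfl

variable (hπ : Function.Surjective π)

/-- Descend a 1-cochain along a surjection. -/
def desc₁ (c : Γ → X) : Q → X := fun x => c (Function.surjInv hπ x)

/-- Descend a 2-cochain along a surjection. -/
def desc₂ (f : Γ × Γ → X) : Q × Q → X :=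
  fun x => f (Function.surjInv hπ x.1, Function.surjInv hπ x.2)

lemma pull₁_desc₁ (c : Γ → X) (hc : ∀ g g', π g = π g' → c g = c g') :
    pull₁ π (desc₁ π hπ c) = c := by
  funext g
  exact hc _ _ (Function.surjInv_eq hπ (π g))

lemma pull₂_desc₂ (f : Γ × Γ → X)
    (hf : ∀ g₁ g₁' g₂ g₂', π g₁ = π g₁' → π g₂ = π g₂' → f (g₁, g₂) = f (g₁', g₂')) :
    pull₂ π (desc₂ π hπ f) = f := by
  funext ⟨g, g'⟩
  exact hf _ _ _ _ (Function.surjInv_eq hπ (π g)) (Function.surjInv_eq hπ (π g'))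

include hπ in
lemma pull₁_injective : Function.Injective (pull₁ (X := X) π) := by
  intro c c' h
  funext x
  obtain ⟨g, rfl⟩ := hπ x
  exact congrFun h g

include hπ in
lemma pull₂_injective : Function.Injective (pull₂ (X := X) π) := by
  intro c c' h
  funext ⟨x, y⟩
  obtain ⟨g, rfl⟩ := hπ x
  obtain ⟨g', rfl⟩ := hπ y
  exact congrFun h (g, g')

variable {k : Type} [CommRing k] {V : Type} [AddCommGroup V] [Module k V]
  (ρQ : Representation k Q V) (ρΓ : Representation k Γ V) (hρ : ∀ g, ρΓ g = ρQ (π g))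

include hρ in
lemma d₁₂_pull₁ (c : Q → V) :
    (d₁₂ (Rep.of ρΓ)).hom (pull₁ π c) = pull₂ π ((d₁₂ (Rep.of ρQ)).hom c) := by
  funext ⟨g, g'⟩
  rw [d₁₂_hom_apply, pull₂_apply, d₁₂_hom_apply]
  simp only [pull₁_apply, map_mul]
  change ρΓ g (c (π g')) - _ + _ = ρQ (π g) (c (π g')) - _ + _
  rw [hρ]

include hρ in
lemma d₀₁_pull (m : V) :
    (d₀₁ (Rep.of ρΓ)).hom m = pull₁ π ((d₀₁ (Rep.of ρQ)).hom m) := by
  funext g
  rw [d₀₁_hom_apply, pull₁_apply, d₀₁_hom_apply]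
  change ρΓ g m - m = ρQ (π g) m - m
  rw [hρ]

include hρ in
lemma pull₂_mem_cocycles₂ {z : Q × Q → V} (hz : z ∈ cocycles₂ (Rep.of ρQ)) :
    pull₂ π z ∈ cocycles₂ (Rep.of ρΓ) := by
  have hz' := (mem_cocycles₂_iff (A := Rep.of ρQ) z).mp hz
  refine (mem_cocycles₂_iff (A := Rep.of ρΓ) _).mpr ?_
  intro g g' g''
  have := hz' (π g) (π g') (π g'')
  simp only [pull₂_apply, map_mul]
  change _ = ρΓ g _ + _
  rw [hρ]
  exact this

include hρ hπ in
lemma mem_cocycles₂_of_pull₂ {z : Q × Q → V} (hz : pull₂ π z ∈ cocycles₂ (Rep.of ρΓ)) :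
    z ∈ cocycles₂ (Rep.of ρQ) := by
  have hz' := (mem_cocycles₂_iff (A := Rep.of ρΓ) _).mp hz
  refine (mem_cocycles₂_iff (A := Rep.of ρQ) z).mpr ?_
  intro x y w
  obtain ⟨g, rfl⟩ := hπ x
  obtain ⟨g', rfl⟩ := hπ y
  obtain ⟨g'', rfl⟩ := hπ w
  have := hz' g g' g''
  simp only [pull₂_apply, map_mul] at this
  change _ = ρΓ g _ + _ at this
  rw [hρ] at this
  exact this

include hρ in
lemma pull₁_mem_cocycles₁ {c : Q → V} (hc : c ∈ cocycles₁ (Rep.of ρQ)) :
    pull₁ π c ∈ cocycles₁ (Rep.of ρΓ) := by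
  have hc' := (mem_cocycles₁_iff (A := Rep.of ρQ) c).mp hc
  refine (mem_cocycles₁_iff (A := Rep.of ρΓ) _).mpr ?_
  intro g g'
  have := hc' (π g) (π g')
  simp only [pull₁_apply, map_mul]
  change _ = ρΓ g _ + _
  rw [hρ]
  exact this

include hρ hπ in
lemma mem_cocycles₁_of_pull₁ {c : Q → V} (hc : pull₁ π c ∈ cocycles₁ (Rep.of ρΓ)) :
    c ∈ cocycles₁ (Rep.of ρQ) := by
  have hc' := (mem_cocycles₁_iff (A := Rep.of ρΓ) _).mp hc
  refine (mem_cocycles₁_iff (A := Rep.of ρQ) c).mpr ?_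
  intro x y
  obtain ⟨g, rfl⟩ := hπ x
  obtain ⟨g', rfl⟩ := hπ y
  have := hc' g g'
  simp only [pull₁_apply, map_mul] at this
  change _ = ρΓ g _ + _ at this
  rw [hρ] at this
  exact this

end

end Gen

end Bridge

end Fermat.Agent.CFT
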