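import Fermat.Agent.Lib.CFT.Bridge.Sha1
import Fermat.Agent.Lib.CFT.Bridge.Cyclo

/-!
# P4 / E-bridge: S55 from the internal Poitou–Tate statement (contract D → E)
-/

set_option autoImplicit false

open groupCohomology CategoryTheory ExtCitation Module

namespace Fermat.Agent.CFT

namespace Bridge

noncomputable section

/-- Two finite vector spaces over `ZMod p` with the same cardinality carry a perfect pairing. -/
theorem exists_perfect_pairing_of_card_eq {p : ℕ} [Fact p.Prime] (V W : Type)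
    [AddCommGroup V] [Module (ZMod p) V] [AddCommGroup W] [Module (ZMod p) W]
    [Finite V] [Finite W] (h : Nat.card V = Nat.card W) :
    ∃ B : V →ₗ[ZMod p] W →ₗ[ZMod p] ZMod p,
      (∀ y, (∀ x, B y x = 0) → y = 0) ∧ (∀ x, (∀ y, B y x = 0) → x = 0) := by
  haveI : Module.Finite (ZMod p) V := Module.Finite.of_finite
  haveI : Module.Finite (ZMod p) W := Module.Finite.of_finite
  have hV := Module.natCard_eq_pow_finrank (K := ZMod p) (V := V)
  have hW := Module.natCard_eq_pow_finrank (K := ZMod p) (V := W)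
  have hcard : Nat.card (ZMod p) = p := Nat.card_zmod p
  rw [hcard] at hV hW
  have hfr : finrank (ZMod p) V = finrank (ZMod p) W := by
    apply Nat.pow_right_injective (Fact.out : p.Prime).two_le
    change p ^ _ = p ^ _
    rw [← hV, ← hW, h]
  obtain ⟨φ⟩ := FiniteDimensional.nonempty_linearEquiv_of_finrank_eq hfr
  let b := Module.finBasis (ZMod p) W
  let e : V ≃ₗ[ZMod p] Module.Dual (ZMod p) W := φ.trans b.toDualEquiv
  refine ⟨e.toLinearMap, ?_, ?_⟩
  · intro y hy
    have : e y = 0 := LinearMap.ext hy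
    exact (map_eq_zero_iff e e.injective).mp this
  · intro x hx
    rw [← Module.forall_dual_apply_eq_zero_iff (ZMod p)]
    intro f
    obtain ⟨y, rfl⟩ := e.surjective f
    exact hx y

variable {p : ℕ} [Fact p.Prime]

/-- Levels for the Tate twist of the dual. -/
theorem exists_levelS_dualTwist (S : Finset Nat.Primes) (hpS : pPrime p ∈ S)
    (M : Rep (ZMod p) GQ) [FiniteDimensional (ZMod p) M]
    (hsm : ∀ m : M, ∃ F : IntermediateField ℚ Qbar, FiniteDimensional ℚ F ∧
      ∀ s ∈ F.fixingSubgroup, M.ρ s m = m)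
    (hMur : ∀ q : Nat.Primes, q ∉ S → ∀ A : ValuationSubring Qbar,
      A.LiesOverPrime (q : ℕ) → ∀ g ∈ A.inertiaSubgroupIn ℚ, M.ρ g = 1) :
    ∃ L : Level, L.IsS S ∧ TrivialOn (M.dualTwist (cycloChar p)) L := by
  obtain ⟨L₀, -, hL₀⟩ := exists_levelS_trivialOn M S hsm hMur
  obtain ⟨F, hF, hFχ⟩ := exists_finiteDimensional_cycloChar p
  haveI := hF
  haveI : FiniteDimensional (ZMod p) (M.dualTwist (cycloChar p)) :=
    inferInstanceAs (FiniteDimensional (ZMod p) (Module.Dual (ZMod p) M))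
  refine exists_levelS_trivialOn (M.dualTwist (cycloChar p)) S ?_ ?_
  · intro f
    refine ⟨L₀.toIntermediateField ⊔ F, IntermediateField.finiteDimensional_sup _ _, ?_⟩
    intro s hs
    rw [IntermediateField.fixingSubgroup_sup] at hs
    have h1 : cycloChar p s = 1 := hFχ s hs.2
    have h2 : M.ρ s⁻¹ = 1 := hL₀ s⁻¹ (L₀.N.inv_mem hs.1)
    rw [Rep.dualTwist_ρ_apply, h1, h2]
    simp only [Units.val_one, one_smul]
    rfl
  · intro q hq A hA g hg
    have hqp : (q : ℕ) ≠ p := by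
      intro h
      have : q = pPrime p := Subtype.ext h
      exact hq (this ▸ hpS)
    have h1 : cycloChar p g = 1 := cycloChar_eq_one_of_mem_inertia p q.2 hqp A hA g hg
    have h2 : M.ρ g⁻¹ = 1 := hMur q hq A hA g⁻¹ (Subgroup.inv_mem _ hg)
    ext f
    rw [Rep.dualTwist_ρ_apply, h1, h2]
    simp only [Units.val_one, one_smul]
    rfl

/-- **S55 from the internal Poitou–Tate statement.** -/
theorem poitouTate_of_statement (hp2 : p ≠ 2) (S : Finset Nat.Primes) (hpS : pPrime p ∈ S)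
    (M : Rep (ZMod p) GQ) [FiniteDimensional (ZMod p) M]
    (hsm : ∀ m : M, ∃ F : IntermediateField ℚ Qbar, FiniteDimensional ℚ F ∧
      ∀ s ∈ F.fixingSubgroup, M.ρ s m = m)
    (hMur : ∀ q : Nat.Primes, q ∉ S → ∀ A : ValuationSubring Qbar,
      A.LiesOverPrime (q : ℕ) → ∀ g ∈ A.inertiaSubgroupIn ℚ, M.ρ g = 1)
    (hPT : PoitouTateStatement p S M) :
    ∃ B : sha₁ S (M.dualTwist (cycloChar p)) →ₗ[ZMod p] sha₂ S M →ₗ[ZMod p] ZMod p,
      (∀ y, (∀ x, B y x = 0) → y = 0) ∧ (∀ x, (∀ y, B y x = 0) → x = 0) := by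
  obtain ⟨L, hLS, hL⟩ := exists_levelS_trivialOn M S hsm hMur
  obtain ⟨L', hLS', hL'⟩ := exists_levelS_dualTwist S hpS M hsm hMur
  haveI : Nonempty (LevelS M S) := ⟨⟨L, hLS, hL⟩⟩
  haveI : Nonempty (LevelS (M.dualTwist (cycloChar p)) S) := ⟨⟨L', hLS', hL'⟩⟩
  have h2 : IsUnit (2 : ZMod p) := by
    have : ((2 : ℕ) : ZMod p) ≠ 0 := by
      rw [Ne, ZMod.natCast_eq_zero_iff]
      intro hdvd
      exact hp2 ((Nat.prime_dvd_prime_iff_eq (Fact.out : p.Prime) Nat.prime_two).mp hdvd)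
    exact IsUnit.mk0 _ (by exact_mod_cast this)
  obtain ⟨hfin2, hfin1, hcard⟩ := hPT
  let e2 := sha2Equiv M S h2
  let e1 := sha1Equiv (M.dualTwist (cycloChar p)) S h2
  haveI : Finite (sha₂ S M) := Finite.of_equiv _ e2.toEquiv
  haveI : Finite (sha₁ S (M.dualTwist (cycloChar p))) := Finite.of_equiv _ e1.toEquiv
  apply exists_perfect_pairing_of_card_eq
  rw [← Nat.card_congr e1.toEquiv, ← Nat.card_congr e2.toEquiv, hcard]

end

end Bridge

end Fermat.Agent.CFT
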