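import Fermat.Agent.Lib.CFT.Bridge.Descend

/-!
# P4 / E-bridge: `continuousH2S S M` is the direct limit `HS M S 2`
-/

set_option autoImplicit false

open groupCohomology CategoryTheory ExtCitation

namespace Fermat.Agent.CFT

namespace Bridge

noncomputable section

variable {k : Type} [CommRing k] (M : Rep k GQ) (S : Finset Nat.Primes)

lemma isLevelConstantS₁_pull₁ (L : Level) (hS : L.IsS S) {X : Type*} (c : L.G → X) :
    IsLevelConstantS₁ S (pull₁ L c) :=
  ⟨L.toIntermediateField, hS, fun g s hs => pull₁_const_coset L c g s hs⟩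

lemma isLevelConstantS₂_pull₂ (L : Level) (hS : L.IsS S) {X : Type*} (z : L.G × L.G → X) :
    IsLevelConstantS₂ S (pull₂ L z) :=
  ⟨L.toIntermediateField, hS, fun g g' s s' hs hs' => pull₂_const_coset L z g g' s s' hs hs'⟩

/-- Pull-back of 2-cocycles from a level unramified outside `S`. -/
def pullCocycles₂ (L : LevelS M S) :
    cocycles₂ (atLevel M L.1 L.2.2) →ₗ[k] ↥(levelCocyclesS₂ S M) where
  toFun z := ⟨pull₂ L.1 (z : L.1.G × L.1.G → M.V),
    ⟨pull₂_mem_cocycles₂ M L.1 L.2.2 z.2, isLevelConstantS₂_pull₂ S L.1 L.2.1 _⟩⟩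
  map_add' _ _ := rfl
  map_smul' _ _ := rfl

lemma pullCocycles₂_coboundary (L : LevelS M S) (z : cocycles₂ (atLevel M L.1 L.2.2))
    (hz : (z : L.1.G × L.1.G → M.V) ∈ coboundaries₂ (atLevel M L.1 L.2.2)) :
    continuousH2Sπ S M (pullCocycles₂ M S L z) = 0 := by
  rw [continuousH2Sπ_eq_zero_iff, mem_levelCoboundariesS₂_iff]
  obtain ⟨c, hc⟩ := hz
  refine ⟨pull₁ L.1 c, isLevelConstantS₁_pull₁ S L.1 L.2.1 c, ?_⟩
  rw [d₁₂_pull₁ M L.1 L.2.2 c]
  change pull₂ L.1 ((d₁₂ (atLevel M L.1 L.2.2)).hom c) = pull₂ L.1 (z : L.1.G × L.1.G → M.V)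
  rw [hc]

/-- The map `H²(Gal(F/ℚ), M) → H²_S(M)` (Prelude). -/
def pullH2 (L : LevelS M S) : H2 (atLevel M L.1 L.2.2) →ₗ[k] continuousH2S S M :=
  H2lift _ ((continuousH2Sπ S M).comp (pullCocycles₂ M S L))
    (fun z hz => pullCocycles₂_coboundary M S L z hz)

lemma pullH2_H2π (L : LevelS M S) (z : cocycles₂ (atLevel M L.1 L.2.2)) :
    pullH2 M S L ((H2π _).hom z) = continuousH2Sπ S M (pullCocycles₂ M S L z) := by
  unfold pullH2
  rw [H2lift_H2π]
  rfl

lemma pullH2_infl {L L' : LevelS M S} (h : L ≤ L') (x : H2 (atLevel M L.1 L.2.2)) :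
    pullH2 M S L' (infl M 2 h L.2.2 L'.2.2 x) = pullH2 M S L x := by
  obtain ⟨z, rfl⟩ := H2π_surjective _ x
  have h1 : infl M 2 h L.2.2 L'.2.2 ((H2π _).hom z)
      = (H2π _).hom (mapCocycles₂ (Level.map h) (inflHom M h L.2.2 L'.2.2) z) := by
    have := H2π_comp_map_apply (Level.map h) (inflHom M h L.2.2 L'.2.2) z
    exact this
  rw [h1, pullH2_H2π, pullH2_H2π]
  rfl

open Classical in
/-- The comparison map `HS M S 2 → continuousH2S S M`. -/
def compH2 : HS M S 2 →ₗ[k] continuousH2S S M :=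
  Module.DirectLimit.lift k (LevelS M S) (globSys M S 2) (globSysMap M S 2)
    (fun L => pullH2 M S L) (fun L L' h x => pullH2_infl M S h x)

open Classical in
lemma compH2_of (L : LevelS M S) (x : H2 (atLevel M L.1 L.2.2)) :
    compH2 M S (HS.of M S 2 L x) = pullH2 M S L x :=
  Module.DirectLimit.lift_of (R := k) (ι := LevelS M S) (G := globSys M S 2)
    (f := globSysMap M S 2) (fun L => pullH2 M S L) (fun L L' h x => pullH2_infl M S h x) x

open Classical in
lemma HS.exists_of [Nonempty (LevelS M S)] (n : ℕ) (x : HS M S n) :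
    ∃ (L : LevelS M S) (y : globSys M S n L), HS.of M S n L y = x :=
  Module.DirectLimit.exists_of (R := k) (ι := LevelS M S) (G := globSys M S n)
    (f := globSysMap M S n) x

/-- A level of `LevelS` above a given one and inside a given field unramified outside `S`. -/
lemma exists_levelS_ge (L : LevelS M S) {F : IntermediateField ℚ Qbar}
    (hF : F.IsUnramifiedOutside S) :
    ∃ L' : LevelS M S, L ≤ L' ∧ L'.1.N ≤ F.fixingSubgroup := by
  obtain ⟨LF, hLF, hle⟩ := exists_levelS_of_isUnramifiedOutside hF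
  refine ⟨⟨L.1 ⊔ LF, L.2.1.sup hLF, L.2.2.mono le_sup_left⟩, le_sup_left (a := L.1), ?_⟩
  exact (Level.N_anti (le_sup_right (a := L.1) (b := LF))).trans hle

theorem compH2_surjective [Nonempty (LevelS M S)] : Function.Surjective (compH2 M S) := by
  intro x
  obtain ⟨⟨f, hfc, F, hF, hconst⟩, rfl⟩ := Submodule.Quotient.mk_surjective _ x
  obtain ⟨L₀⟩ := ‹Nonempty (LevelS M S)›
  obtain ⟨L, -, hL⟩ := exists_levelS_ge M S L₀ hF
  have hpull : pull₂ L.1 (desc₂ L.1 f) = f :=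
    pull₂_desc₂ L.1 f (fun g g' s s' hs hs' => hconst g g' s s' (hL hs) (hL hs'))
  have hz : desc₂ L.1 f ∈ cocycles₂ (atLevel M L.1 L.2.2) :=
    mem_cocycles₂_of_pull₂ M L.1 L.2.2 (by rw [hpull]; exact hfc)
  refine ⟨HS.of M S 2 L ((H2π _).hom ⟨desc₂ L.1 f, hz⟩), ?_⟩
  rw [compH2_of, pullH2_H2π]
  have h : pullCocycles₂ M S L ⟨desc₂ L.1 f, hz⟩ = ⟨f, hfc, F, hF, hconst⟩ := Subtype.ext hpull
  rw [h]
  rfl

theorem compH2_injective [Nonempty (LevelS M S)] : Function.Injective (compH2 M S) := by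
  rw [injective_iff_map_eq_zero]
  intro x hx
  obtain ⟨L, y, rfl⟩ := HS.exists_of M S 2 x
  obtain ⟨z, rfl⟩ := H2π_surjective _ y
  rw [compH2_of, pullH2_H2π, continuousH2Sπ_eq_zero_iff, mem_levelCoboundariesS₂_iff] at hx
  obtain ⟨c, ⟨F', hF', hconst⟩, hc⟩ := hx
  obtain ⟨L', hLL', hL'⟩ := exists_levelS_ge M S L hF'
  have hpull : pull₁ L'.1 (desc₁ L'.1 c) = c :=
    pull₁_desc₁ L'.1 c (fun g s hs => hconst g s (hL' hs))
  -- the inflated cocycle is a coboundary at level `L'`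
  have h1 : infl M 2 hLL' L.2.2 L'.2.2 ((H2π _).hom z)
      = (H2π _).hom (mapCocycles₂ (Level.map hLL') (inflHom M hLL' L.2.2 L'.2.2) z) :=
    H2π_comp_map_apply (Level.map hLL') (inflHom M hLL' L.2.2 L'.2.2) z
  have h2 : (H2π (atLevel M L'.1 L'.2.2)).hom
      (mapCocycles₂ (Level.map hLL') (inflHom M hLL' L.2.2 L'.2.2) z) = 0 := by
    rw [H2π_eq_zero_iff]
    refine ⟨desc₁ L'.1 c, ?_⟩
    apply pull₂_injective L'.1
    rw [← d₁₂_pull₁ M L'.1 L'.2.2]
    have e1 : (d₁₂ M).hom (pull₁ L'.1 (desc₁ L'.1 c)) = (d₁₂ M).hom c := congrArg _ hpull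
    exact e1.trans (hc.trans rfl)
  rw [← HS.of_f M S 2 hLL']
  change HS.of M S 2 L' (infl M 2 hLL' L.2.2 L'.2.2 ((H2π _).hom z)) = 0
  rw [h1, h2, map_zero]

/-- **E-bridge, global `H²`**: the Prelude group `continuousH2S S M` is the direct limit of the
`H²(Gal(F/ℚ), M)` over the levels `F` unramified outside `S`. -/
def compH2Equiv [Nonempty (LevelS M S)] : HS M S 2 ≃ₗ[k] continuousH2S S M :=
  LinearEquiv.ofBijective (compH2 M S) ⟨compH2_injective M S, compH2_surjective M S⟩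

end

end Bridge

end Fermat.Agent.CFT
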