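import Fermat.Agent.Lib.CFT.Bridge.LowDegree

/-!
# P4 / E-bridge: inflation along a surjection is injective on `H¹`
-/

set_option autoImplicit false

open groupCohomology CategoryTheory

namespace Fermat.Agent.CFT

namespace Bridge

namespace Gen

noncomputable section

universe u

variable {k Γ Q : Type u} [CommRing k] [Group Γ] [Group Q]

/-- Inflation along a surjective homomorphism (with a bijective map of coefficients) is injective
in degree 1. -/
theorem map_one_injective (π : Γ →* Q) (hπ : Function.Surjective π) (A : Rep k Q) (B : Rep k Γ)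
    (φ : Rep.res π A ⟶ B) (hφ : Function.Bijective φ.hom) :
    Function.Injective (groupCohomology.map π φ 1).hom := by
  rw [injective_iff_map_eq_zero]
  intro x hx
  obtain ⟨z, rfl⟩ := H1π_surjective A x
  have h1 : (groupCohomology.map π φ 1).hom ((H1π A).hom z) = (H1π B).hom (mapCocycles₁ π φ z) :=
    H1π_comp_map_apply π φ z
  rw [h1, H1π_eq_zero_iff] at hx
  obtain ⟨b, hb⟩ := hx
  obtain ⟨a, rfl⟩ := hφ.2 b
  rw [H1π_eq_zero_iff]
  refine ⟨a, ?_⟩
  funext y
  obtain ⟨g, rfl⟩ := hπ y
  have h2 := congrFun hb g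
  rw [d₀₁_hom_apply] at h2 ⊢
  apply hφ.1
  have h3 : (mapCocycles₁ π φ z : Γ → B) g = φ.hom ((z : Q → A) (π g)) := rfl
  rw [h3] at h2
  rw [← h2, map_sub]
  congr 1
  exact Rep.hom_comm_apply φ g a

end

end Gen

end Bridge

end Fermat.Agent.CFT
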