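import Fermat.Agent.Lib.CFT.Tower.Contract

/-!
# P4 / E-bridge: inertia groups under conjugation, unramified-outside-`S` is conjugation invariant
-/

set_option autoImplicit false

open scoped Pointwise

namespace Fermat.Agent.CFT

namespace Bridge

variable {K L : Type*} [Field K] [Field L] [Algebra K L]

/-- Membership in the inertia group (as a subgroup of the full Galois group). -/
theorem mem_inertiaSubgroupIn_iff (A : ValuationSubring L) (σ : L ≃ₐ[K] L) :
    σ ∈ A.inertiaSubgroupIn K ↔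
      σ ∈ A.decompositionSubgroup K ∧ ∀ x : L, x ∈ A → A.valuation (σ x - x) < 1 := by
  constructor
  · intro hσ
    obtain ⟨τ, hτ, rfl⟩ := Subgroup.mem_map.mp hσ
    refine ⟨τ.2, fun x hx => ?_⟩
    have hker : MulSemiringAction.toRingAut (A.decompositionSubgroup K)
        (IsLocalRing.ResidueField A) τ = 1 := hτ
    have hres : τ • (IsLocalRing.residue A ⟨x, hx⟩) = IsLocalRing.residue A ⟨x, hx⟩ := by
      have := congrArg (fun f : RingAut (IsLocalRing.ResidueField A) =>
        f (IsLocalRing.residue A ⟨x, hx⟩)) hker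
      simpa using this
    rw [← IsLocalRing.ResidueField.residue_smul] at hres
    have hmem : (τ • (⟨x, hx⟩ : A)) - ⟨x, hx⟩ ∈ IsLocalRing.maximalIdeal A := by
      rw [← Ideal.Quotient.eq]
      exact hres
    exact (A.valuation_lt_one_iff _).mp hmem
  · rintro ⟨hdec, h⟩
    refine Subgroup.mem_map.mpr ⟨⟨σ, hdec⟩, ?_, rfl⟩
    change MulSemiringAction.toRingAut (A.decompositionSubgroup K)
        (IsLocalRing.ResidueField A) ⟨σ, hdec⟩ = 1
    ext y
    obtain ⟨⟨x, hx⟩, rfl⟩ := IsLocalRing.residue_surjective y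
    change (⟨σ, hdec⟩ : A.decompositionSubgroup K) • (IsLocalRing.residue A ⟨x, hx⟩)
      = IsLocalRing.residue A ⟨x, hx⟩
    rw [← IsLocalRing.ResidueField.residue_smul]
    apply (Ideal.Quotient.eq).mpr
    exact (A.valuation_lt_one_iff _).mpr (h x hx)

lemma valuation_lt_one_iff_inv_notMem (A : ValuationSubring L) (z : L) :
    A.valuation z < 1 ↔ z = 0 ∨ z⁻¹ ∉ A := by
  rw [← A.valuation_le_one_iff, not_le]
  by_cases hz : z = 0
  · simp [hz]
  · simp only [hz, false_or, map_inv₀]
    rw [one_lt_inv₀ (lt_of_le_of_ne zero_le ((Valuation.ne_zero_iff _).mpr hz).symm)]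

lemma valuation_smul_lt_one_iff (A : ValuationSubring L) (τ : L ≃ₐ[K] L) (z : L) :
    (τ • A).valuation (τ z) < 1 ↔ A.valuation z < 1 := by
  rw [valuation_lt_one_iff_inv_notMem, valuation_lt_one_iff_inv_notMem]
  have h1 : τ z = 0 ↔ z = 0 := map_eq_zero_iff τ τ.injective
  have h2 : (τ z)⁻¹ ∈ τ • A ↔ z⁻¹ ∈ A := by
    rw [← map_inv₀]
    exact ValuationSubring.smul_mem_pointwise_smul_iff (g := τ) (S := A) (x := z⁻¹)
  rw [h1, h2]

/-- Inertia groups of conjugate valuation subrings are conjugate. -/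
theorem mem_inertiaSubgroupIn_smul_iff (A : ValuationSubring L) (τ σ : L ≃ₐ[K] L) :
    σ ∈ (τ • A).inertiaSubgroupIn K ↔ τ⁻¹ * σ * τ ∈ A.inertiaSubgroupIn K := by
  rw [mem_inertiaSubgroupIn_iff, mem_inertiaSubgroupIn_iff]
  have hdec : σ ∈ (τ • A).decompositionSubgroup K ↔ τ⁻¹ * σ * τ ∈ A.decompositionSubgroup K := by
    rw [MulAction.mem_stabilizer_iff, MulAction.mem_stabilizer_iff, mul_smul, mul_smul,
      inv_smul_eq_iff]
  rw [hdec]
  apply and_congr_right
  intro _
  constructor
  · intro h y hy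
    have h1 := h (τ y) (ValuationSubring.smul_mem_pointwise_smul_iff.mpr hy)
    have h2 : σ (τ y) - τ y = τ ((τ⁻¹ * σ * τ) y - y) := by
      rw [map_sub]
      congr 1
      change σ (τ y) = τ (τ⁻¹ (σ (τ y)))
      exact (AlgEquiv.apply_symm_apply τ _).symm
    rw [h2, valuation_smul_lt_one_iff] at h1
    exact h1
  · intro h x hx
    obtain ⟨y, hy, rfl⟩ := (ValuationSubring.mem_smul_pointwise_iff_exists τ x A).mp hx
    have h1 := h y hy
    have h2 : σ (τ • y) - τ • y = τ ((τ⁻¹ * σ * τ) y - y) := by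
      rw [map_sub]
      congr 1
      change σ (τ y) = τ (τ⁻¹ (σ (τ y)))
      exact (AlgEquiv.apply_symm_apply τ _).symm
    rw [h2, valuation_smul_lt_one_iff]
    exact h1

lemma liesOverPrime_smul_iff (A : ValuationSubring L) (τ : L ≃ₐ[K] L) (q : ℕ) :
    (τ • A).LiesOverPrime q ↔ A.LiesOverPrime q := by
  unfold ValuationSubring.LiesOverPrime
  rw [ValuationSubring.mem_nonunits_iff, ValuationSubring.mem_nonunits_iff]
  have : (q : L) = τ (q : L) := (map_natCast τ q).symm
  conv_lhs => rw [this]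
  exact valuation_smul_lt_one_iff A τ _

end Bridge

end Fermat.Agent.CFT
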