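/-
P4 / C-LEVEL-LOC (1): the place of a level singled out by the embedding `ℚ̄ → ℚ̄_q`, and the
identification of the Prelude decomposition group with the stabiliser of that place.

* `Level.toPadic q L : ℚ_q ⊗ L →ₐ[ℚ_q] ℚ̄_q`, `a ⊗ x ↦ a · ι(x)`;
* `Level.place q L : Place q L.field`, its kernel; `Level.under_place`;
* `Level.kvToPadic q L : Kv (L.place q) →ₐ[ℚ_q] ℚ̄_q` (injective);
* `decomp_eq_decompGroup : decomp q L = decompGroup L.G (L.place q)`.
-/
import Fermat.Agent.Lib.CFT.Bridge.LevelField
import Fermat.Agent.Lib.CFT.Global.LocalGalois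

set_option autoImplicit false
set_option linter.style.haveILetI false
set_option linter.unusedSectionVars false

open scoped TensorProduct

namespace Fermat.Agent.CFT

noncomputable section

open Global Bridge

namespace Level

variable (q : ℕ) [Fact q.Prime]

/-- The embedding `L → ℚ̄_q` of the field of a level. -/
def padicEmb (L : Level) : L.field →+* PadicAlgCl q :=
  (padicEmbedding q).toRingHom.comp L.toIntermediateField.val.toRingHom

@[simp] lemma padicEmb_apply (L : Level) (x : L.field) :
    L.padicEmb q x = padicEmbedding q (x : Qbar) := rfl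

lemma padicEmb_injective (L : Level) : Function.Injective (L.padicEmb q) :=
  (L.padicEmb q).injective

lemma padicEmb_incl {L L' : Level} (h : L ≤ L') (x : L.field) :
    L'.padicEmb q (Level.incl h x) = L.padicEmb q x := rfl

/-- `ℚ_q ⊗ L → ℚ̄_q`, `a ⊗ x ↦ a · ι(x)`. -/
def toPadic (L : Level) : SL q L.field →ₐ[ℚ_[q]] PadicAlgCl q :=
  Algebra.TensorProduct.lift (Algebra.ofId ℚ_[q] (PadicAlgCl q)) (L.padicEmb q).toRatAlgHom
    (fun _ _ => Commute.all _ _)

@[simp] lemma toPadic_tmul (L : Level) (a : ℚ_[q]) (x : L.field) :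
    L.toPadic q (a ⊗ₜ[ℚ] x) = algebraMap ℚ_[q] (PadicAlgCl q) a * padicEmbedding q (x : Qbar) := by
  rw [toPadic, Algebra.TensorProduct.lift_tmul]
  rfl

lemma toPadic_incl (L : Level) (x : L.field) :
    L.toPadic q (SL.incl q L.field x) = padicEmbedding q (x : Qbar) := by
  rw [SL.incl_apply, toPadic_tmul, map_one, one_mul]

lemma toPadic_map {L L' : Level} (h : L ≤ L') (x : SL q L.field) :
    L'.toPadic q (SL.map q (Level.incl h) x) = L.toPadic q x := by
  induction x using TensorProduct.induction_on with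
  | zero => simp
  | tmul a y => rw [SL.map_tmul, toPadic_tmul, toPadic_tmul]; rfl
  | add x y hx hy => rw [map_add, map_add, map_add, hx, hy]

/-- The place of `L` above `q` singled out by the embedding `ℚ̄ → ℚ̄_q`. -/
def place (L : Level) : Place q L.field :=
  ⟨RingHom.ker (L.toPadic q : SL q L.field →+* PadicAlgCl q), by
    have hint : Algebra.IsIntegral ℚ_[q] (SL q L.field) := inferInstance
    haveI : IsDomain (SL q L.field ⧸ RingHom.ker (L.toPadic q : SL q L.field →+* PadicAlgCl q)) :=
      (Ideal.Quotient.isDomain_iff_prime _).2 (RingHom.ker_isPrime _)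
    haveI : Algebra.IsIntegral ℚ_[q]
        (SL q L.field ⧸ RingHom.ker (L.toPadic q : SL q L.field →+* PadicAlgCl q)) :=
      Algebra.IsIntegral.of_surjective (Ideal.Quotient.mkₐ ℚ_[q] _) Ideal.Quotient.mk_surjective
    have hfield := isField_of_isIntegral_of_isField'
      (R := ℚ_[q]) (S := SL q L.field ⧸ RingHom.ker (L.toPadic q : SL q L.field →+* PadicAlgCl q))
      (Field.toIsField ℚ_[q])
    exact Ideal.Quotient.maximal_of_isField _ hfield⟩

lemma mem_place_iff (L : Level) (x : SL q L.field) :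
    x ∈ (L.place q).asIdeal ↔ L.toPadic q x = 0 := Iff.rfl

/-- The distinguished places are compatible. -/
lemma under_place {L L' : Level} (h : L ≤ L') :
    Place.under (Level.incl h) (L'.place q) = L.place q := by
  apply MaximalSpectrum.ext
  ext x
  rw [Place.mem_under_iff, mem_place_iff, mem_place_iff, toPadic_map]

/-- `L_w → ℚ̄_q`. -/
def kvToPadic (L : Level) : Kv (L.place q) →ₐ[ℚ_[q]] PadicAlgCl q :=
  Ideal.Quotient.liftₐ (L.place q).asIdeal (L.toPadic q) (fun _ hx => hx)

@[simp] lemma kvToPadic_proj (L : Level) (x : SL q L.field) :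
    L.kvToPadic q (Kv.proj (L.place q) x) = L.toPadic q x := rfl

lemma kvToPadic_injective (L : Level) : Function.Injective (L.kvToPadic q) :=
  (L.kvToPadic q).toRingHom.injective

/-- The local Galois group acts compatibly on `ℚ_q ⊗ L` and `ℚ̄_q`. -/
lemma toPadic_proj_smul (L : Level) (τ : PadicAlgCl q ≃ₐ[ℚ_[q]] PadicAlgCl q) (x : SL q L.field) :
    L.toPadic q (L.proj (localGaloisToGlobal q τ) • x) = τ (L.toPadic q x) := by
  induction x using TensorProduct.induction_on with
  | zero => simp
  | tmul a y =>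
    rw [SL.smul_tmul, toPadic_tmul, toPadic_tmul, coe_proj_smul,
      padicEmbedding_localGaloisToGlobal, map_mul, AlgEquiv.commutes]
  | add x y hx hy => rw [smul_add, map_add, map_add, map_add, hx, hy]

lemma proj_localGaloisToGlobal_mem_decompGroup (L : Level)
    (τ : PadicAlgCl q ≃ₐ[ℚ_[q]] PadicAlgCl q) :
    L.proj (localGaloisToGlobal q τ) ∈ decompGroup L.G (L.place q) := by
  rw [mem_decompGroup_iff]
  apply MaximalSpectrum.ext
  ext x
  rw [Place.mem_smul_iff, mem_place_iff, mem_place_iff, ← map_inv, ← map_inv,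
    toPadic_proj_smul]
  exact (τ⁻¹ : PadicAlgCl q ≃ₐ[ℚ_[q]] PadicAlgCl q).map_eq_zero_iff

/-- Every element of the stabiliser of the distinguished place is induced by a local automorphism. -/
lemma exists_proj_localGaloisToGlobal_eq (L : Level) (g : L.G)
    (hg : g ∈ decompGroup L.G (L.place q)) :
    ∃ τ : PadicAlgCl q ≃ₐ[ℚ_[q]] PadicAlgCl q, L.proj (localGaloisToGlobal q τ) = g := by
  letI : Algebra (Kv (L.place q)) (PadicAlgCl q) := (L.kvToPadic q).toRingHom.toAlgebra
  haveI : IsScalarTower ℚ_[q] (Kv (L.place q)) (PadicAlgCl q) :=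
    IsScalarTower.of_algebraMap_eq (fun a => ((L.kvToPadic q).commutes a).symm)
  haveI : Normal ℚ_[q] (PadicAlgCl q) := IsAlgClosure.normal ℚ_[q] (PadicAlgCl q)
  let g' : decompGroup L.G (L.place q) := ⟨g, hg⟩
  let χ : Kv (L.place q) ≃ₐ[ℚ_[q]] Kv (L.place q) :=
    MulSemiringAction.toAlgEquiv ℚ_[q] (Kv (L.place q)) g'
  refine ⟨χ.liftNormal (PadicAlgCl q), ?_⟩
  apply (faithfulSMul_field L).eq_of_smul_eq_smul
  intro y
  apply Subtype.ext
  apply (padicEmbedding q).toRingHom.injective
  change padicEmbedding q ((L.proj (localGaloisToGlobal q (χ.liftNormal (PadicAlgCl q))) • y : L.field)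
    : Qbar) = padicEmbedding q ((g • y : L.field) : Qbar)
  rw [coe_proj_smul, padicEmbedding_localGaloisToGlobal]
  have h1 : padicEmbedding q (y : Qbar) = algebraMap (Kv (L.place q)) (PadicAlgCl q)
      (Kv.emb (L.place q) y) := (toPadic_incl q L y).symm
  have h2 : padicEmbedding q ((g • y : L.field) : Qbar) =
      algebraMap (Kv (L.place q)) (PadicAlgCl q) (Kv.emb (L.place q) (g • y)) :=
    (toPadic_incl q L (g • y)).symm
  rw [h1, h2, AlgEquiv.liftNormal_commutes]
  rfl

end Level

/-- **The Prelude decomposition group is the stabiliser of the distinguished place.** -/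
theorem decomp_eq_decompGroup (q : Nat.Primes) (L : Level) :
    decomp q L = decompGroup L.G (L.place (q : ℕ)) := by
  ext g
  constructor
  · rintro ⟨σ, ⟨τ, rfl⟩, rfl⟩
    exact Level.proj_localGaloisToGlobal_mem_decompGroup (q : ℕ) L τ
  · intro hg
    obtain ⟨τ, rfl⟩ := Level.exists_proj_localGaloisToGlobal_eq (q : ℕ) L g hg
    exact ⟨_, ⟨τ, rfl⟩, rfl⟩

end

end Fermat.Agent.CFT
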