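/-
P4 / C-LEVEL-LOC (2): the tower of local fields `L ↦ L_{w₀}` over the local tower `towerLoc q L₀`
(an instance of helper7's `LocalTower`).
-/
import Fermat.Agent.Lib.CFT.Bridge.LocalPlace
import Fermat.Agent.Lib.CFT.Local.TowerClass
import Fermat.Agent.Lib.CFT.Duality.LevelTower

set_option autoImplicit false
set_option linter.style.haveILetI false
set_option linter.unusedSectionVars false

open scoped TensorProduct

namespace Fermat.Agent.CFT.Bridge

noncomputable section

open Global Duality Local

variable (q : Nat.Primes)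

/-- The local field of a level: the completion at the distinguished place. -/
abbrev Lw (L : Level) : Type := Kv (L.place (q : ℕ))

/-- `D_q(L)` as the stabiliser of the distinguished place. -/
def decompToStab (L : Level) : decomp q L →* decompGroup L.G (L.place (q : ℕ)) :=
  Subgroup.inclusion (le_of_eq (decomp_eq_decompGroup q L))

@[simp] lemma coe_decompToStab (L : Level) (d : decomp q L) :
    ((decompToStab q L d : decompGroup L.G (L.place (q : ℕ))) : L.G) = (d : L.G) := rfl

lemma decompToStab_injective (L : Level) : Function.Injective (decompToStab q L) :=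
  Subgroup.inclusion_injective _

/-- The action of `D_q(L)` on `L_{w₀}`. -/
instance decompActionLw (L : Level) : MulSemiringAction (decomp q L) (Lw q L) :=
  MulSemiringAction.compHom (Lw q L) (decompToStab q L)

lemma decomp_smul_proj (L : Level) (d : decomp q L) (x : SL (q : ℕ) L.field) :
    d • Kv.proj (L.place (q : ℕ)) x = Kv.proj (L.place (q : ℕ)) ((d : L.G) • x) := rfl

lemma decomp_smul_def (L : Level) (d : decomp q L) (x : Lw q L) :
    d • x = decompToStab q L d • x := rfl

instance decompSMulCommLw (L : Level) : SMulCommClass (decomp q L) ℚ_[(q : ℕ)] (Lw q L) where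
  smul_comm d a x := by
    rw [decomp_smul_def, decomp_smul_def, smul_comm]

instance decompFaithfulLw (L : Level) : FaithfulSMul (decomp q L) (Lw q L) where
  eq_of_smul_eq_smul {d d'} h := by
    apply decompToStab_injective q L
    exact eq_of_smul_eq_smul (α := Lw q L) h

/-- The embedding `L_{w₀} → L'_{w₀}` for `L ≤ L'`. -/
def lwEmb {L L' : Level} (h : L ≤ L') : Lw q L →ₐ[ℚ_[(q : ℕ)]] Lw q L' :=
  Ideal.Quotient.liftₐ (L.place (q : ℕ)).asIdeal
    ((Kv.proj (L'.place (q : ℕ))).comp (SL.map (q : ℕ) (Level.incl h))) (fun x hx => by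
      change Kv.proj (L'.place (q : ℕ)) (SL.map (q : ℕ) (Level.incl h) x) = 0
      have h1 : SL.map (q : ℕ) (Level.incl h) x ∈ (L'.place (q : ℕ)).asIdeal := by
        rw [Level.mem_place_iff, Level.toPadic_map]
        exact hx
      exact Ideal.Quotient.eq_zero_iff_mem.2 h1)

@[simp] lemma lwEmb_proj {L L' : Level} (h : L ≤ L') (x : SL (q : ℕ) L.field) :
    lwEmb q h (Kv.proj (L.place (q : ℕ)) x) =
      Kv.proj (L'.place (q : ℕ)) (SL.map (q : ℕ) (Level.incl h) x) := rfl

lemma lwEmb_refl (L : Level) (x : Lw q L) : lwEmb q (le_refl L) x = x := by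
  obtain ⟨x, rfl⟩ := Kv.proj_surjective _ x
  rw [lwEmb_proj, Level.incl_refl, SL.map_id_apply]

lemma lwEmb_comp {L L' L'' : Level} (h : L ≤ L') (h' : L' ≤ L'') (x : Lw q L) :
    lwEmb q h' (lwEmb q h x) = lwEmb q (h.trans h') x := by
  obtain ⟨x, rfl⟩ := Kv.proj_surjective _ x
  rw [lwEmb_proj, lwEmb_proj, lwEmb_proj, ← SL.map_comp_apply, Level.incl_comp]

lemma SL.map_incl_smul {L L' : Level} (h : L ≤ L') (g : L'.G) (x : SL (q : ℕ) L.field) :
    SL.map (q : ℕ) (Level.incl h) (Level.map h g • x) = g • SL.map (q : ℕ) (Level.incl h) x := by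
  rw [SL.smul_def, SL.smul_def, ← SL.map_comp_apply, ← SL.map_comp_apply,
    Level.incl_comp_toRingHom]

lemma lwEmb_smul {L L' : Level} (h : L ≤ L') (d : decomp q L') (x : Lw q L) :
    lwEmb q h (decompMap q h d • x) = d • lwEmb q h x := by
  obtain ⟨x, rfl⟩ := Kv.proj_surjective _ x
  rw [decomp_smul_proj, lwEmb_proj, lwEmb_proj, decomp_smul_proj]
  congr 1
  exact SL.map_incl_smul q h (d : L'.G) x

/-! ## Subgroup actions -/

section SubgroupAction

variable {r : ℕ} [Fact r.Prime] {K : Type} [Field K] [NumberField K] {G : Type} [Group G]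
  [MulSemiringAction G K]

lemma coe_mem_decompGroup_of_mem (H : Subgroup G) (w : Place r K) (k : H)
    (hk : k ∈ decompGroup H w) : (k : G) ∈ decompGroup G w := by
  have h1 := (mem_decompGroup_iff k w).1 hk
  rw [mem_decompGroup_iff]
  apply MaximalSpectrum.ext
  ext x
  rw [Place.mem_smul_iff]
  have h2 := Place.mem_smul_iff k w x
  rw [h1] at h2
  exact h2.symm

end SubgroupAction

/-! ## Galois descent -/

lemma lwEmb_descent {L L' : Level} (h : L ≤ L') (y : Lw q L')
    (hy : ∀ d : decomp q L', decompMap q h d = 1 → d • y = y) :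
    ∃ x : Lw q L, lwEmb q h x = y := by
  letI := Level.algebraOfLE h
  haveI := Level.isGaloisGroup_relGroup h
  have key := Kv.exists_map_eq_of_forall_smul_eq (K := L.field) (L := L'.field)
    (G := Level.relGroup h) (L'.place (q : ℕ)) y (fun g => by
      have hg1 : ((g : Level.relGroup h) : L'.G) ∈ decompGroup L'.G (L'.place (q : ℕ)) :=
        coe_mem_decompGroup_of_mem _ _ _ g.2
      have hg2 : ((g : Level.relGroup h) : L'.G) ∈ decomp q L' := by
        rw [decomp_eq_decompGroup]
        exact hg1
      have h1 := hy ⟨_, hg2⟩ (Subtype.ext ((g : Level.relGroup h).2))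
      obtain ⟨y', rfl⟩ := Kv.proj_surjective _ y
      rw [decomp_smul_proj] at h1
      rw [Kv.smul_proj]
      exact h1)
  obtain ⟨z, hz⟩ := key
  obtain ⟨z', rfl⟩ := Kv.proj_surjective _ z
  refine ⟨Kv.proj (L.place (q : ℕ)) z', ?_⟩
  rw [lwEmb_proj, ← hz, Kv.map_proj]
  rfl

/-! ## The tower of local fields -/

/-- **The tower of local fields `L ↦ L_{w₀}`** over the local tower at `q`. -/
def localTower (L₀ : Level) : LocalTower (q : ℕ) (towerLoc q L₀) where
  F L := Lw q L.1
  instField _ := inferInstance
  instAlgQ _ := inferInstance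
  instFinDim _ := inferInstance
  instAlgZ _ := inferInstance
  instTower _ := inferInstance
  instAction L := decompActionLw q L.1
  instComm L := decompSMulCommLw q L.1
  instFaithful L := decompFaithfulLw q L.1
  emb {i j} h := lwEmb q (L := i.1) (L' := j.1) h
  emb_smul {i j} h g x := lwEmb_smul q (L := i.1) (L' := j.1) h g x
  emb_refl i x := lwEmb_refl q i.1 x
  emb_comp {i j k} h h' x := lwEmb_comp q (L := i.1) (L' := j.1) (L'' := k.1) h h' x
  descent {i j} h y hy := lwEmb_descent q (L := i.1) (L' := j.1) h y (fun d hd => hy d hd)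

/-- **The local tower module `L ↦ L_{w₀}ˣ`** (`PTData.Lq`). -/
abbrev Lqtow (L₀ : Level) : TowerModule ℤ (towerLoc q L₀) := (localTower q L₀).units

end

end Fermat.Agent.CFT.Bridge
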