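/-
P4 / C-LEVEL-LOC (3): the local fields of `PTData`: the projection `pr : J_q(L) → L_{w₀}ˣ`
(`pr`, `pr_comm`, `pr_injective`, `pr_surjective`), the Kummer map `κloc`.
-/
import Fermat.Agent.Lib.CFT.Bridge.LocalTowerInst
import Fermat.Agent.Lib.CFT.Bridge.TowerFields
import Fermat.Agent.Lib.CFT.Global.Induced

set_option autoImplicit false
set_option linter.style.haveILetI false
set_option linter.unusedSectionVars false

open CategoryTheory
open scoped TensorProduct

namespace Fermat.Agent.CFT.Bridge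

noncomputable section

open Global Duality Local

attribute [local instance] Units.mulDistribMulActionRight

/-! ## The projection onto the distinguished component -/

section Pr

variable (q : Nat.Primes)

/-- `(ℚ_q ⊗ L)ˣ → L_{w₀}ˣ`. -/
abbrev prUnits (L : Level) : (SL (q : ℕ) L.field)ˣ →* (Lw q L)ˣ := SL.unitsProj (L.place (q : ℕ))

lemma prUnits_smul (L : Level) (d : decomp q L) (u : (SL (q : ℕ) L.field)ˣ) :
    prUnits q L ((d : L.G) • u) = d • prUnits q L u :=
  Units.ext rfl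

/-- the projection, as a morphism of representations of `D_q(L)` -/
def prRep (L : Level) :
    Rep.res (decomp q L).subtype (Rep.ofMulDistribMulAction L.G (SL (q : ℕ) L.field)ˣ) ⟶
      unitsRep (Lw q L) (decomp q L) :=
  Coh.mulRepHom (decomp q L).subtype (prUnits q L) (prUnits_smul q L)

lemma prRep_apply (L : Level) (x : Additive (SL (q : ℕ) L.field)ˣ) :
    (prRep q L).hom x = Additive.ofMul (prUnits q L x.toMul) := rfl

/-- compatibility with the transition maps -/
lemma prUnits_unitsMap {L L' : Level} (h : L ≤ L') (u : (SL (q : ℕ) L.field)ˣ) :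
    prUnits q L' (SL.unitsMap (q : ℕ) (Level.incl h) u) =
      Units.map ((lwEmb q h : Lw q L →+* Lw q L') : Lw q L →* Lw q L') (prUnits q L u) :=
  Units.ext rfl

/-- transitivity of `L.G` on the places above `q` -/
lemma exists_smul_place_eq (L : Level) (w : Place (q : ℕ) L.field) :
    ∃ g : L.G, g • L.place (q : ℕ) = w :=
  Place.exists_smul_eq_of_rat (G := L.G) (L.place (q : ℕ)) w

/-- a unit of `ℚ_q ⊗ L` all of whose conjugates project to `1` is trivial -/
lemma eq_one_of_forall_prUnits_smul (L : Level) (u : (SL (q : ℕ) L.field)ˣ)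
    (hu : ∀ g : L.G, prUnits q L (g • u) = 1) : u = 1 := by
  apply SL.units_ext_unitsProj
  intro w
  obtain ⟨g, rfl⟩ := exists_smul_place_eq q L w
  have h1 := hu g⁻¹
  rw [prUnits, SL.unitsProj_smul_eq_one_iff, inv_inv] at h1
  rw [h1, map_one]

/-- `(ℚ_q ⊗ L)ˣ` is coinduced from `L_{w₀}ˣ`: surjectivity -/
lemma exists_forall_prUnits_smul_eq (L : Level) (f : L.G → (Lw q L)ˣ)
    (hf : ∀ (d : decomp q L) (g : L.G), f ((d : L.G) * g) = d • f g) :
    ∃ u : (SL (q : ℕ) L.field)ˣ, ∀ g : L.G, prUnits q L (g • u) = f g := by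
  classical
  set w := L.place (q : ℕ) with hw
  set D := decompGroup L.G w with hD
  have hDeq : decomp q L = D := decomp_eq_decompGroup q L
  haveI : Finite (L.G ⧸ D) := inferInstance
  letI : Fintype (L.G ⧸ D) := Fintype.ofFinite _
  refine ⟨∏ t : L.G ⧸ D, (t.out : L.G) • SL.unitsSingle w (f (t.out : L.G)⁻¹), fun g => ?_⟩
  rw [Finset.smul_prod', map_prod]
  rw [Finset.prod_eq_single (QuotientGroup.mk g⁻¹ : L.G ⧸ D)]
  · -- the main term
    set t₀ : L.G ⧸ D := QuotientGroup.mk g⁻¹ with ht₀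
    have hd : g * (t₀.out : L.G) ∈ D := by
      have h1 : (QuotientGroup.mk (t₀.out : L.G) : L.G ⧸ D) = QuotientGroup.mk g⁻¹ :=
        QuotientGroup.out_eq' t₀
      have h2 := QuotientGroup.eq.1 h1.symm
      rw [inv_inv] at h2
      exact h2
    have hd' : g * (t₀.out : L.G) ∈ decomp q L := by rw [hDeq]; exact hd
    rw [smul_smul]
    have h3 : prUnits q L ((g * (t₀.out : L.G)) • SL.unitsSingle w (f (t₀.out : L.G)⁻¹)) =
        (⟨g * (t₀.out : L.G), hd'⟩ : decomp q L) • prUnits q L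
          (SL.unitsSingle w (f (t₀.out : L.G)⁻¹)) :=
      prUnits_smul q L ⟨_, hd'⟩ _
    rw [h3, prUnits, SL.unitsProj_unitsSingle_self, ← hf]
    congr 1
    change g * (t₀.out : L.G) * (t₀.out : L.G)⁻¹ = g
    rw [mul_inv_cancel_right]
  · intro t _ ht
    rw [smul_smul]
    apply SL.unitsProj_smul_unitsSingle_of_notMem
    intro hmem
    apply ht
    have h1 : (QuotientGroup.mk (t.out : L.G) : L.G ⧸ D) = t := QuotientGroup.out_eq' t
    rw [← h1]
    apply QuotientGroup.eq.2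
    have h2 : (g * (t.out : L.G))⁻¹ ∈ D := inv_mem hmem
    rw [mul_inv_rev] at h2
    exact h2
  · intro h
    exact absurd (Finset.mem_univ _) h

end Pr

/-! ## The `PTData` fields -/

section Fields

variable (p : ℕ) [Fact p.Prime] (S : Finset Nat.Primes) (L₀ : Level) (h₀ : L₀.IsS S)

/-- **`PTData.Lq`**. -/
abbrev LqS (q : ↥S) : TowerModule ℤ (towerLoc q.1 L₀) := Lqtow q.1 L₀

/-- **`PTData.pr`**. -/
def prS (q : ↥S) (L : (towerS S L₀ h₀).ι) :
    Rep.res (decomp q.1 L.1.1).subtype ((Jtow S L₀ h₀ q).C L) ⟶ (LqS S L₀ q).C L.1 :=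
  prRep q.1 L.1.1

lemma prS_apply (q : ↥S) (L : (towerS S L₀ h₀).ι)
    (x : Additive (SL ((q : Nat.Primes) : ℕ) L.1.1.field)ˣ) :
    (prS S L₀ h₀ q L).hom x = Additive.ofMul (prUnits q.1 L.1.1 x.toMul) := rfl

/-- **`PTData.pr_comm`**. -/
theorem prS_comm (q : ↥S) {L L' : (towerS S L₀ h₀).ι} (h : L ≤ L') (x : (Jtow S L₀ h₀ q).C L) :
    (prS S L₀ h₀ q L').hom (((Jtow S L₀ h₀ q).φ h).hom x) =
      ((LqS S L₀ q).φ (i := L.1) (j := L'.1) h).hom ((prS S L₀ h₀ q L).hom x) := by
  change Additive (SL ((q : Nat.Primes) : ℕ) L.1.1.field)ˣ at x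
  exact congrArg Additive.ofMul (prUnits_unitsMap q.1 (L := L.1.1) (L' := L'.1.1) h x.toMul)

/-- **`PTData.pr_injective`**. -/
theorem prS_injective (q : ↥S) (L : (towerS S L₀ h₀).ι) (x : (Jtow S L₀ h₀ q).C L)
    (hx : ∀ g : (towerS S L₀ h₀).G L,
      (prS S L₀ h₀ q L).hom (((Jtow S L₀ h₀ q).C L).ρ g x) = 0) : x = 0 := by
  change Additive (SL ((q : Nat.Primes) : ℕ) L.1.1.field)ˣ at x
  have h1 : x.toMul = 1 := eq_one_of_forall_prUnits_smul q.1 L.1.1 x.toMul (fun g => by
    have := hx g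
    exact congrArg Additive.toMul this)
  exact congrArg Additive.ofMul h1

/-- **`PTData.pr_surjective`**. -/
theorem prS_surjective (q : ↥S) (L : (towerS S L₀ h₀).ι) (f : L.1.1.G → (LqS S L₀ q).C L.1)
    (hf : ∀ (d : decomp q.1 L.1.1) (g : L.1.1.G),
      f ((d : L.1.1.G) * g) = ((LqS S L₀ q).C L.1).ρ d (f g)) :
    ∃ x : (Jtow S L₀ h₀ q).C L, ∀ g : L.1.1.G,
      (prS S L₀ h₀ q L).hom (((Jtow S L₀ h₀ q).C L).ρ g x) = f g := by
  obtain ⟨u, hu⟩ := exists_forall_prUnits_smul_eq q.1 L.1.1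
    (fun g => Additive.toMul (show Additive (Lw q.1 L.1.1)ˣ from f g))
    (fun d g => congrArg Additive.toMul (hf d g))
  exact ⟨Additive.ofMul u, fun g => congrArg Additive.ofMul (hu g)⟩

/-! ## The local Kummer map -/

/-- `μ_p(L) → L_{w₀}ˣ`. -/
def kappaLocUnits (q : Nat.Primes) (L : Level) : rootsOfUnity p L.field →* (Lw q L)ˣ :=
  (Units.map (Kv.emb (L.place (q : ℕ)) : L.field →* Lw q L)).comp (rootsOfUnity p L.field).subtype

lemma coe_kappaLocUnits (q : Nat.Primes) (L : Level) (ζ : rootsOfUnity p L.field) :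
    ((kappaLocUnits p q L ζ : (Lw q L)ˣ) : Lw q L) =
      Kv.emb (L.place (q : ℕ)) ((ζ : L.fieldˣ) : L.field) := rfl

lemma kappaLocUnits_injective (q : Nat.Primes) (L : Level) :
    Function.Injective (kappaLocUnits p q L) := by
  intro a b hab
  have h1 := congrArg (fun z : (Lw q L)ˣ => (z : Lw q L)) hab
  exact Subtype.ext (Units.ext ((Kv.emb (L.place (q : ℕ))).injective h1))

/-- the local Kummer map, as a morphism of representations of `D_q(L)` -/
def kappaLocRep (q : Nat.Primes) (L : Level) :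
    Rep.res (decomp q L).subtype (Rep.ofMulDistribMulAction L.G (rootsOfUnity p L.field)) ⟶
      unitsRep (Lw q L) (decomp q L) :=
  Coh.mulRepHom (decomp q L).subtype (kappaLocUnits p q L) (fun _ _ => Units.ext rfl)

/-- **`PTData.κloc`**. -/
def kappaLoc (q : Nat.Primes) :
    ((muTow p L₀).resSub (decompFamily q L₀)).Hom (Lqtow q L₀) where
  f i := kappaLocRep p q i.1
  comm {i j} h := by
    ext x
    exact congrArg Additive.ofMul (Units.ext rfl)

lemma kappaLoc_apply (q : Nat.Primes) (L : (towerLoc q L₀).ι)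
    (m : Additive (rootsOfUnity p L.1.field)) :
    ((kappaLoc p L₀ q).f L).hom m = Additive.ofMul (kappaLocUnits p q L.1 m.toMul) := rfl

/-- **`PTData.κloc_injective`**. -/
theorem kappaLoc_injective (q : Nat.Primes) (L : (towerLoc q L₀).ι) :
    Function.Injective ((kappaLoc p L₀ q).f L).hom := by
  intro a b hab
  change Additive (rootsOfUnity p L.1.field) at a b
  have h1 : kappaLocUnits p q L.1 a.toMul = kappaLocUnits p q L.1 b.toMul :=
    congrArg Additive.toMul hab
  exact congrArg Additive.ofMul (kappaLocUnits_injective p q L.1 h1)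

variable {p L₀} in
/-- **`PTData.κloc_surjective`** (needs `μ_p ⊆ L₀`). -/
theorem kappaLoc_surjective (hμ : HasMu p L₀) (q : Nat.Primes) (L : (towerLoc q L₀).ι)
    (e : (Lqtow q L₀).C L) (he : p • e = 0) : ∃ m, ((kappaLoc p L₀ q).f L).hom m = e := by
  have hp : p.Prime := Fact.out
  haveI : NeZero p := ⟨hp.ne_zero⟩
  change Additive (Lw q L.1)ˣ at e
  have h1 : e.toMul ^ p = 1 := congrArg Additive.toMul he
  obtain ⟨ζ, hζ⟩ := hμ.exists_primitiveRoot L.1 L.2
  have hξ : IsPrimitiveRoot (Kv.emb (L.1.place (q : ℕ)) ζ) p :=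
    hζ.map_of_injective (Kv.emb (L.1.place (q : ℕ))).injective
  have h2 : ((e.toMul : (Lw q L.1)ˣ) : Lw q L.1) ^ p = 1 := by
    rw [← Units.val_pow_eq_pow_val, h1, Units.val_one]
  obtain ⟨i, -, hi⟩ := hξ.eq_pow_of_pow_eq_one h2
  have hζu : IsUnit ζ := hζ.isUnit hp.ne_zero
  let ζ' : rootsOfUnity p L.1.field := ⟨hζu.unit, by
    rw [mem_rootsOfUnity]
    apply Units.ext
    rw [Units.val_pow_eq_pow_val, IsUnit.unit_spec, hζ.pow_eq_one, Units.val_one]⟩
  refine ⟨Additive.ofMul (ζ' ^ i), ?_⟩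
  rw [kappaLoc_apply]
  change Additive.ofMul (kappaLocUnits p q L.1 (ζ' ^ i)) = e
  have h3 : kappaLocUnits p q L.1 (ζ' ^ i) = e.toMul := by
    apply Units.ext
    rw [map_pow, Units.val_pow_eq_pow_val, coe_kappaLocUnits, ← hi]
    rfl
  rw [h3]
  rfl

/-- **`PTData.κ_compat`**. -/
theorem kappa_compat (q : ↥S) (L : (towerS S L₀ h₀).ι) (m : (muTow p L₀).C L.1) :
    (prS S L₀ h₀ q L).hom (((eJ S L₀ h₀ q).f L).hom (((kappa (p := p) S h₀).f L).hom m)) =
      ((kappaLoc p L₀ q.1).f L.1).hom m :=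
  congrArg Additive.ofMul (Units.ext rfl)

end Fields

end

end Fermat.Agent.CFT.Bridge
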