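/-
P4 / C-LEVEL-LOC (5): the PTData field `loc_infl_injective` for the local tower module
`Lqtow q L₀` (inflation is injective on `H²(D_q(L), L_wˣ)`, by Hilbert 90), in the exact field
shape.
-/
import Fermat.Agent.Lib.CFT.Bridge.LocalFields
import Fermat.Agent.Lib.CFT.Duality.LocInj

set_option autoImplicit false
set_option linter.style.haveILetI false
set_option linter.unusedSectionVars false

open CategoryTheory

namespace Fermat.Agent.CFT.Bridge

noncomputable section

open Global Duality Local

/-- restriction to a subgroup which is everything is bijective -/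
theorem res_bijective_of_eq_top {k G : Type} [CommRing k] [Group G] (A : Rep k G)
    (U : Subgroup G) (hU : U = ⊤) (n : ℕ) :
    Function.Bijective (groupCohomology.map U.subtype (𝟙 (Rep.res U.subtype A)) n) := by
  subst hU
  exact res_top_bijective A n

variable (q : Nat.Primes)

/-- **inflation is injective on `H²(D_q(L), L_wˣ)`** -/
theorem lqtow_infl_injective (L₀ : Level) {L L' : (towerLoc q L₀).ι} (h : L ≤ L')
    (x : groupCohomology ((Lqtow q L₀).atSub L ⊤) 2)
    (hx : (Lqtow q L₀).inflMap h ⊤ 2 x = 0) : x = 0 := by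
  obtain ⟨y, rfl⟩ := (resTop_bijective (Lqtow q L₀) L 2).2 x
  rw [inflMap_resTop] at hx
  have h1 : groupCohomology.map ((towerLoc q L₀).π h) ((Lqtow q L₀).φ h) 2 y = 0 :=
    (res_bijective_of_eq_top ((Lqtow q L₀).C L') ((towerLoc q L₀).pre h ⊤)
      (Subgroup.comap_top _) 2).1 (hx.trans (map_zero _).symm)
  have h2 : y = 0 := (localTower q L₀).infl_injective h (h1.trans (map_zero _).symm)
  rw [h2, map_zero]

/-- the PTData field `loc_infl_injective` -/
theorem loc_infl_injective (p : ℕ) (S : Finset Nat.Primes) (L₀ : Level) (q : ↥S)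
    {L L' : (towerLoc q.1 L₀).ι} (h : L ≤ L')
    (x : groupCohomology ((LqS S L₀ q).atSub L ⊤) 2) (_hp : p • x = 0)
    (hx : (LqS S L₀ q).inflMap h ⊤ 2 x = 0) : x = 0 :=
  lqtow_infl_injective q.1 L₀ h x hx

end

end Fermat.Agent.CFT.Bridge
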