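/-
P4 / C-LEVEL-LOC (6): the PTData field `L_pdiv`: the local multiplicative groups `L_{w₀}ˣ` are
`p`-divisible in the limit over ALL levels.  Proof: weak approximation (`L` is dense in `L_{w₀}`),
openness of the `p`-th powers in `L_{w₀}ˣ`, and adjunction of a `p`-th root of a global element
(`kummerLevel`).
-/
import Fermat.Agent.Lib.CFT.Bridge.LocalFields
import Fermat.Agent.Lib.CFT.Global.SecondIneq.WeakApprox
import Fermat.Agent.Lib.CFT.Global.KummerUnramified

set_option autoImplicit false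
set_option linter.style.haveILetI false
set_option linter.unusedSectionVars false

open scoped TensorProduct

namespace Fermat.Agent.CFT.Bridge

noncomputable section

open Global Duality Local

variable (q : Nat.Primes)

lemma lwEmb_emb {L L' : Level} (h : L ≤ L') (x : L.field) :
    lwEmb q h (Kv.emb (L.place (q : ℕ)) x) = Kv.emb (L'.place (q : ℕ)) (Level.incl h x) := rfl

/-- every unit of `L_{w₀}` is a global element times an `n`-th power -/
theorem Lw.exists_emb_mul_pow (L : Level) (n : ℕ) (hn : n ≠ 0) (e : (Lw q L)ˣ) :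
    ∃ (a : L.fieldˣ) (y : (Lw q L)ˣ),
      Units.map (Kv.emb (L.place (q : ℕ)) : L.field →* Lw q L) a = e * y ^ n := by
  classical
  obtain ⟨k, -, hk⟩ := SL.exists_forall_pow_eq_of_sub_one_mem_ball (q : ℕ) L.field n hn
  set x₀ : (SL (q : ℕ) L.field)ˣ := SL.unitsSingle (L.place (q : ℕ)) e with hx₀
  obtain ⟨a, ha⟩ := SL.exists_forall_unitsIncl_div_sub_one_mem_ball (K := L.field) {q}
    (Function.update (fun r : Nat.Primes => (1 : (SL (r : ℕ) L.field)ˣ)) q x₀) k
  have ha' := ha q (Finset.mem_singleton_self q)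
  rw [Function.update_self] at ha'
  obtain ⟨s, hs⟩ := hk _ ha'
  refine ⟨a, SL.unitsProj (L.place (q : ℕ)) s, ?_⟩
  have h1 : SL.unitsIncl (q : ℕ) L.field a = x₀ * s ^ n := by
    rw [hs, mul_div_cancel]
  have h2 := congrArg (SL.unitsProj (L.place (q : ℕ))) h1
  rw [map_mul, map_pow, hx₀, SL.unitsProj_unitsSingle_self] at h2
  rw [← h2]
  exact Units.ext rfl

variable (p : ℕ) [hp : Fact p.Prime]

/-- **`L_{w₀}ˣ` is `p`-divisible in the limit over all levels** -/
theorem Lw.exists_level_pow_eq (L : Level) (e : (Lw q L)ˣ) :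
    ∃ (L' : Level) (h : L ≤ L') (e' : (Lw q L')ˣ),
      e' ^ p = Units.map (lwEmb q h : Lw q L →* Lw q L') e := by
  have hp0 : p ≠ 0 := hp.out.ne_zero
  obtain ⟨a, y, hay⟩ := Lw.exists_emb_mul_pow q L p hp0 e
  set ψ : L.field →+* Qbar := (L.toIntermediateField.val : L.field →+* Qbar) with hψ
  set F : Level := kummerLevel L.field p {(a : L.field)} Qbar with hF
  have h1 : L ≤ F := by
    intro x hx
    exact ringHom_mem_kummerSplit hp0 ψ ⟨x, hx⟩
  obtain ⟨b, hb⟩ := exists_unit_kummerSplit_pow_eq (K := L.field) (n := p) (Ω := Qbar)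
    (A := {(a : L.field)}) hp0 ψ (a := a) (Finset.mem_singleton_self _)
  have hincl : (toKummerSplit (A := {(a : L.field)}) hp0 ψ : L.field →+* F.field) =
      Level.incl h1 := by
    ext x
    rfl
  refine ⟨F, h1, Units.map (Kv.emb (F.place (q : ℕ)) : F.field →* Lw q F) b *
    (Units.map (lwEmb q h1 : Lw q L →* Lw q F) y)⁻¹, ?_⟩
  have h2 : Units.map (lwEmb q h1 : Lw q L →* Lw q F)
      (Units.map (Kv.emb (L.place (q : ℕ)) : L.field →* Lw q L) a) =
      Units.map (Kv.emb (F.place (q : ℕ)) : F.field →* Lw q F) (b ^ p) := by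
    rw [hb]
    apply Units.ext
    change lwEmb q h1 (Kv.emb (L.place (q : ℕ)) (a : L.field)) =
      Kv.emb (F.place (q : ℕ)) (toKummerSplit (A := {(a : L.field)}) hp0 ψ (a : L.field))
    rw [lwEmb_emb, hincl]
    rfl
  have h3 : e = Units.map (Kv.emb (L.place (q : ℕ)) : L.field →* Lw q L) a * (y ^ p)⁻¹ := by
    rw [hay, mul_inv_cancel_right]
  rw [h3, map_mul, h2, mul_pow]
  simp only [map_pow, map_inv, inv_pow]
  congr 1
  exact (map_pow (Units.map (Kv.emb (F.place (q : ℕ)) : F.field →* Lw q F)) b p).symm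

/-- **`PTData.L_pdiv`** for `Lqtow`. -/
theorem Lqtow_pdiv (L₀ : Level) (L : (towerLoc q L₀).ι) (e : (Lqtow q L₀).C L) :
    ∃ (L' : (towerLoc q L₀).ι) (h : L ≤ L') (e' : (Lqtow q L₀).C L'),
      p • e' = ((Lqtow q L₀).φ h).hom e := by
  change Additive (Lw q L.1)ˣ at e
  obtain ⟨F, h1, e', he'⟩ := Lw.exists_level_pow_eq q p L.1 e.toMul
  refine ⟨⟨F, L.2.trans h1⟩, h1, (Additive.ofMul e' : Additive (Lw q F)ˣ), ?_⟩
  change Additive.ofMul (e' ^ p) = _
  rw [he']
  rfl

/-- **`PTData.L_pdiv`** in the exact field shape. -/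
theorem L_pdiv (S : Finset Nat.Primes) (L₀ : Level) (r : ↥S) (L : (towerLoc r.1 L₀).ι)
    (e : (LqS S L₀ r).C L) :
    ∃ (L' : (towerLoc r.1 L₀).ι) (h : L ≤ L') (e' : (LqS S L₀ r).C L'),
      p • e' = ((LqS S L₀ r).φ h).hom e :=
  Lqtow_pdiv r.1 p L₀ L e

end

end Fermat.Agent.CFT.Bridge
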