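/-
P4 / B + C-LEVEL-LOC: the tower of completions `L ↦ L_{w₀}` (helper3's `Bridge.localTower`) has enough
unramified levels, hence carries the fundamental `p`-classes of `LocalTower.pFundamental`.
-/
import Fermat.Agent.Lib.CFT.Bridge.LocalTowerInst
import Fermat.Agent.Lib.CFT.Local.RootsResidue
import Fermat.Agent.Lib.CFT.Duality.PinfTower
import Fermat.Agent.Lib.CFT.Duality.FilterFormation

set_option autoImplicit false
set_option linter.style.haveILetI false
set_option linter.unusedSectionVars false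
set_option linter.unusedVariables false

open scoped TensorProduct

namespace Fermat.Agent.CFT.Bridge

noncomputable section

open Global Duality Local ExtCitation

variable (q : Nat.Primes)

/-- the local Galois group acts on `L_{w₀}` through `decomp q L`, compatibly with `L_{w₀} → ℚ̄_q` -/
theorem kvToPadic_smul (L : Level) (τ : PadicAlgCl (q : ℕ) ≃ₐ[ℚ_[(q : ℕ)]] PadicAlgCl (q : ℕ))
    (d : decomp q L) (hd : (d : L.G) = L.proj (localGaloisToGlobal (q : ℕ) τ)) (x : Lw q L) :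
    L.kvToPadic (q : ℕ) (d • x) = τ (L.kvToPadic (q : ℕ) x) := by
  obtain ⟨z, rfl⟩ := Kv.proj_surjective _ x
  rw [decomp_smul_proj, Level.kvToPadic_proj, Level.kvToPadic_proj, hd, Level.toPadic_proj_smul]

open Module in
/-- the fixed field of the decomposition group in `L_{w₀}` is `ℚ_q` -/
theorem finrank_fixedF_Lw (L : Level) :
    finrank ℚ_[(q : ℕ)] (FixedF (q : ℕ) (Lw q L) (decomp q L)) = 1 := by
  rw [IntermediateField.finrank_eq_one_iff, eq_bot_iff]
  intro x hx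
  have hfix : ∀ τ : PadicAlgCl (q : ℕ) ≃ₐ[ℚ_[(q : ℕ)]] PadicAlgCl (q : ℕ),
      τ (L.kvToPadic (q : ℕ) x) = L.kvToPadic (q : ℕ) x := by
    intro τ
    have hmem : L.proj (localGaloisToGlobal (q : ℕ) τ) ∈ decomp q L := ⟨_, ⟨τ, rfl⟩, rfl⟩
    rw [← kvToPadic_smul q L τ ⟨_, hmem⟩ rfl x]
    exact congrArg _ (hx ⟨_, hmem⟩)
  obtain ⟨a, ha⟩ := (InfiniteGalois.mem_range_algebraMap_iff_fixed (k := ℚ_[(q : ℕ)])
    (K := PadicAlgCl (q : ℕ)) _).2 hfix
  refine ⟨a, ?_⟩
  apply L.kvToPadic_injective (q : ℕ)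
  rw [← ha]
  exact (L.kvToPadic (q : ℕ)).commutes a

/-- if `L` contains the `(q ^ m - 1)`-th roots of unity, then `m ∣ f(L_{w₀} / ℚ_q)` -/
theorem dvd_resF_Lw (L : Level) (m : ℕ) [NeZero m]
    (hL : Pinf.cycloLevel ((q : ℕ) ^ m - 1) ≤ L) :
    m ∣ resF (q : ℕ) (Lw q L) (decomp q L) := by
  have hz : IsPrimitiveRoot (Pinf.zetaQbar ((q : ℕ) ^ m - 1)) ((q : ℕ) ^ m - 1) :=
    Pinf.zetaQbar_spec _
  have hmem : Pinf.zetaQbar ((q : ℕ) ^ m - 1) ∈ L.toIntermediateField :=
    hL (IntermediateField.mem_adjoin_simple_self ℚ _)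
  have hz' : IsPrimitiveRoot (⟨_, hmem⟩ : L.field) ((q : ℕ) ^ m - 1) :=
    IsPrimitiveRoot.of_map_of_injective (f := L.toIntermediateField.val) hz Subtype.val_injective
  have hz'' : IsPrimitiveRoot (Kv.emb (L.place (q : ℕ)) (⟨_, hmem⟩ : L.field)) ((q : ℕ) ^ m - 1) :=
    hz'.map_of_injective (Kv.emb (L.place (q : ℕ))).injective
  exact dvd_resF_of_isPrimitiveRoot (q : ℕ) (Lw q L) (decomp q L)
    (finrank_fixedF_Lw q L) (Nat.pos_of_ne_zero (NeZero.ne m)) hz''

variable (L₀ : Level) (p : ℕ) [hp : Fact p.Prime]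

/-- the tower of completions has enough unramified levels -/
theorem localTower_hur (j : (towerLoc q L₀).ι) (n : ℕ) :
    ∃ (k : (towerLoc q L₀).ι) (_ : j ≤ k),
      p ^ n ∣ resF (q : ℕ) ((localTower q L₀).F k) ((towerLoc q L₀).G k) := by
  haveI : NeZero (p ^ n) := ⟨(pow_pos hp.out.pos n).ne'⟩
  refine ⟨⟨j.1 ⊔ Pinf.cycloLevel ((q : ℕ) ^ (p ^ n) - 1), j.2.trans le_sup_left⟩,
    (le_sup_left : j.1 ≤ j.1 ⊔ _), ?_⟩
  exact dvd_resF_Lw q _ (p ^ n) le_sup_right

/-- **the Frobenius-normalised fundamental `p`-classes of the tower of completions at `q`** -/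
def pFundamentalLqtow : PFundamental p (towerLoc q L₀) (Lqtow q L₀) :=
  (localTower q L₀).pFundamental p (localTower_hur q L₀ p)

/-- the same over the local `S`-tower -/
def pFundamentalLqtowS (S : Finset Nat.Primes) (h₀ : L₀.IsS S) (hpS : pPrime p ∈ S) :
    PFundamental p (towerLocS S q L₀ h₀)
      ((Lqtow q L₀).filter (isSPred S L₀) (isSPred_nonempty h₀) (isSPred_directed S L₀)) :=
  PFundamental.filter (T := towerLoc q L₀) (C := Lqtow q L₀) (isSPred S L₀) (isSPred_nonempty h₀)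
    (isSPred_directed S L₀) (pFundamentalLqtow q L₀ p) (pinf_towerLocS p S L₀ h₀ hpS q)

/-- inflation `H²(D_q(L), L_{w₀}ˣ) → H²(D_q(L'), L'_{w₀}ˣ)` is injective -/
theorem Lqtow_infl_injective {i j : (towerLoc q L₀).ι} (h : i ≤ j) :
    Function.Injective
      (groupCohomology.map ((towerLoc q L₀).π h) ((Lqtow q L₀).φ h) 2).hom :=
  (localTower q L₀).infl_injective h

end

end Fermat.Agent.CFT.Bridge
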