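/-
P4 / C8-TOW (final): the `PTData` literal over an `S`-level `L₀ ⊇ μ_p`, assembled from the concrete
tower modules of `TowerFields.lean` / `LocalFields.lean` and the three deep inputs

* `F  : PFundamental p (towerS S L₀ h₀) (Ctow S L₀ h₀)`   (global fundamental `p`-classes, C5),
* `ex : PExistence p (towerS S L₀ h₀) (Ctow S L₀ h₀)`      (existence theorem, C6),
* `hINJ` : `jC_*` is injective on `H²(G_L, J_q(L))[p]`     (C5-LOC-INJ);

the local class formations `cfLoc` are helper8's renormalised ones (`PFundamental.renorm`), built on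
helper7's `pFundamentalLqtowS`.
-/
import Fermat.Agent.Lib.CFT.Bridge.LocalFields
import Fermat.Agent.Lib.CFT.Bridge.LocalInfl
import Fermat.Agent.Lib.CFT.Bridge.LocalPDiv
import Fermat.Agent.Lib.CFT.Bridge.LocalTowerHur
import Fermat.Agent.Lib.CFT.Duality.LocFund
import Fermat.Agent.Lib.CFT.Duality.D2

set_option autoImplicit false
set_option linter.style.haveILetI false
set_option linter.unusedSectionVars false

open CategoryTheory

namespace Fermat.Agent.CFT.Bridge

noncomputable section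

open Global Duality Local Pinf

variable (p : ℕ) [hp : Fact p.Prime] (S : Finset Nat.Primes) (L₀ : Level) (h₀ : L₀.IsS S)

variable {p L₀} in
/-- a level on whose absolute Galois group the mod `p` cyclotomic character is trivial
contains `μ_p` -/
theorem hasMu_of_cycloChar (hχ : ∀ s ∈ L₀.N, ExtCitation.cycloChar p s = 1) : HasMu p L₀ := by
  haveI : NeZero p := ⟨hp.out.ne_zero⟩
  have hz := zetaQbar_spec p
  set ζ : Qbar := zetaQbar p with hζ
  have hfix : ∀ σ ∈ L₀.N, σ ζ = ζ := by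
    intro σ hσ
    let t : Qbarˣ := Units.mk0 ζ (hz.ne_zero (NeZero.ne p))
    have ht : t ∈ rootsOfUnity p Qbar := by
      rw [mem_rootsOfUnity]
      exact Units.ext hz.pow_eq_one
    have h2 := modularCyclotomicCharacter.spec Qbar (ExtCitation.card_rootsOfUnity_eq_self p)
      (σ : Qbar ≃+* Qbar) ht
    have h3 : (modularCyclotomicCharacter Qbar (ExtCitation.card_rootsOfUnity_eq_self p)
        (σ : Qbar ≃+* Qbar)) = ExtCitation.cycloChar p σ := rfl
    rw [h3, hχ σ hσ] at h2
    have h4 : ((1 : (ZMod p)ˣ) : ZMod p).val = 1 := by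
      rw [Units.val_one]
      haveI : Fact (1 < p) := ⟨hp.out.one_lt⟩
      exact ZMod.val_one p
    rw [h4, pow_one] at h2
    exact h2
  have hmem : ζ ∈ L₀.toIntermediateField := by
    rw [← InfiniteGalois.fixedField_fixingSubgroup L₀.toIntermediateField,
      IntermediateField.mem_fixedField_iff]
    exact fun σ hσ => hfix σ hσ
  exact ⟨⟨ζ, hmem⟩, IsPrimitiveRoot.of_map_of_injective (f := algebraMap L₀.field Qbar) hz
    (algebraMap L₀.field Qbar).injective⟩

variable {p S L₀ h₀}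

/-- **The `PTData` literal**, from the three deep inputs. -/
def ptDataOf (hpS : ExtCitation.pPrime p ∈ S) (hμ : HasMu p L₀)
    (F : PFundamental p (towerS S L₀ h₀) (Ctow S L₀ h₀))
    (ex : PExistence p (towerS S L₀ h₀) (Ctow S L₀ h₀))
    (hINJ : ∀ (q : ↥S) (L : (towerS S L₀ h₀).ι)
      (z : groupCohomology ((Jtow S L₀ h₀ q).C L) 2), p • z = 0 →
      (groupCohomology.map (MonoidHom.id ((towerS S L₀ h₀).G L)) ((jC S L₀ h₀ q).f L) 2).hom z = 0 →
      z = 0) :
    PTData p S L₀ h₀ where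
  C := Ctow S L₀ h₀
  cf := F.toPClassFormation
  ex := ex
  E := Etow S L₀ h₀
  J := Jtow S L₀ h₀
  eJ := eJ S L₀ h₀
  jC := jC S L₀ h₀
  eJ_injective := eJ_injective S L₀ h₀ ⟨_, hpS⟩
  exact_EJC := exact_EJC S L₀ h₀
  cl_finite := cl_finite S L₀ h₀
  cl_capitulation := cl_capitulation p S L₀ h₀ hpS
  Lq := LqS S L₀
  cfLoc := fun q =>
    (PFundamental.renorm (isSPred S L₀) (isSPred_nonempty h₀) (isSPred_directed S L₀)
      (decompFamily q.1 L₀) (jC S L₀ h₀ q)
      (Lq := (LqS S L₀ q).filter (isSPred S L₀) (isSPred_nonempty h₀) (isSPred_directed S L₀))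
      (prS S L₀ h₀ q)
      (fun {_ _} h x => prS_comm S L₀ h₀ q h x) (prS_injective S L₀ h₀ q)
      (prS_surjective S L₀ h₀ q) F (pFundamentalLqtowS q.1 L₀ p S h₀ hpS) (hINJ q)).toPClassFormation
  loc_infl_injective := fun q {_ _} h x hx hx' => loc_infl_injective p S L₀ q h x hx hx'
  pr := prS S L₀ h₀
  pr_comm := prS_comm S L₀ h₀
  pr_injective := prS_injective S L₀ h₀
  pr_surjective := prS_surjective S L₀ h₀
  inv_compat := fun q L z hz =>
    PFundamental.renorm_inv_compat (isSPred S L₀) (isSPred_nonempty h₀) (isSPred_directed S L₀)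
      (decompFamily q.1 L₀) (jC S L₀ h₀ q)
      (Lq := (LqS S L₀ q).filter (isSPred S L₀) (isSPred_nonempty h₀) (isSPred_directed S L₀))
      (prS S L₀ h₀ q)
      (fun {_ _} h x => prS_comm S L₀ h₀ q h x) (prS_injective S L₀ h₀ q)
      (prS_surjective S L₀ h₀ q) F (pFundamentalLqtowS q.1 L₀ p S h₀ hpS) (hINJ q) L z hz
  μ := muTow p L₀
  μ_cart := muTow_isCartesian hμ
  μ_card := muTow_card hμ
  μ_cyclo := muTow_cyclo
  κ := kappa S h₀
  κ_injective := kappa_injective S h₀
  κ_surjective := kappa_surjective S h₀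
  E_pdiv := E_pdiv p S L₀ h₀ hpS
  κloc := fun q => kappaLoc p L₀ q.1
  κloc_injective := fun q => kappaLoc_injective p L₀ q.1
  κloc_surjective := fun q => kappaLoc_surjective hμ q.1
  L_pdiv := L_pdiv p S L₀
  κ_compat := kappa_compat p S L₀ h₀

variable (p S)

/-- **Poitou–Tate from the three deep class field theory inputs** over the `S`-levels
containing `μ_p`. -/
theorem poitouTateStatement_of_inputs (hpS : ExtCitation.pPrime p ∈ S)
    (hF : ∀ (L₀ : Level) (h₀ : L₀.IsS S), HasMu p L₀ →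
      Nonempty (PFundamental p (towerS S L₀ h₀) (Ctow S L₀ h₀)))
    (hex : ∀ (L₀ : Level) (h₀ : L₀.IsS S), HasMu p L₀ →
      PExistence p (towerS S L₀ h₀) (Ctow S L₀ h₀))
    (hINJ : ∀ (L₀ : Level) (h₀ : L₀.IsS S), HasMu p L₀ →
      ∀ (q : ↥S) (L : (towerS S L₀ h₀).ι)
      (z : groupCohomology ((Jtow S L₀ h₀ q).C L) 2), p • z = 0 →
      (groupCohomology.map (MonoidHom.id ((towerS S L₀ h₀).G L)) ((jC S L₀ h₀ q).f L) 2).hom z = 0 →
      z = 0)
    (M : Rep.{0} (ZMod p) GQ) [FiniteDimensional (ZMod p) M.V] (L₁ : Level) (h₁ : L₁.IsS S)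
    (hM₁ : TrivialOn M L₁) : PoitouTateStatement p S M :=
  poitouTateStatement_of_ptData hpS (fun L₀ h₀ hχ => by
    have hμ := hasMu_of_cycloChar hχ
    obtain ⟨F⟩ := hF L₀ h₀ hμ
    exact ⟨ptDataOf hpS hμ F (hex L₀ h₀ hμ) (hINJ L₀ h₀ hμ)⟩) M L₁ h₁ hM₁

end

end Fermat.Agent.CFT.Bridge
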