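/-
P4 (final assembly of layers B/C/D): `PoitouTateStatement p S M` from the three remaining
arithmetic inputs

* `OrderInput p S` (P4) and `ResInput p S` (P5 = C5-e)   (`Bridge/CycClassesS.lean`),
* `LocInjInput p S` (C5-LOC-INJ): `jC_*` is injective on `H²(G_L, J_q(L))[p]`.

Everything else (the `PTData` literal, global fundamental classes, existence theorem, renormalised
local classes, abstract Poitou–Tate duality) is proved.
-/
import Fermat.Agent.Lib.CFT.Bridge.PTDataLiteral
import Fermat.Agent.Lib.CFT.Bridge.CycClassesS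
import Fermat.Agent.Lib.CFT.Bridge.Existence

set_option autoImplicit false
set_option linter.style.haveILetI false
set_option linter.unusedSectionVars false

open CategoryTheory

namespace Fermat.Agent.CFT.Bridge

noncomputable section

open Global Duality Local Pinf

variable (p : ℕ) [hp : Fact p.Prime] (S : Finset Nat.Primes)

/-- the arithmetic input (C5-LOC-INJ): over every `S`-level `L₀ ⊇ μ_p`, the map
`H²(G_L, J_q(L)) → H²(G_L, C_S(L))` is injective on `p`-torsion -/
def LocInjInput : Prop :=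
  ∀ (L₀ : Level) (h₀ : L₀.IsS S), HasMu p L₀ →
    ∀ (q : ↥S) (L : (towerS S L₀ h₀).ι)
    (z : groupCohomology ((Jtow S L₀ h₀ q).C L) 2), p • z = 0 →
    (groupCohomology.map (MonoidHom.id ((towerS S L₀ h₀).G L)) ((jC S L₀ h₀ q).f L) 2).hom z = 0 →
    z = 0

/-- **the `PTData`** over an `S`-level containing `μ_p`, from the three arithmetic inputs -/
def ptDataOfInputs (hp2 : p ≠ 2) (hpS : ExtCitation.pPrime p ∈ S) (hord : OrderInput p S)
    (hres : ResInput p S) (hinj : LocInjInput p S) (L₀ : Level) (h₀ : L₀.IsS S)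
    (hμ : HasMu p L₀) : PTData p S L₀ h₀ :=
  ptDataOf hpS hμ (Ctow_pFundamental_of p hp2 S L₀ h₀ hpS hord hres)
    (Ctow_pExistence p S L₀ h₀ hp2 hpS hμ (Ctow_pFundamental_of p hp2 S L₀ h₀ hpS hord hres))
    (hinj L₀ h₀ hμ)

/-- **Poitou–Tate** from the three arithmetic inputs. -/
theorem poitouTateStatement_of_arith (hp2 : p ≠ 2) (hpS : ExtCitation.pPrime p ∈ S)
    (hord : OrderInput p S) (hres : ResInput p S) (hinj : LocInjInput p S)
    (M : Rep.{0} (ZMod p) GQ) [FiniteDimensional (ZMod p) M.V] (L₁ : Level) (h₁ : L₁.IsS S)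
    (hM₁ : TrivialOn M L₁) : PoitouTateStatement p S M :=
  poitouTateStatement_of_ptData hpS (fun L₀ h₀ hχ =>
    ⟨ptDataOfInputs p S hp2 hpS hord hres hinj L₀ h₀ (hasMu_of_cycloChar hχ)⟩) M L₁ h₁ hM₁

end

end Fermat.Agent.CFT.Bridge
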