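/-
P4 / C5-LOC-INJ (reduction): the arithmetic input `LocInjInput p S` (injectivity of
`jC_* : H²(G_L, J_q(L)) → H²(G_L, C_S(L))` on `p`-torsion) follows from the existence, above every
level, of ONE `p`-torsion class of `H²(G_{L'}, J_q(L'))` with nonzero image:

* inflation on the `J`-side is injective (Shapiro + Hilbert 90 for the local fields), and `jC_*`
  commutes with inflation, so the statement at `L' ≥ L` implies the statement at `L`;
* `H²(G_L, J_q(L))(p) ≅ H²(D_q(L), L_wˣ)(p)` is cyclic, generated by the (Shapiro preimage of the)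
  local fundamental class, so its `p`-torsion is cyclic of order dividing `p`.
-/
import Fermat.Agent.Lib.CFT.Bridge.PTDataFinal

set_option autoImplicit false
set_option linter.style.haveILetI false
set_option linter.unusedSectionVars false

open CategoryTheory

namespace Fermat.Agent.CFT.Bridge

noncomputable section

open Global Duality Local Pinf groupCohomology

/-! ## `p`-torsion in a cyclic `p`-group -/

/-- In the cyclic group generated by `v` of order `p ^ d`, every `p`-torsion element is a multiple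
of any nonzero `p`-torsion element. -/
theorem exists_zsmul_eq_of_ptorsion {X : Type*} [AddCommGroup X] (p : ℕ) [hp : Fact p.Prime]
    (v : X) (d : ℕ) (hv : addOrderOf v = p ^ d) (z z' : X) (hz : ∃ m : ℤ, z = m • v)
    (hz' : ∃ m : ℤ, z' = m • v) (hpz : p • z = 0) (hpz' : p • z' = 0) (hz'0 : z' ≠ 0) :
    ∃ n : ℤ, z = n • z' := by
  obtain ⟨m, rfl⟩ := hz
  obtain ⟨m', rfl⟩ := hz'
  have key : ∀ a : ℤ, a • v = 0 ↔ ((p : ℤ) ^ d) ∣ a := by
    intro a
    rw [← addOrderOf_dvd_iff_zsmul_eq_zero, hv]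
    push_cast
    rfl
  cases d with
  | zero =>
    exfalso
    apply hz'0
    rw [key]
    simp
  | succ d =>
    have hp0 : (p : ℤ) ≠ 0 := by exact_mod_cast hp.out.ne_zero
    have h1 : ((p : ℤ) ^ d) ∣ m := by
      have : ((p : ℤ) * m) • v = 0 := by rw [mul_smul, natCast_zsmul]; exact hpz
      rw [key, pow_succ, mul_comm] at this
      exact (mul_dvd_mul_iff_left hp0).1 this
    have h1' : ((p : ℤ) ^ d) ∣ m' := by
      have : ((p : ℤ) * m') • v = 0 := by rw [mul_smul, natCast_zsmul]; exact hpz'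
      rw [key, pow_succ, mul_comm] at this
      exact (mul_dvd_mul_iff_left hp0).1 this
    obtain ⟨a, rfl⟩ := h1
    obtain ⟨a', rfl⟩ := h1'
    have ha' : ¬ (p : ℤ) ∣ a' := by
      intro h
      apply hz'0
      rw [key, pow_succ]
      exact mul_dvd_mul_left _ h
    have hcop : IsCoprime a' (p : ℤ) :=
      (Int.isCoprime_iff_gcd_eq_one.2 (by
        have := (Nat.Prime.coprime_iff_not_dvd hp.out).2
          (fun h : p ∣ a'.natAbs => ha' (Int.natCast_dvd.2 h))
        rw [Int.gcd_comm]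
        exact this))
    obtain ⟨x, y, hxy⟩ := hcop
    refine ⟨a * x, ?_⟩
    rw [← mul_smul]
    have h2 : (p : ℤ) ^ d * a - a * x * ((p : ℤ) ^ d * a') = (p : ℤ) ^ (d + 1) * (a * y) := by
      have : (1 : ℤ) - x * a' = y * p := by rw [← hxy]; ring
      calc (p : ℤ) ^ d * a - a * x * ((p : ℤ) ^ d * a') = (p : ℤ) ^ d * a * (1 - x * a') := by ring
        _ = (p : ℤ) ^ d * a * (y * p) := by rw [this]
        _ = (p : ℤ) ^ (d + 1) * (a * y) := by ring
    have h3 : ((p : ℤ) ^ d * a - a * x * ((p : ℤ) ^ d * a')) • v = 0 := by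
      rw [key, h2]
      exact dvd_mul_right _ _
    rw [sub_smul, sub_eq_zero] at h3
    exact h3

/-! ## The generic reduction -/

section Generic

variable {p : ℕ} [hp : Fact p.Prime] {T : Tower} (P : T.ι → Prop) (hne : ∃ i, P i)
  (hdir : ∀ i j, P i → P j → ∃ l, P l ∧ i ≤ l ∧ j ≤ l) (D : T.SubgroupFamily)
  {C J : TowerModule ℤ (T.filter P hne hdir)} (jC : J.Hom C)
  {Lq : TowerModule ℤ ((T.subTower D).filter P hne hdir)}
  (pr : ∀ L : (T.filter P hne hdir).ι, Rep.res (D.D L.1).subtype (J.C L) ⟶ Lq.C L)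
  (hpr : ∀ {L L' : (T.filter P hne hdir).ι} (h : L ≤ L') (x : J.C L),
    (pr L').hom ((J.φ h).hom x) = (Lq.φ (i := L) (j := L') h).hom ((pr L).hom x))
  (hprinj : ∀ (L : (T.filter P hne hdir).ι) (y : J.C L),
    (∀ g : T.G L.1, (pr L).hom ((J.C L).ρ g y) = 0) → y = 0)
  (hprsurj : ∀ (L : (T.filter P hne hdir).ι) (f : T.G L.1 → Lq.C L),
    (∀ (s : D.D L.1) (g : T.G L.1), f ((s : T.G L.1) * g) = (Lq.C L).ρ s (f g)) →
    ∃ y : J.C L, ∀ g : T.G L.1, (pr L).hom ((J.C L).ρ g y) = f g)

include hpr hprinj hprsurj in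
/-- **descent of the injectivity statement** from a higher level -/
theorem jC_inj_of_le {L L' : (T.filter P hne hdir).ι} (h : L ≤ L')
    (hinfl : Function.Injective
      (map (((T.subTower D).filter P hne hdir).π (i := L) (j := L') h)
        (Lq.φ (i := L) (j := L') h) 2).hom)
    (hL' : ∀ z' : groupCohomology (J.C L') 2, p • z' = 0 →
      (map (MonoidHom.id ((T.filter P hne hdir).G L')) (jC.f L') 2).hom z' = 0 → z' = 0)
    (z : groupCohomology (J.C L) 2) (hz : p • z = 0)
    (hz0 : (map (MonoidHom.id ((T.filter P hne hdir).G L)) (jC.f L) 2).hom z = 0) : z = 0 := by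
  set z' := (map ((T.filter P hne hdir).π h) (J.φ h) 2).hom z with hz'
  have h1 : p • z' = 0 := by rw [hz', ← map_nsmul, hz, map_zero]
  have h2 : (map (MonoidHom.id ((T.filter P hne hdir).G L')) (jC.f L') 2).hom z' = 0 := by
    have := congr($(map_jC_infl P hne hdir jC h 2) z)
    change (map (MonoidHom.id ((T.filter P hne hdir).G L')) (jC.f L') 2).hom z' =
      (map ((T.filter P hne hdir).π h) (C.φ h) 2).hom
        ((map (MonoidHom.id ((T.filter P hne hdir).G L)) (jC.f L) 2).hom z) at this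
    rw [this, hz0, map_zero]
  have h3 : z' = 0 := hL' z' h1 h2
  have h4 := congr($(map_pr_infl P hne hdir D pr hpr h 2) z)
  change (map (D.D L'.1).subtype (pr L') 2).hom z' =
    (map (((T.subTower D).filter P hne hdir).π (i := L) (j := L') h)
      (Lq.φ (i := L) (j := L') h) 2).hom ((map (D.D L.1).subtype (pr L) 2).hom z) at h4
  have h4' : (map (D.D L'.1).subtype (pr L') 2).hom z' = 0 := by
    rw [h3]; exact map_zero _
  have h5 : (map (D.D L.1).subtype (pr L) 2).hom z = 0 :=
    hinfl ((h4.symm.trans h4').trans (map_zero _).symm)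
  exact (shH_bijective (D.D L.1) (J.C L) (Lq.C L) (pr L) (hprinj L) (hprsurj L)).1
    (h5.trans (map_zero _).symm)

include hprinj hprsurj in
/-- **one class suffices**: if some `p`-torsion class of `H²(G_L, J_L)` has nonzero image in
`H²(G_L, C_L)`, then `jC_*` is injective on the `p`-torsion of `H²(G_L, J_L)`. -/
theorem jC_inj_of_exists (FL : PFundamental p ((T.subTower D).filter P hne hdir) Lq)
    (L : (T.filter P hne hdir).ι) (x : groupCohomology (J.C L) 2) (hx : p • x = 0)
    (hx0 : (map (MonoidHom.id ((T.filter P hne hdir).G L)) (jC.f L) 2).hom x ≠ 0)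
    (z : groupCohomology (J.C L) 2) (hz : p • z = 0)
    (hz0 : (map (MonoidHom.id ((T.filter P hne hdir).G L)) (jC.f L) 2).hom z = 0) : z = 0 := by
  have hSh := shH_bijective (D.D L.1) (J.C L) (Lq.C L) (pr L) (hprinj L) (hprsurj L)
  have hxne : x ≠ 0 := by
    rintro rfl
    exact hx0 (map_zero _)
  -- everything is a multiple of the local fundamental class
  have hmul : ∀ y : groupCohomology (J.C L) 2, p • y = 0 →
      ∃ m : ℤ, shH (D.D L.1) (J.C L) (Lq.C L) (pr L) y = m • FL.u L := by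
    intro y hy
    exact exists_zsmul_fund (Lq.C L) p (FL.u L) (FL.u_order L) (FL.h2P L) _ 1
      (by
        rw [pow_one]
        exact (map_nsmul (shH (D.D L.1) (J.C L) (Lq.C L) (pr L)) p y).symm.trans
          (by rw [hy]; exact map_zero _))
  obtain ⟨n, hn⟩ := exists_zsmul_eq_of_ptorsion p (FL.u L) _ (FL.u_order L)
    (shH (D.D L.1) (J.C L) (Lq.C L) (pr L) z) (shH (D.D L.1) (J.C L) (Lq.C L) (pr L) x)
    (hmul z hz) (hmul x hx)
    ((map_nsmul (shH (D.D L.1) (J.C L) (Lq.C L) (pr L)) p z).symm.trans (by rw [hz]; exact map_zero _))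
    ((map_nsmul (shH (D.D L.1) (J.C L) (Lq.C L) (pr L)) p x).symm.trans (by rw [hx]; exact map_zero _))
    (fun h => hxne (hSh.1 (h.trans (map_zero _).symm)))
  have hzx : z = n • x :=
    hSh.1 (hn.trans (map_zsmul (shH (D.D L.1) (J.C L) (Lq.C L) (pr L)) n x).symm)
  -- `p ∣ n` since the image of `x` has order `p`
  set y := (map (MonoidHom.id ((T.filter P hne hdir).G L)) (jC.f L) 2).hom x with hy
  have hy1 : n • y = 0 := by rw [hy, ← map_zsmul, ← hzx, hz0]
  have hy2 : p • y = 0 := by rw [hy, ← map_nsmul, hx, map_zero]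
  have hord : addOrderOf y = p := by
    have hdvd : addOrderOf y ∣ p := addOrderOf_dvd_of_nsmul_eq_zero hy2
    rcases (Nat.dvd_prime hp.out).1 hdvd with h | h
    · exact absurd (AddMonoid.addOrderOf_eq_one_iff.1 h) hx0
    · exact h
  have hpn : (p : ℤ) ∣ n := by
    rw [← hord]
    exact addOrderOf_dvd_iff_zsmul_eq_zero.2 hy1
  obtain ⟨c, rfl⟩ := hpn
  rw [hzx, mul_comm, mul_smul, natCast_zsmul, hx]
  exact zsmul_zero c

end Generic

/-! ## The statement for the tower of `S`-levels -/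

variable (p : ℕ) [hp : Fact p.Prime] (S : Finset Nat.Primes)

/-- **`LocInjInput` from one class**: it suffices to find, above every `S`-level `L`, an `S`-level
`L'` and a `p`-torsion class of `H²(G_{L'}, J_q(L'))` with nonzero image in `H²(G_{L'}, C_S(L'))`. -/
theorem locInjInput_of_exists (hpS : ExtCitation.pPrime p ∈ S)
    (h : ∀ (L₀ : Level) (h₀ : L₀.IsS S), HasMu p L₀ → ∀ (q : ↥S) (L : (towerS S L₀ h₀).ι),
      ∃ (L' : (towerS S L₀ h₀).ι) (_ : L ≤ L') (x : groupCohomology ((Jtow S L₀ h₀ q).C L') 2),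
        p • x = 0 ∧
        (map (MonoidHom.id ((towerS S L₀ h₀).G L')) ((jC S L₀ h₀ q).f L') 2).hom x ≠ 0) :
    LocInjInput p S := by
  intro L₀ h₀ hμ q L z hz hz0
  obtain ⟨L', hLL', x, hx, hx0⟩ := h L₀ h₀ hμ q L
  refine jC_inj_of_le (isSPred S L₀) (isSPred_nonempty h₀) (isSPred_directed S L₀)
    (decompFamily q.1 L₀) (jC S L₀ h₀ q)
    (Lq := (LqS S L₀ q).filter (isSPred S L₀) (isSPred_nonempty h₀) (isSPred_directed S L₀))
    (prS S L₀ h₀ q) (fun {_ _} h x => prS_comm S L₀ h₀ q h x) (prS_injective S L₀ h₀ q)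
    (prS_surjective S L₀ h₀ q) hLL' ?_ ?_ z hz hz0
  · exact Lqtow_infl_injective q.1 L₀ (i := L.1) (j := L'.1) hLL'
  · intro z' hz' hz'0
    exact jC_inj_of_exists (isSPred S L₀) (isSPred_nonempty h₀) (isSPred_directed S L₀)
      (decompFamily q.1 L₀) (jC S L₀ h₀ q)
      (Lq := (LqS S L₀ q).filter (isSPred S L₀) (isSPred_nonempty h₀) (isSPred_directed S L₀))
      (prS S L₀ h₀ q) (prS_injective S L₀ h₀ q) (prS_surjective S L₀ h₀ q)
      (pFundamentalLqtowS q.1 L₀ p S h₀ hpS) L' x hx hx0 z' hz' hz'0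

end

end Fermat.Agent.CFT.Bridge
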