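/-
P4 / Layer C5-LOC-INJ: `jC_* : H²(G_L, J_q(L)) → H²(G_L, C_S(L))` is injective on the `p`-torsion,
for every level `L` of the `S`-tower and every `q ∈ S` (`p ∈ S`, `p` odd): `locInjInput`.

Method: pass to a level `k ≥ L` containing `ζ_{p^(n+1)}` (inflation is injective on the `J`-side by
Shapiro + Hilbert 90 for the completions); at such a level the `p`-torsion of `H²(G_k, J_q(k))` is
cyclic (Shapiro + local fundamental classes) and the class `chiClass (J_q k) χ_n a₀`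
(`χ_n = (cyclotomic character)^(p-1)`, `a₀` = a suitable element of `ℚ_qˣ`) has a multiple of order
`p` whose image in `H²(G_k, C_S(k))` is nonzero, because the reciprocity character `psiQ p n` kills
the norms from the `n`-th cyclotomic layer (`Level.PsiQ_eq_one_of_relNormProd`) but not `a₀^(p^j)`.
-/
import Fermat.Agent.Lib.CFT.Bridge.PsiLevel
import Fermat.Agent.Lib.CFT.Bridge.CycClassesS
import Fermat.Agent.Lib.CFT.Bridge.PTDataFinal
import Fermat.Agent.Lib.CFT.Bridge.LocalTowerHur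
import Fermat.Agent.Lib.CFT.Bridge.LocalFields
import Fermat.Agent.Lib.CFT.Local.FrobRoots
import Fermat.Agent.Lib.CFT.Coh.ChiInj
import Fermat.Agent.Lib.CFT.Duality.LocFund

set_option autoImplicit false
set_option linter.style.haveILetI false
set_option linter.unusedSectionVars false
set_option linter.unusedVariables false

open CategoryTheory

namespace Fermat.Agent.CFT.Bridge

noncomputable section

open Global Duality Local ExtCitation Coh

/-! ## The decomposition group at `q ≠ p` acts on `μ_{p^∞}` through powers of `q` -/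

section Decomp

variable (p : ℕ) [hp : Fact p.Prime] (n : ℕ) (L : Level) (h : HasZeta p L n)
  (q : Nat.Primes) (hq : (q : ℕ) ≠ p)

/-- **the decomposition group at `q ≠ p` acts on `μ_{p^(n+1)}` through powers of `q`**
(no assumption on the ramification of `q` in `L`) -/
theorem cycloCharLevel_mem_zpowers_of_mem_decomp (d : decomp q L) :
    cycloCharLevel p n L h (d : L.G) ∈ Subgroup.zpowers (primeUnitMod p n q hq) := by
  have hζ := zetaL_spec p n L h
  have hz : IsPrimitiveRoot (Kv.emb (L.place (q : ℕ)) (zetaL p n L h)) (p ^ (n + 1)) :=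
    hζ.map_of_injective (Kv.emb (L.place (q : ℕ))).injective
  have hcop : Nat.Coprime (p ^ (n + 1)) (q : ℕ) :=
    Nat.Coprime.pow_left _ ((Nat.coprime_primes hp.out q.2).2 (Ne.symm hq))
  obtain ⟨i, hi⟩ := exists_smul_eq_pow_of_isPrimitiveRoot (q : ℕ) (Lw q L) (decomp q L)
    (finrank_fixedF_Lw q L) hcop hz d
  have h1 : d • Kv.emb (L.place (q : ℕ)) (zetaL p n L h) =
      Kv.emb (L.place (q : ℕ)) ((d : L.G) • zetaL p n L h) := rfl
  rw [h1, ← map_pow] at hi
  have h2 : (d : L.G) • zetaL p n L h = zetaL p n L h ^ ((q : ℕ) ^ i) :=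
    (Kv.emb (L.place (q : ℕ))).injective hi
  have h3 := natCast_eq_cycloCharLevel p n L h h2
  rw [Subgroup.mem_zpowers_iff]
  refine ⟨(i : ℤ), ?_⟩
  apply Units.ext
  rw [zpow_natCast, Units.val_pow_eq_pow_val, ← h3, primeUnitMod, ZMod.coe_unitOfCoprime]
  push_cast
  rfl

/-- the image of the decomposition group at `q ≠ p` under `psiLevel = χ^(p-1)` is contained in the
subgroup generated by `[q]^(p-1)` -/
theorem psiLevel_mem_zpowers_of_mem_decomp (d : decomp q L) :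
    psiLevel p n L h (d : L.G) ∈ Subgroup.zpowers ((primeUnitMod p n q hq) ^ (p - 1)) := by
  obtain ⟨i, hi⟩ := Subgroup.mem_zpowers_iff.1
    (cycloCharLevel_mem_zpowers_of_mem_decomp p n L h q hq d)
  rw [Subgroup.mem_zpowers_iff]
  refine ⟨i, ?_⟩
  rw [psiLevel_apply, ← hi, ← zpow_natCast, ← zpow_natCast, ← zpow_mul, ← zpow_mul, mul_comm]

/-- the order of `χ_n (D_q)` divides the order of `[q]^(p-1)` -/
theorem card_range_chiLevel_decomp_dvd (hp2 : p ≠ 2) :
    Nat.card ((chiLevel p hp2 n L h).comp (decomp q L).subtype).range ∣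
      orderOf ((primeUnitMod p n q hq) ^ (p - 1)) := by
  rw [← Nat.card_zpowers,
    ← Subgroup.card_map_of_injective (Zcyc p n).subtype_injective]
  apply Subgroup.card_dvd_of_le
  rintro _ ⟨_, ⟨d, rfl⟩, rfl⟩
  exact psiLevel_mem_zpowers_of_mem_decomp p n L h q hq d

end Decomp

/-! ## Shapiro's lemma for `J_q(L)` at a level of the `S`-tower -/

section Shapiro

variable (p : ℕ) [hp : Fact p.Prime] (S : Finset Nat.Primes) (L₀ : Level) (h₀ : L₀.IsS S)
  (q : ↥S) (k : (towerS S L₀ h₀).ι)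

/-- **Shapiro**: `H²(G_L, J_q(L)) ≃ H²(D_q(L), L_{w₀}ˣ)` -/
theorem shapiro_prS_bijective :
    Function.Bijective (shH (decomp q.1 k.1.1) ((Jtow S L₀ h₀ q).C k) ((LqS S L₀ q).C k.1)
      (prS S L₀ h₀ q k)) :=
  shH_bijective (decomp q.1 k.1.1) ((Jtow S L₀ h₀ q).C k) ((LqS S L₀ q).C k.1) (prS S L₀ h₀ q k)
    (prS_injective S L₀ h₀ q k) (prS_surjective S L₀ h₀ q k)

/-- the `p`-torsion of `H²(D_q(L), L_{w₀}ˣ)` is cyclic -/
theorem Lqtow_h2_cyclic (j : (towerLoc q.1 L₀).ι)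
    (x₁ x₂ : groupCohomology ((Lqtow q.1 L₀).C j) 2) (h₁ : p • x₁ = 0) (h₂ : p • x₂ = 0)
    (hne : x₁ ≠ 0) : ∃ m : ℕ, x₂ = m • x₁ :=
  exists_nsmul_eq_of_inv_injective p
    ((pFundamentalLqtow q.1 L₀ p).toPClassFormation.invCoh j)
    (fun x hx h => (pFundamentalLqtow q.1 L₀ p).toPClassFormation.invCoh_injective j 1 x
      (by rw [pow_one]; exact hx) h) x₁ x₂ h₁ h₂ hne

/-- the `p`-torsion of `H²(G_L, J_q(L))` is cyclic -/
theorem Jtow_h2_cyclic (z₁ z₂ : groupCohomology ((Jtow S L₀ h₀ q).C k) 2) (h₁ : p • z₁ = 0)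
    (h₂ : p • z₂ = 0) (hne : z₁ ≠ 0) : ∃ m : ℕ, z₂ = m • z₁ := by
  have hbij := shapiro_prS_bijective S L₀ h₀ q k
  set Sh := shH (decomp q.1 k.1.1) ((Jtow S L₀ h₀ q).C k) ((LqS S L₀ q).C k.1)
    (prS S L₀ h₀ q k) with hSh
  have hinj : Function.Injective Sh := hbij.1
  have e1 : p • Sh z₁ = 0 := (map_nsmul Sh p z₁).symm.trans ((congrArg Sh h₁).trans (map_zero Sh))
  have e2 : p • Sh z₂ = 0 := (map_nsmul Sh p z₂).symm.trans ((congrArg Sh h₂).trans (map_zero Sh))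
  obtain ⟨m, hm⟩ := Lqtow_h2_cyclic p S L₀ q k.1 (Sh z₁) (Sh z₂) e1 e2
    (fun h => hne (hinj (h.trans (map_zero Sh).symm)))
  exact ⟨m, hinj (hm.trans (map_nsmul Sh m z₁).symm)⟩

end Shapiro

/-! ## The invariant elements of `J_q(L)` coming from `ℚ_qˣ` -/

section LocElt

variable (S : Finset Nat.Primes) (q : Nat.Primes) (L : Level)

/-- the image of `x ∈ ℚ_qˣ` in `(ℚ_q ⊗ L)ˣ` -/
def locElt : ℚ_[(q : ℕ)]ˣ →* (SL (q : ℕ) L.field)ˣ :=
  (SL.unitsMap (q : ℕ) (algebraMap ℚ L.field)).comp (unitsOfQ (q : ℕ))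

theorem smul_locElt (g : L.G) (x : ℚ_[(q : ℕ)]ˣ) : g • locElt q L x = locElt q L x := by
  rw [locElt, MonoidHom.comp_apply, SL.smul_units_def, ← SL.unitsMap_comp,
    Subsingleton.elim ((MulSemiringAction.toRingHom L.G L.field g).comp (algebraMap ℚ L.field))
      (algebraMap ℚ L.field)]

/-- the idele of `ℚ` with component `x` at `q` -/
def locIdele : ℚ_[(q : ℕ)]ˣ →* FinIdele ℚ := (FinIdele.single q).comp (unitsOfQ (q : ℕ))

theorem mk_single_locElt (x : ℚ_[(q : ℕ)]ˣ) :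
    CS.mk S L.field (FinIdele.single q (locElt q L x)) =
      CS.map S (algebraMap ℚ L.field) (CS.mk S ℚ (locIdele q x)) := by
  rw [CS.map_mk, locIdele, MonoidHom.comp_apply, FinIdele.map_single]
  rfl

end LocElt

/-! ## Injectivity at a level containing `ζ_{p^(n+1)}` -/

section LevelInj

variable (p : ℕ) [hp : Fact p.Prime] (hp2 : p ≠ 2) (S : Finset Nat.Primes) (hpS : pPrimes p ∈ S)
  (L₀ : Level) (h₀ : L₀.IsS S) (q : ↥S) (k : (towerS S L₀ h₀).ι) (n : ℕ)
  (hk : HasZeta p k.1.1 n)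

include hpS in
/-- **injectivity of `jC_*` on the `p`-torsion at a level containing `ζ_{p^(n+1)}`**, given an
element `x₀ ∈ ℚ_qˣ` whose idele has `psiQ`-order `p^(j+1)` divisible by `|χ_n(D_q)|` -/
theorem jC_inj_at_level (x₀ : ℚ_[(q.1 : ℕ)]ˣ) (j : ℕ)
    (hord : orderOf (psiQ p n (locIdele q.1 x₀)) = p ^ (j + 1))
    (hD : Nat.card ((chiLevel p hp2 n k.1.1 hk).comp (decomp q.1 k.1.1).subtype).range ∣
      p ^ (j + 1))
    (z : groupCohomology ((Jtow S L₀ h₀ q).C k) 2) (hz : p • z = 0)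
    (h0 : (groupCohomology.map (MonoidHom.id ((towerS S L₀ h₀).G k))
      ((jC S L₀ h₀ q).f k) 2).hom z = 0) : z = 0 := by
  have hγ := mem_zpowers_ZcycGen p n
  let a₀ : ((Jtow S L₀ h₀ q).C k).V := Additive.ofMul (locElt q.1 k.1.1 x₀)
  have ha₀ : ∀ g, ((Jtow S L₀ h₀ q).C k).ρ g a₀ = a₀ := fun g =>
    congrArg Additive.ofMul (smul_locElt q.1 k.1.1 g x₀)
  refine eq_zero_of_map_eq_zero_of_chiClass (G := k.1.1.G) ((jC S L₀ h₀ q).f k)
    (chiLevel p hp2 n k.1.1 hk) (ZcycGen p n) hγ p n (card_Zcyc p hp2 n)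
    (fun P _ hP => Ctow_h1P p hp2 S L₀ h₀ ⟨_, hpS⟩ k P hP)
    (Jtow_h2_cyclic p S L₀ h₀ q k) a₀ ha₀ j ?_ ?_ z hz h0
  · -- `p^(j+1)` kills the class: Shapiro + the image of the decomposition group
    have hbij := shapiro_prS_bijective S L₀ h₀ q k
    set Sh := shH (decomp q.1 k.1.1) ((Jtow S L₀ h₀ q).C k) ((LqS S L₀ q).C k.1)
      (prS S L₀ h₀ q k) with hSh
    set u := chiClass ((Jtow S L₀ h₀ q).C k) (chiLevel p hp2 n k.1.1 hk) (ZcycGen p n) hγ
      (invOfFixed ((Jtow S L₀ h₀ q).C k) a₀ ha₀) with hu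
    have hb : ∀ d : decomp q.1 k.1.1,
        ((LqS S L₀ q).C k.1).ρ d ((prS S L₀ h₀ q k).hom a₀) = (prS S L₀ h₀ q k).hom a₀ :=
      fun d => (Rep.hom_comm_apply (prS S L₀ h₀ q k) d a₀).symm.trans
        (congrArg (prS S L₀ h₀ q k).hom (ha₀ (d : k.1.1.G)))
    have e1 : Sh u = chiClass ((LqS S L₀ q).C k.1)
        ((chiLevel p hp2 n k.1.1 hk).comp (decomp q.1 k.1.1).subtype) (ZcycGen p n) hγ
        (invOfFixed ((LqS S L₀ q).C k.1) ((prS S L₀ h₀ q k).hom a₀) hb) :=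
      map_chiClass ((Jtow S L₀ h₀ q).C k) (chiLevel p hp2 n k.1.1 hk) (ZcycGen p n) hγ
        (decomp q.1 k.1.1).subtype (prS S L₀ h₀ q k) (invOfFixed ((Jtow S L₀ h₀ q).C k) a₀ ha₀)
        (invOfFixed ((LqS S L₀ q).C k.1) ((prS S L₀ h₀ q k).hom a₀) hb) rfl
    have e2 := card_range_nsmul_chiClass ((LqS S L₀ q).C k.1)
      ((chiLevel p hp2 n k.1.1 hk).comp (decomp q.1 k.1.1).subtype) (ZcycGen p n) hγ
      (invOfFixed ((LqS S L₀ q).C k.1) ((prS S L₀ h₀ q k).hom a₀) hb)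
    obtain ⟨c, hc⟩ := hD
    have e3 : p ^ (j + 1) • Sh u = 0 := by
      rw [hc, mul_nsmul, e1]
      exact (congrArg (fun t => c • t) e2).trans (smul_zero c)
    exact hbij.1 ((map_nsmul Sh _ u).trans (e3.trans (map_zero Sh).symm))
  · -- `p^j • jC a₀` is not a norm from the `n`-th cyclotomic layer
    intro b hb heq
    set b' : CS S k.1.1.field := Additive.toMul (show Additive (CS S k.1.1.field) from b) with hb'def
    have hb' : ∀ g : k.1.1.G, psiLevel p n k.1.1 hk g = 1 → g • b' = b' := fun g hg =>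
      congrArg Additive.toMul
        (hb g (MonoidHom.mem_ker.2 ((chiLevel_eq_one_iff p hp2 n k.1.1 hk g).2 hg)))
    have h1 : ∑ᶠ t : k.1.1.G ⧸ (chiLevel p hp2 n k.1.1 hk).ker,
        Additive.ofMul ((t.out : k.1.1.G) • b') =
          Additive.ofMul ((CS.mk S k.1.1.field (FinIdele.single q.1 (locElt q.1 k.1.1 x₀))) ^
            p ^ j) := heq
    rw [finsum_ofMul_eq] at h1
    have h2 := Additive.ofMul.injective h1
    rw [ker_chiLevel p hp2] at h2
    have h3 := Level.PsiQ_eq_one_of_relNormProd p hp2 S hpS k.1.1 k.2 n hk b' hb'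
      ((CS.mk S ℚ (locIdele q.1 x₀)) ^ p ^ j) (by
        rw [map_pow, ← mk_single_locElt]
        exact h2.symm)
    rw [map_pow, PsiQ_mk] at h3
    have h4 := orderOf_dvd_of_pow_eq_one h3
    rw [hord] at h4
    have := (Nat.pow_dvd_pow_iff_le_right hp.out.one_lt).1 h4
    omega

end LevelInj

/-! ## The choice of the level `n` and of the element `x₀ ∈ ℚ_qˣ` -/

section Choice

variable (p : ℕ) [hp : Fact p.Prime] (hp2 : p ≠ 2)

/-- `[q]^(p-1) ≠ 1` in `(ℤ/p^(n+1))ˣ` as soon as `q^(p-1) < p^(n+1)` -/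
theorem primeUnitMod_pow_ne_one (n : ℕ) (q : Nat.Primes) (hq : (q : ℕ) ≠ p)
    (hn : (q : ℕ) ^ (p - 1) < p ^ (n + 1)) : (primeUnitMod p n q hq) ^ (p - 1) ≠ 1 := by
  intro h1
  have h2 := congrArg (fun u : (ZMod (p ^ (n + 1)))ˣ => (u : ZMod (p ^ (n + 1)))) h1
  simp only [Units.val_pow_eq_pow_val, Units.val_one, primeUnitMod, ZMod.coe_unitOfCoprime] at h2
  have h3 : (((q : ℕ) ^ (p - 1) : ℕ) : ZMod (p ^ (n + 1))) = ((1 : ℕ) : ZMod (p ^ (n + 1))) := by
    push_cast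
    exact h2
  rw [ZMod.natCast_eq_natCast_iff] at h3
  have hp1 : 1 < p ^ (n + 1) := Nat.one_lt_pow (Nat.succ_ne_zero n) hp.out.one_lt
  have h4 : (q : ℕ) ^ (p - 1) = 1 := Nat.ModEq.eq_of_lt_of_lt h3 hn hp1
  have h5 : 0 < p - 1 := by have := hp.out.two_le; omega
  have h6 : 1 < (q : ℕ) ^ (p - 1) := Nat.one_lt_pow h5.ne' q.2.one_lt
  omega

include hp2 in
/-- **the good element at `q ≠ p`**: the uniformiser `q`, at a level `n` with `q^(p-1) < p^(n+1)` -/
theorem exists_good_of_ne (q : Nat.Primes) (hq : (q : ℕ) ≠ p) :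
    ∃ (n : ℕ) (x₀ : ℚ_[(q : ℕ)]ˣ) (j : ℕ), orderOf (psiQ p n (locIdele q x₀)) = p ^ (j + 1) ∧
      ∀ (L' : Level) (hk : HasZeta p L' n),
        Nat.card ((chiLevel p hp2 n L' hk).comp (decomp q L').subtype).range ∣ p ^ (j + 1) := by
  set n : ℕ := (q : ℕ) ^ (p - 1) with hn
  have hlt : (q : ℕ) ^ (p - 1) < p ^ (n + 1) := by
    have := Nat.lt_pow_self hp.out.one_lt (n := n + 1)
    omega
  have hq0 : ((q : ℕ) : ℚ_[(q : ℕ)]) ≠ 0 := by exact_mod_cast q.2.ne_zero
  set w := (primeUnitMod p n q hq) ^ (p - 1) with hw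
  have hw1 : w ≠ 1 := primeUnitMod_pow_ne_one p n q hq hlt
  have hdvd : orderOf w ∣ p ^ n := orderOf_dvd_of_pow_eq_one (pow_pred_pow_eq_one n _)
  obtain ⟨j', -, hj'⟩ := (Nat.dvd_prime_pow hp.out).1 hdvd
  have hj'0 : j' ≠ 0 := by
    rintro rfl
    rw [pow_zero, orderOf_eq_one_iff] at hj'
    exact hw1 hj'
  obtain ⟨j, rfl⟩ := Nat.exists_eq_succ_of_ne_zero hj'0
  refine ⟨n, Units.mk0 ((q : ℕ) : ℚ_[(q : ℕ)]) hq0, j, ?_, fun L' hk => ?_⟩
  · have h1 : psiQ p n (locIdele q (Units.mk0 ((q : ℕ) : ℚ_[(q : ℕ)]) hq0)) = w⁻¹ := by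
      have h2 := psiQ_single_of_ne p n q hq (Units.mk0 ((q : ℕ) : ℚ_[(q : ℕ)]) hq0)
      rw [Units.val_mk0, Padic.valuation_p, zpow_one, inv_pow] at h2
      exact h2
    rw [h1, orderOf_inv, hj']
  · rw [← hj']
    exact card_range_chiLevel_decomp_dvd p n L' hk q hq hp2

include hp2 in
/-- **the good element at `p`**: the unit `1 + p`, at the level `n = 1` -/
theorem exists_good_self :
    ∃ (n : ℕ) (x₀ : ℚ_[((pPrimes p : Nat.Primes) : ℕ)]ˣ) (j : ℕ),
      orderOf (psiQ p n (locIdele (pPrimes p) x₀)) = p ^ (j + 1) ∧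
      ∀ (L' : Level) (hk : HasZeta p L' n),
        Nat.card ((chiLevel p hp2 n L' hk).comp (decomp (pPrimes p) L').subtype).range ∣
          p ^ (j + 1) := by
  refine ⟨1, u₀ p, 0, ?_, fun L' hk => ?_⟩
  · have h1 : locIdele (pPrimes p) (u₀ p) = aIdele p := rfl
    rw [h1, orderOf_psiQ_aIdele 1 hp2]
  · have h2 := Subgroup.card_subgroup_dvd_card
      ((chiLevel p hp2 1 L' hk).comp (decomp (pPrimes p) L').subtype).range
    rw [card_Zcyc p hp2 1] at h2
    exact h2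

include hp2 in
/-- the good element at any prime `q` -/
theorem exists_good (q : Nat.Primes) :
    ∃ (n : ℕ) (x₀ : ℚ_[(q : ℕ)]ˣ) (j : ℕ), orderOf (psiQ p n (locIdele q x₀)) = p ^ (j + 1) ∧
      ∀ (L' : Level) (hk : HasZeta p L' n),
        Nat.card ((chiLevel p hp2 n L' hk).comp (decomp q L').subtype).range ∣ p ^ (j + 1) := by
  by_cases hq : (q : ℕ) = p
  · obtain rfl : q = pPrimes p := Subtype.ext hq
    exact exists_good_self p hp2
  · exact exists_good_of_ne p hp2 q hq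

end Choice

/-! ## The reduction to a level containing `ζ_{p^(n+1)}` and the final statement -/

section Final

variable (p : ℕ) [hp : Fact p.Prime] (hp2 : p ≠ 2) (S : Finset Nat.Primes) (hpS : pPrimes p ∈ S)

include hp2 hpS in
/-- **(INJ) = C5-LOC-INJ**: `jC_*` is injective on the `p`-torsion of `H²(G_L, J_q(L))` -/
theorem jC_map_injective (L₀ : Level) (h₀ : L₀.IsS S) (q : ↥S) (L : (towerS S L₀ h₀).ι)
    (z : groupCohomology ((Jtow S L₀ h₀ q).C L) 2) (hz : p • z = 0)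
    (h0 : (groupCohomology.map (MonoidHom.id ((towerS S L₀ h₀).G L))
      ((jC S L₀ h₀ q).f L) 2).hom z = 0) : z = 0 := by
  obtain ⟨n, x₀, j, hord, hD⟩ := exists_good p hp2 q.1
  obtain ⟨k, hLk, hk⟩ := exists_hasZeta_towerS p S hpS L₀ h₀ L n
  -- inflate to the level `k`
  set zk := (groupCohomology.map ((towerS S L₀ h₀).π hLk) ((Jtow S L₀ h₀ q).φ hLk) 2).hom z
    with hzk
  have h1 : p • zk = 0 := by
    rw [hzk, ← map_nsmul, hz, map_zero]
  have h2 : (groupCohomology.map (MonoidHom.id ((towerS S L₀ h₀).G k))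
      ((jC S L₀ h₀ q).f k) 2).hom zk = 0 := by
    have e := congrArg (fun f => f.hom z)
      (map_jC_infl (isSPred S L₀) (isSPred_nonempty h₀) (isSPred_directed S L₀)
        (jC S L₀ h₀ q) hLk 2)
    have e' : (groupCohomology.map (MonoidHom.id ((towerS S L₀ h₀).G k))
        ((jC S L₀ h₀ q).f k) 2).hom zk =
        (groupCohomology.map ((towerS S L₀ h₀).π hLk) ((Ctow S L₀ h₀).φ hLk) 2).hom
          ((groupCohomology.map (MonoidHom.id ((towerS S L₀ h₀).G L))
            ((jC S L₀ h₀ q).f L) 2).hom z) := e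
    rw [e', h0, map_zero]
  have h3 : zk = 0 := jC_inj_at_level p hp2 S hpS L₀ h₀ q k n hk x₀ j hord (hD k.1.1 hk) zk h1 h2
  -- Shapiro and injectivity of the local inflation
  have e := congrArg (fun f => f.hom z)
    (map_pr_infl (isSPred S L₀) (isSPred_nonempty h₀) (isSPred_directed S L₀)
      (decompFamily q.1 L₀) (J := Jtow S L₀ h₀ q)
      (Lq := (Lqtow q.1 L₀).filter (isSPred S L₀) (isSPred_nonempty h₀) (isSPred_directed S L₀))
      (prS S L₀ h₀ q) (prS_comm S L₀ h₀ q) hLk 2)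
  have e' : (groupCohomology.map (decomp q.1 k.1.1).subtype (prS S L₀ h₀ q k) 2).hom zk =
      (groupCohomology.map ((towerLoc q.1 L₀).π (i := L.1) (j := k.1) hLk)
        ((Lqtow q.1 L₀).φ (i := L.1) (j := k.1) hLk) 2).hom
        ((groupCohomology.map (decomp q.1 L.1.1).subtype (prS S L₀ h₀ q L) 2).hom z) := e
  have e'' : (groupCohomology.map ((towerLoc q.1 L₀).π (i := L.1) (j := k.1) hLk)
        ((Lqtow q.1 L₀).φ (i := L.1) (j := k.1) hLk) 2).hom
        ((groupCohomology.map (decomp q.1 L.1.1).subtype (prS S L₀ h₀ q L) 2).hom z) = 0 :=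
    e'.symm.trans ((congrArg (fun t =>
      (groupCohomology.map (decomp q.1 k.1.1).subtype (prS S L₀ h₀ q k) 2).hom t) h3).trans
        (map_zero _))
  have h4 : (groupCohomology.map (decomp q.1 L.1.1).subtype (prS S L₀ h₀ q L) 2).hom z = 0 :=
    Lqtow_infl_injective q.1 L₀ (i := L.1) (j := k.1) hLk (e''.trans (map_zero _).symm)
  exact (shapiro_prS_bijective S L₀ h₀ q L).1 (h4.trans (map_zero _).symm)

include hp2 hpS in
/-- **the arithmetic input `LocInjInput`** of the Poitou–Tate data -/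
theorem locInjInput : LocInjInput p S :=
  fun L₀ h₀ _ q L z hz h0 => jC_map_injective p hp2 S hpS L₀ h₀ q L z hz h0

end Final

end

end Fermat.Agent.CFT.Bridge
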