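import Fermat.Agent.Lib.CFT.Bridge.DescendGen

/-!
# P4 / E-bridge: the Prelude local `continuousH2` at a prime `q` is the direct limit `Hloc M q 2`
-/

set_option autoImplicit false

open groupCohomology CategoryTheory ExtCitation

namespace Fermat.Agent.CFT

namespace Bridge

noncomputable section

variable {k : Type} [CommRing k] (M : Rep k GQ) (q : Nat.Primes)

/-- The local Galois group maps onto the decomposition group at each level. -/
def toDecomp (L : Level) : primeLocalGaloisGroup q →* decomp q L :=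
  ((L.proj).comp (primeLocalToGlobal q)).codRestrict (decomp q L)
    (fun g => ⟨primeLocalToGlobal q g, ⟨g, rfl⟩, rfl⟩)

lemma toDecomp_surjective (L : Level) : Function.Surjective (toDecomp q L) := by
  rintro ⟨x, g, ⟨g', rfl⟩, rfl⟩
  exact ⟨g', rfl⟩

lemma toDecomp_eq_iff (L : Level) (g g' : primeLocalGaloisGroup q) :
    toDecomp q L g = toDecomp q L g' ↔ primeLocalToGlobal q (g⁻¹ * g') ∈ L.N := by
  rw [Subtype.ext_iff]
  change L.proj (primeLocalToGlobal q g) = L.proj (primeLocalToGlobal q g') ↔ _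
  rw [map_mul, map_inv]
  exact QuotientGroup.eq

lemma decompMap_toDecomp {L L' : Level} (h : L ≤ L') (g : primeLocalGaloisGroup q) :
    decompMap q h (toDecomp q L' g) = toDecomp q L g := rfl

/-- The restriction of `M` to the local Galois group. -/
abbrev locRep : Rep k (primeLocalGaloisGroup q) := Rep.res (primeLocalToGlobal q) M

lemma locRep_ρ (L : Level) (h : TrivialOn M L) (g : primeLocalGaloisGroup q) :
    (locRep M q).ρ g = (atDecomp M q L h).ρ (toDecomp q L g) := rfl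

lemma isLevelConstant₁_pull (L : Level) {X : Type*} (c : decomp q L → X) :
    IsLevelConstant₁ (primeLocalToGlobal q) (Gen.pull₁ (toDecomp q L) c) := by
  refine ⟨L.toIntermediateField, inferInstance, fun g s hs => ?_⟩
  rw [Gen.pull₁_apply, Gen.pull₁_apply]
  congr 1
  rw [toDecomp_eq_iff]
  have : (g * s)⁻¹ * g = s⁻¹ := by group
  rw [this, map_inv]
  exact L.N.inv_mem hs

lemma isLevelConstant₂_pull (L : Level) {X : Type*} (z : decomp q L × decomp q L → X) :
    IsLevelConstant₂ (primeLocalToGlobal q) (Gen.pull₂ (toDecomp q L) z) := by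
  refine ⟨L.toIntermediateField, inferInstance, fun g g' s s' hs hs' => ?_⟩
  rw [Gen.pull₂_apply, Gen.pull₂_apply]
  have h1 : toDecomp q L (g * s) = toDecomp q L g := by
    rw [toDecomp_eq_iff]
    have : (g * s)⁻¹ * g = s⁻¹ := by group
    rw [this, map_inv]
    exact L.N.inv_mem hs
  have h2 : toDecomp q L (g' * s') = toDecomp q L g' := by
    rw [toDecomp_eq_iff]
    have : (g' * s')⁻¹ * g' = s'⁻¹ := by group
    rw [this, map_inv]
    exact L.N.inv_mem hs'
  rw [h1, h2]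

/-- Pull-back of local 2-cocycles. -/
def pullLocCocycles₂ (L : LevelA M) :
    cocycles₂ (atDecomp M q L.1 L.2) →ₗ[k]
      ↥(levelCocycles₂ (primeLocalToGlobal q) (locRep M q)) where
  toFun z := ⟨Gen.pull₂ (toDecomp q L.1) (z : decomp q L.1 × decomp q L.1 → M.V),
    ⟨Gen.pull₂_mem_cocycles₂ (toDecomp q L.1) (atDecomp M q L.1 L.2).ρ (locRep M q).ρ
      (locRep_ρ M q L.1 L.2) z.2, isLevelConstant₂_pull q L.1 _⟩⟩
  map_add' _ _ := rfl
  map_smul' _ _ := rfl

lemma pullLocCocycles₂_coboundary (L : LevelA M) (z : cocycles₂ (atDecomp M q L.1 L.2))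
    (hz : (z : decomp q L.1 × decomp q L.1 → M.V) ∈ coboundaries₂ (atDecomp M q L.1 L.2)) :
    continuousH2π (primeLocalToGlobal q) (locRep M q) (pullLocCocycles₂ M q L z) = 0 := by
  rw [continuousH2π_eq_zero_iff, mem_levelCoboundaries₂_iff]
  obtain ⟨c, hc⟩ := hz
  refine ⟨Gen.pull₁ (toDecomp q L.1) c, isLevelConstant₁_pull q L.1 c, ?_⟩
  have := Gen.d₁₂_pull₁ (toDecomp q L.1) (atDecomp M q L.1 L.2).ρ (locRep M q).ρ
    (locRep_ρ M q L.1 L.2) c
  refine this.trans ?_
  change Gen.pull₂ (toDecomp q L.1) ((d₁₂ (atDecomp M q L.1 L.2)).hom c)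
    = Gen.pull₂ (toDecomp q L.1) (z : decomp q L.1 × decomp q L.1 → M.V)
  rw [hc]

/-- The map `H²(D_q(F), M) → H²(ℚ_q, M)` (Prelude). -/
def pullLocH2 (L : LevelA M) :
    H2 (atDecomp M q L.1 L.2) →ₗ[k] continuousH2 (primeLocalToGlobal q) (locRep M q) :=
  H2lift _ ((continuousH2π (primeLocalToGlobal q) (locRep M q)).comp (pullLocCocycles₂ M q L))
    (fun z hz => pullLocCocycles₂_coboundary M q L z hz)

lemma pullLocH2_H2π (L : LevelA M) (z : cocycles₂ (atDecomp M q L.1 L.2)) :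
    pullLocH2 M q L ((H2π _).hom z)
      = continuousH2π (primeLocalToGlobal q) (locRep M q) (pullLocCocycles₂ M q L z) := by
  unfold pullLocH2
  rw [H2lift_H2π]
  rfl

lemma pullLocH2_infl {L L' : LevelA M} (h : L ≤ L') (x : H2 (atDecomp M q L.1 L.2)) :
    pullLocH2 M q L' (inflLoc M q 2 h L.2 L'.2 x) = pullLocH2 M q L x := by
  obtain ⟨z, rfl⟩ := H2π_surjective _ x
  have h1 : inflLoc M q 2 h L.2 L'.2 ((H2π _).hom z)
      = (H2π _).hom (mapCocycles₂ (decompMap q h) (inflLocHom M q h L.2 L'.2) z) :=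
    H2π_comp_map_apply (decompMap q h) (inflLocHom M q h L.2 L'.2) z
  rw [h1, pullLocH2_H2π, pullLocH2_H2π]
  rfl

open Classical in
/-- The comparison map `Hloc M q 2 → continuousH2 (local)`. -/
def compLocH2 : Hloc M q 2 →ₗ[k] continuousH2 (primeLocalToGlobal q) (locRep M q) :=
  Module.DirectLimit.lift k (LevelA M) (locSys M q 2) (locSysMap M q 2)
    (fun L => pullLocH2 M q L) (fun L L' h x => pullLocH2_infl M q h x)

open Classical in
lemma compLocH2_of (L : LevelA M) (x : H2 (atDecomp M q L.1 L.2)) :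
    compLocH2 M q (Hloc.of M q 2 L x) = pullLocH2 M q L x :=
  Module.DirectLimit.lift_of (R := k) (ι := LevelA M) (G := locSys M q 2)
    (f := locSysMap M q 2) (fun L => pullLocH2 M q L) (fun L L' h x => pullLocH2_infl M q h x) x

open Classical in
lemma Hloc.exists_of [Nonempty (LevelA M)] (n : ℕ) (x : Hloc M q n) :
    ∃ (L : LevelA M) (y : locSys M q n L), Hloc.of M q n L y = x :=
  Module.DirectLimit.exists_of (R := k) (ι := LevelA M) (G := locSys M q n)
    (f := locSysMap M q n) x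

/-- A level of `LevelA` above a given one and inside a given finite extension. -/
lemma exists_levelA_ge (L : LevelA M) (F : IntermediateField ℚ Qbar) [FiniteDimensional ℚ F] :
    ∃ L' : LevelA M, L ≤ L' ∧ L'.1.N ≤ F.fixingSubgroup := by
  obtain ⟨LF, hle⟩ := exists_level_N_le F
  refine ⟨⟨L.1 ⊔ LF, L.2.mono le_sup_left⟩, le_sup_left (a := L.1), ?_⟩
  exact (Level.N_anti (le_sup_right (a := L.1) (b := LF))).trans hle

lemma toDecomp_const_of_levelConstant₂ (L : Level) {X : Type*}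
    {f : primeLocalGaloisGroup q × primeLocalGaloisGroup q → X}
    {F : IntermediateField ℚ Qbar} (hL : L.N ≤ F.fixingSubgroup)
    (hconst : ∀ g g' s s' : primeLocalGaloisGroup q,
      primeLocalToGlobal q s ∈ F.fixingSubgroup → primeLocalToGlobal q s' ∈ F.fixingSubgroup →
      f (g * s, g' * s') = f (g, g'))
    (g₁ g₁' g₂ g₂' : primeLocalGaloisGroup q) (h1 : toDecomp q L g₁ = toDecomp q L g₁')
    (h2 : toDecomp q L g₂ = toDecomp q L g₂') : f (g₁, g₂) = f (g₁', g₂') := by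
  rw [toDecomp_eq_iff] at h1 h2
  have e1 : g₁' = g₁ * (g₁⁻¹ * g₁') := by group
  have e2 : g₂' = g₂ * (g₂⁻¹ * g₂') := by group
  rw [e1, e2]
  exact (hconst g₁ g₂ _ _ (hL h1) (hL h2)).symm

lemma toDecomp_const_of_levelConstant₁ (L : Level) {X : Type*}
    {c : primeLocalGaloisGroup q → X}
    {F : IntermediateField ℚ Qbar} (hL : L.N ≤ F.fixingSubgroup)
    (hconst : ∀ g s : primeLocalGaloisGroup q,
      primeLocalToGlobal q s ∈ F.fixingSubgroup → c (g * s) = c g)
    (g₁ g₁' : primeLocalGaloisGroup q) (h1 : toDecomp q L g₁ = toDecomp q L g₁') :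
    c g₁ = c g₁' := by
  rw [toDecomp_eq_iff] at h1
  have e1 : g₁' = g₁ * (g₁⁻¹ * g₁') := by group
  rw [e1]
  exact (hconst g₁ _ (hL h1)).symm

theorem compLocH2_surjective [Nonempty (LevelA M)] : Function.Surjective (compLocH2 M q) := by
  intro x
  obtain ⟨⟨f, hfc, F, hF, hconst⟩, rfl⟩ := Submodule.Quotient.mk_surjective _ x
  obtain ⟨L₀⟩ := ‹Nonempty (LevelA M)›
  haveI := hF
  obtain ⟨L, -, hL⟩ := exists_levelA_ge M L₀ F
  have hpull : Gen.pull₂ (toDecomp q L.1) (Gen.desc₂ (toDecomp q L.1) (toDecomp_surjective q L.1) f)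
      = f :=
    Gen.pull₂_desc₂ _ _ f (toDecomp_const_of_levelConstant₂ q L.1 hL hconst)
  have hz : Gen.desc₂ (toDecomp q L.1) (toDecomp_surjective q L.1) f
      ∈ cocycles₂ (atDecomp M q L.1 L.2) :=
    Gen.mem_cocycles₂_of_pull₂ (toDecomp q L.1) (toDecomp_surjective q L.1)
      (atDecomp M q L.1 L.2).ρ (locRep M q).ρ (locRep_ρ M q L.1 L.2) (hpull.symm ▸ hfc)
  refine ⟨Hloc.of M q 2 L ((H2π _).hom ⟨_, hz⟩), ?_⟩
  rw [compLocH2_of, pullLocH2_H2π]
  have h : pullLocCocycles₂ M q L ⟨_, hz⟩ = ⟨f, hfc, F, hF, hconst⟩ := Subtype.ext hpull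
  rw [h]
  rfl

theorem compLocH2_injective [Nonempty (LevelA M)] : Function.Injective (compLocH2 M q) := by
  rw [injective_iff_map_eq_zero]
  intro x hx
  obtain ⟨L, y, rfl⟩ := Hloc.exists_of M q 2 x
  obtain ⟨z, rfl⟩ := H2π_surjective _ y
  rw [compLocH2_of, pullLocH2_H2π, continuousH2π_eq_zero_iff, mem_levelCoboundaries₂_iff] at hx
  obtain ⟨c, ⟨F', hF', hconst⟩, hc⟩ := hx
  haveI := hF'
  obtain ⟨L', hLL', hL'⟩ := exists_levelA_ge M L F'
  have hpull : Gen.pull₁ (toDecomp q L'.1)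
      (Gen.desc₁ (toDecomp q L'.1) (toDecomp_surjective q L'.1) c) = c :=
    Gen.pull₁_desc₁ _ _ c (toDecomp_const_of_levelConstant₁ q L'.1 hL' hconst)
  have h1 : inflLoc M q 2 hLL' L.2 L'.2 ((H2π _).hom z)
      = (H2π _).hom (mapCocycles₂ (decompMap q hLL') (inflLocHom M q hLL' L.2 L'.2) z) :=
    H2π_comp_map_apply (decompMap q hLL') (inflLocHom M q hLL' L.2 L'.2) z
  have h2 : (H2π (atDecomp M q L'.1 L'.2)).hom
      (mapCocycles₂ (decompMap q hLL') (inflLocHom M q hLL' L.2 L'.2) z) = 0 := by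
    rw [H2π_eq_zero_iff]
    refine ⟨Gen.desc₁ (toDecomp q L'.1) (toDecomp_surjective q L'.1) c, ?_⟩
    apply Gen.pull₂_injective (toDecomp q L'.1) (toDecomp_surjective q L'.1)
    have e0 := Gen.d₁₂_pull₁ (toDecomp q L'.1) (atDecomp M q L'.1 L'.2).ρ (locRep M q).ρ
      (locRep_ρ M q L'.1 L'.2) (Gen.desc₁ (toDecomp q L'.1) (toDecomp_surjective q L'.1) c)
    refine e0.symm.trans ?_
    have e1 : (d₁₂ (locRep M q)).hom (Gen.pull₁ (toDecomp q L'.1)
        (Gen.desc₁ (toDecomp q L'.1) (toDecomp_surjective q L'.1) c))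
        = (d₁₂ (locRep M q)).hom c := congrArg _ hpull
    exact e1.trans (hc.trans rfl)
  rw [← Hloc.of_f M q 2 hLL']
  change Hloc.of M q 2 L' (inflLoc M q 2 hLL' L.2 L'.2 ((H2π _).hom z)) = 0
  rw [h1, h2, map_zero]

/-- **E-bridge, local `H²`**. -/
def compLocH2Equiv [Nonempty (LevelA M)] :
    Hloc M q 2 ≃ₗ[k] continuousH2 (primeLocalToGlobal q) (locRep M q) :=
  LinearEquiv.ofBijective (compLocH2 M q) ⟨compLocH2_injective M q, compLocH2_surjective M q⟩

end

end Bridge

end Fermat.Agent.CFT
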