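import Fermat.Agent.Lib.CFT.Bridge.Levels

/-!
# P4 / E-bridge: maps out of `H¹` and `H²` defined on cocycles
-/

set_option autoImplicit false

open groupCohomology CategoryTheory

namespace Fermat.Agent.CFT

namespace Bridge

noncomputable section

universe u

variable {k G : Type u} [CommRing k] [Group G] (A : Rep k G)

lemma H2π_surjective : Function.Surjective (H2π A).hom := by
  intro x
  induction x using H2_induction_on with
  | h z => exact ⟨z, rfl⟩

lemma H1π_surjective : Function.Surjective (H1π A).hom := by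
  intro x
  induction x using H1_induction_on with
  | h z => exact ⟨z, rfl⟩

variable {X : Type*} [AddCommGroup X] [Module k X]

/-- A linear map on 2-cocycles that kills coboundaries descends to `H²`. -/
def H2lift (f : cocycles₂ A →ₗ[k] X)
    (hf : ∀ z : cocycles₂ A, (z : G × G → A) ∈ coboundaries₂ A → f z = 0) : H2 A →ₗ[k] X :=
  (Submodule.liftQ (LinearMap.ker (H2π A).hom) f (fun z hz => by
      rw [LinearMap.mem_ker] at hz ⊢
      exact hf z ((H2π_eq_zero_iff z).mp hz))).comp
    (LinearMap.quotKerEquivOfSurjective (H2π A).hom (H2π_surjective A)).symm.toLinearMap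

@[simp] lemma H2lift_H2π (f : cocycles₂ A →ₗ[k] X)
    (hf : ∀ z : cocycles₂ A, (z : G × G → A) ∈ coboundaries₂ A → f z = 0) (z : cocycles₂ A) :
    H2lift A f hf ((H2π A).hom z) = f z := by
  unfold H2lift
  rw [LinearMap.comp_apply]
  have : (LinearMap.quotKerEquivOfSurjective (H2π A).hom (H2π_surjective A)).symm.toLinearMap
      ((H2π A).hom z) = Submodule.Quotient.mk z := by
    change (LinearMap.quotKerEquivOfSurjective (H2π A).hom (H2π_surjective A)).symm
      ((H2π A).hom z) = Submodule.Quotient.mk z
    rw [LinearEquiv.symm_apply_eq]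
    rfl
  rw [this]
  rfl

/-- A linear map on 1-cocycles that kills coboundaries descends to `H¹`. -/
def H1lift (f : cocycles₁ A →ₗ[k] X)
    (hf : ∀ z : cocycles₁ A, (z : G → A) ∈ coboundaries₁ A → f z = 0) : H1 A →ₗ[k] X :=
  (Submodule.liftQ (LinearMap.ker (H1π A).hom) f (fun z hz => by
      rw [LinearMap.mem_ker] at hz ⊢
      exact hf z ((H1π_eq_zero_iff z).mp hz))).comp
    (LinearMap.quotKerEquivOfSurjective (H1π A).hom (H1π_surjective A)).symm.toLinearMap

@[simp] lemma H1lift_H1π (f : cocycles₁ A →ₗ[k] X)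
    (hf : ∀ z : cocycles₁ A, (z : G → A) ∈ coboundaries₁ A → f z = 0) (z : cocycles₁ A) :
    H1lift A f hf ((H1π A).hom z) = f z := by
  unfold H1lift
  rw [LinearMap.comp_apply]
  have : (LinearMap.quotKerEquivOfSurjective (H1π A).hom (H1π_surjective A)).symm.toLinearMap
      ((H1π A).hom z) = Submodule.Quotient.mk z := by
    change (LinearMap.quotKerEquivOfSurjective (H1π A).hom (H1π_surjective A)).symm
      ((H1π A).hom z) = Submodule.Quotient.mk z
    rw [LinearEquiv.symm_apply_eq]
    rfl
  rw [this]
  rfl

end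

end Bridge

end Fermat.Agent.CFT
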