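/-
P4 / Layer C5-e (sub-lemmas of P5): the characters `psiLevel p i L` for varying `i`:
`psiLevel p i L` is the reduction of `psiLevel p m L` (`i ≤ m`), and
`psiLevel p i L g = 1 ↔ psiLevel p m L g ^ p^(m-i) = 1`.
-/
import Fermat.Agent.Lib.CFT.Bridge.PsiLevelDefs
import Fermat.Agent.Lib.CFT.Global.Recip.PsiCountAux

set_option autoImplicit false
set_option linter.unusedSectionVars false

namespace Fermat.Agent.CFT.Bridge

open Fermat.Agent.CFT.Global Duality

noncomputable section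

variable (p : ℕ) [hp : Fact p.Prime]

/-- `psiLevel p i L` is the reduction of `psiLevel p m L` for `i ≤ m` -/
theorem unitsMap_psiLevel {i m : ℕ} (hi : i ≤ m) (h : p ^ (i + 1) ∣ p ^ (m + 1)) (L : Level)
    (hL : HasZeta p L m) (g : L.G) :
    ZMod.unitsMap h (psiLevel p m L hL g) = psiLevel p i L (hL.of_le hi) g := by
  obtain ⟨d, rfl⟩ := Nat.exists_eq_add_of_le hi
  induction d with
  | zero =>
    have : ZMod.unitsMap h = MonoidHom.id _ := ZMod.unitsMap_self _
    rw [this]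
    rfl
  | succ d ih =>
    have h' : p ^ (i + 1) ∣ p ^ (i + d + 1) := pow_dvd_pow p (by omega)
    have h1 := ZMod.unitsMap_comp h' (pow_dvd_pow p (Nat.le_succ (i + d + 1)))
    have h2 : ZMod.unitsMap h = (ZMod.unitsMap h').comp (redUnits p (i + d)) := h1.symm
    rw [h2, MonoidHom.comp_apply]
    have h3 : redUnits p (i + d) (psiLevel p (i + (d + 1)) L hL g) =
        psiLevel p (i + d) L (HasZeta.anti hL) g := redUnits_psiLevel p (i + d) L hL g
    rw [h3]
    exact ih (Nat.le_add_right i d) h' (HasZeta.anti hL)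

variable {p}

/-- `psiLevel p i L g = 1` iff `psiLevel p m L g ^ p^(m-i) = 1` (`i ≤ m`) -/
theorem psiLevel_eq_one_iff_pow_eq_one (hp2 : p ≠ 2) {i m : ℕ} (hi : i ≤ m) (L : Level)
    (hL : HasZeta p L m) (g : L.G) :
    psiLevel p i L (hL.of_le hi) g = 1 ↔ psiLevel p m L hL g ^ p ^ (m - i) = 1 := by
  have h : p ^ (i + 1) ∣ p ^ (m + 1) := pow_dvd_pow p (Nat.succ_le_succ hi)
  rw [← unitsMap_psiLevel p hi h L hL g]
  exact unitsMap_eq_one_iff_pow_eq_one hp2 hi h (psiLevel_mem_zpowers hp2 m L hL g)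

/-- the kernel of `psiLevel p i L` in terms of `psiLevel p m L` -/
theorem mem_ker_psiLevel_iff_pow (hp2 : p ≠ 2) {i m : ℕ} (hi : i ≤ m) (L : Level)
    (hL : HasZeta p L m) (g : L.G) :
    g ∈ (psiLevel p i L (hL.of_le hi)).ker ↔ psiLevel p m L hL g ^ p ^ (m - i) = 1 := by
  rw [MonoidHom.mem_ker]
  exact psiLevel_eq_one_iff_pow_eq_one hp2 hi L hL g

/-- `ker psiLevel_m ≤ ker psiLevel_i` for `i ≤ m` -/
theorem ker_psiLevel_le (hp2 : p ≠ 2) {i m : ℕ} (hi : i ≤ m) (L : Level) (hL : HasZeta p L m) :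
    (psiLevel p m L hL).ker ≤ (psiLevel p i L (hL.of_le hi)).ker := by
  intro g hg
  rw [mem_ker_psiLevel_iff_pow hp2 hi L hL, MonoidHom.mem_ker.1 hg, one_pow]

end

end Fermat.Agent.CFT.Bridge
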