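import Fermat.Agent.Lib.CFT.Bridge.GlobalH2
import Fermat.Agent.Lib.CFT.Bridge.LocalH2
import Fermat.Agent.Lib.CFT.Bridge.Archimedean

/-!
# P4 / E-bridge: the Prelude `sha₂ S M` is the internal `ShaInt M S 2`
-/

set_option autoImplicit false

open groupCohomology CategoryTheory ExtCitation

namespace Fermat.Agent.CFT

namespace Bridge

noncomputable section

variable {k : Type} [CommRing k] (M : Rep k GQ) (S : Finset Nat.Primes)

open Classical in
lemma locMap_of (q : Nat.Primes) (n : ℕ) (L : LevelS M S) (x : globSys M S n L) :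
    locMap M S q n (HS.of M S n L x) = Hloc.of M q n L.toA (resDecomp M q n L.1 L.2.2 x) := by
  exact Module.DirectLimit.lift_of (R := k) (ι := LevelS M S) (G := globSys M S n)
    (f := globSysMap M S n) _ _ x

lemma nonempty_levelA_of_levelS [h : Nonempty (LevelS M S)] : Nonempty (LevelA M) :=
  h.map (LevelS.toA M)

/-- The localisation square in degree 2 commutes. -/
theorem compLocH2_locMap [Nonempty (LevelS M S)] (q : Nat.Primes) (x : HS M S 2) :
    compLocH2 M q (locMap M S q 2 x)
      = locRes₂S S M (primeLocalToGlobal q) (compH2 M S x) := by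
  obtain ⟨L, y, rfl⟩ := HS.exists_of M S 2 x
  obtain ⟨z, rfl⟩ := H2π_surjective _ y
  rw [locMap_of, compH2_of, pullH2_H2π]
  have h1 : resDecomp M q 2 L.1 L.2.2 ((H2π _).hom z)
      = (H2π _).hom (mapCocycles₂ (decomp q L.1).subtype (𝟙 (atDecomp M q L.1 L.2.2)) z) :=
    H2π_comp_map_apply (decomp q L.1).subtype (𝟙 (atDecomp M q L.1 L.2.2)) z
  rw [h1, compLocH2_of]
  exact (pullLocH2_H2π M q (LevelS.toA M L) _).trans rfl

theorem mem_sha₂_compH2_iff [Nonempty (LevelS M S)] (h2 : IsUnit (2 : k)) (x : HS M S 2) :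
    compH2 M S x ∈ sha₂ S M ↔ x ∈ ShaInt M S 2 := by
  haveI := nonempty_levelA_of_levelS M S
  unfold sha₂ ShaInt
  rw [LinearMap.mem_ker, LinearMap.mem_ker]
  constructor
  · intro h
    funext q
    have hq := congrFun h (Sum.inr q)
    rw [locTotal₂S_apply] at hq
    change locRes₂S S M (primeLocalToGlobal q.1) (compH2 M S x) = 0 at hq
    rw [← compLocH2_locMap] at hq
    exact (map_eq_zero_iff _ (compLocH2_injective M q.1)).mp hq
  · intro h
    funext v
    rcases v with v | q
    · exact continuousH2_archimedean_eq_zero h2 _ _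
    · have hq := congrFun h q
      change locMap M S q.1 2 x = 0 at hq
      rw [locTotal₂S_apply]
      change locRes₂S S M (primeLocalToGlobal q.1) (compH2 M S x) = 0
      rw [← compLocH2_locMap, hq, map_zero]

/-- **E-bridge, `Ш²`**: the Prelude `sha₂ S M` is the internal `ShaInt M S 2`. -/
def sha2Equiv [Nonempty (LevelS M S)] (h2 : IsUnit (2 : k)) : ShaInt M S 2 ≃ₗ[k] sha₂ S M :=
  LinearEquiv.ofBijective
    ((compH2 M S).restrict (p := ShaInt M S 2) (q := sha₂ S M)
      (fun x hx => (mem_sha₂_compH2_iff M S h2 x).mpr hx))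
    ⟨fun x y hxy => Subtype.ext (compH2_injective M S (congrArg Subtype.val hxy)),
     fun y => by
      obtain ⟨x, hx⟩ := compH2_surjective M S y.1
      refine ⟨⟨x, (mem_sha₂_compH2_iff M S h2 x).mp (hx ▸ y.2)⟩, Subtype.ext hx⟩⟩

end

end Bridge

end Fermat.Agent.CFT
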