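import Fermat.Agent.Lib.CFT.Bridge.H1Gen
import Fermat.Agent.Lib.CFT.Bridge.Sha2

/-!
# P4 / E-bridge: the Prelude `sha₁ S A` is the internal `ShaInt A S 1`
-/

set_option autoImplicit false

open groupCohomology CategoryTheory ExtCitation

namespace Fermat.Agent.CFT

namespace Bridge

noncomputable section

variable {k : Type} [CommRing k] (M : Rep k GQ) (S : Finset Nat.Primes)

/-- The identity of `M` as a morphism `Res (atLevel M L) ⟶ M` along the projection. -/
def projHom (L : Level) (h : TrivialOn M L) : Rep.res L.proj (atLevel M L h) ⟶ M :=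
  Rep.ofHom ⟨LinearMap.id, fun _ => rfl⟩

/-- Inflation `H¹(Gal(F/ℚ), M) → H¹(G_ℚ, M)`. -/
def pullH1 (L : Level) (h : TrivialOn M L) : H1 (atLevel M L h) →ₗ[k] H1 M :=
  (groupCohomology.map L.proj (projHom M L h) 1).hom

lemma pullH1_injective (L : Level) (h : TrivialOn M L) : Function.Injective (pullH1 M L h) :=
  Gen.map_one_injective L.proj L.proj_surjective _ _ (projHom M L h)
    ⟨fun _ _ h => h, fun x => ⟨x, rfl⟩⟩

lemma pullH1_H1π (L : Level) (h : TrivialOn M L) (z : cocycles₁ (atLevel M L h)) :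
    pullH1 M L h ((H1π _).hom z) = (H1π M).hom (mapCocycles₁ L.proj (projHom M L h) z) :=
  H1π_comp_map_apply L.proj (projHom M L h) z

lemma pullH1_infl {L L' : Level} (h : L ≤ L') (hL : TrivialOn M L) (hL' : TrivialOn M L')
    (x : H1 (atLevel M L hL)) : pullH1 M L' hL' (infl M 1 h hL hL' x) = pullH1 M L hL x := by
  have h1 := groupCohomology.map_comp (Level.map h) L'.proj (inflHom M h hL hL')
    (projHom M L' hL') 1
  have h2 : groupCohomology.map ((Level.map h).comp L'.proj)
      ((Rep.resFunctor L'.proj).map (inflHom M h hL hL') ≫ projHom M L' hL') 1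
      = groupCohomology.map L.proj (projHom M L hL) 1 :=
    groupCohomology.map_congr rfl rfl 1
  unfold pullH1 infl
  rw [← h2, h1]
  rfl

open Classical in
/-- The comparison map `HS M S 1 → H¹(G_ℚ, M)`. -/
def compH1 : HS M S 1 →ₗ[k] H1 M :=
  Module.DirectLimit.lift k (LevelS M S) (globSys M S 1) (globSysMap M S 1)
    (fun L => pullH1 M L.1 L.2.2) (fun L L' h x => pullH1_infl M h L.2.2 L'.2.2 x)

open Classical in
lemma compH1_of (L : LevelS M S) (x : H1 (atLevel M L.1 L.2.2)) :
    compH1 M S (HS.of M S 1 L x) = pullH1 M L.1 L.2.2 x :=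
  Module.DirectLimit.lift_of (R := k) (ι := LevelS M S) (G := globSys M S 1)
    (f := globSysMap M S 1) (fun L => pullH1 M L.1 L.2.2)
    (fun L L' h x => pullH1_infl M h L.2.2 L'.2.2 x) x

theorem compH1_injective [Nonempty (LevelS M S)] : Function.Injective (compH1 M S) := by
  rw [injective_iff_map_eq_zero]
  intro x hx
  obtain ⟨L, y, rfl⟩ := HS.exists_of M S 1 x
  rw [compH1_of] at hx
  have : y = 0 := pullH1_injective M L.1 L.2.2 (hx.trans (map_zero _).symm)
  rw [this, map_zero]

theorem compH1_mem [Nonempty (LevelS M S)] (x : HS M S 1) : compH1 M S x ∈ continuousH1S S M := by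
  obtain ⟨L, y, rfl⟩ := HS.exists_of M S 1 x
  obtain ⟨z, rfl⟩ := H1π_surjective _ y
  rw [compH1_of, pullH1_H1π, mem_continuousH1S_iff]
  exact ⟨_, isLevelConstantS₁_pull₁ S L.1 L.2.1 (z : L.1.G → M.V), rfl⟩

theorem exists_compH1_eq [Nonempty (LevelS M S)] {x : H1 M} (hx : x ∈ continuousH1S S M) :
    ∃ y : HS M S 1, compH1 M S y = x := by
  rw [mem_continuousH1S_iff] at hx
  obtain ⟨c, ⟨F, hF, hconst⟩, rfl⟩ := hx
  obtain ⟨L₀⟩ := ‹Nonempty (LevelS M S)›
  obtain ⟨L, -, hL⟩ := exists_levelS_ge M S L₀ hF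
  have hpull : pull₁ L.1 (desc₁ L.1 (c : GQ → M.V)) = c :=
    pull₁_desc₁ L.1 _ (fun g s hs => hconst g s (hL hs))
  have hz : desc₁ L.1 (c : GQ → M.V) ∈ cocycles₁ (atLevel M L.1 L.2.2) :=
    mem_cocycles₁_of_pull₁ M L.1 L.2.2 (hpull.symm ▸ c.2)
  refine ⟨HS.of M S 1 L ((H1π _).hom ⟨_, hz⟩), ?_⟩
  rw [compH1_of, pullH1_H1π]
  congr 1
  exact Subtype.ext hpull

/-! ## The local comparison -/

variable (q : Nat.Primes)

/-- The identity of `M` as a morphism along `toDecomp`. -/
def toDecompHom (L : Level) (h : TrivialOn M L) :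
    Rep.res (toDecomp q L) (atDecomp M q L h) ⟶ locRep M q :=
  Rep.ofHom ⟨LinearMap.id, fun _ => rfl⟩

/-- Inflation `H¹(D_q(F), M) → H¹(ℚ_q, M)`. -/
def pullLocH1 (L : Level) (h : TrivialOn M L) : H1 (atDecomp M q L h) →ₗ[k] H1 (locRep M q) :=
  (groupCohomology.map (toDecomp q L) (toDecompHom M q L h) 1).hom

lemma pullLocH1_injective (L : Level) (h : TrivialOn M L) :
    Function.Injective (pullLocH1 M q L h) :=
  Gen.map_one_injective (toDecomp q L) (toDecomp_surjective q L) _ _ (toDecompHom M q L h)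
    ⟨fun _ _ h => h, fun x => ⟨x, rfl⟩⟩

lemma pullLocH1_infl {L L' : Level} (h : L ≤ L') (hL : TrivialOn M L) (hL' : TrivialOn M L')
    (x : H1 (atDecomp M q L hL)) :
    pullLocH1 M q L' hL' (inflLoc M q 1 h hL hL' x) = pullLocH1 M q L hL x := by
  have h1 := groupCohomology.map_comp (decompMap q h) (toDecomp q L') (inflLocHom M q h hL hL')
    (toDecompHom M q L' hL') 1
  have h2 : groupCohomology.map ((decompMap q h).comp (toDecomp q L'))
      ((Rep.resFunctor (toDecomp q L')).map (inflLocHom M q h hL hL') ≫ toDecompHom M q L' hL') 1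
      = groupCohomology.map (toDecomp q L) (toDecompHom M q L hL) 1 :=
    groupCohomology.map_congr rfl rfl 1
  unfold pullLocH1 inflLoc
  rw [← h2, h1]
  rfl

open Classical in
/-- The comparison map `Hloc M q 1 → H¹(ℚ_q, M)` (abstract cohomology of the Prelude local group). -/
def compLocH1 : Hloc M q 1 →ₗ[k] H1 (locRep M q) :=
  Module.DirectLimit.lift k (LevelA M) (locSys M q 1) (locSysMap M q 1)
    (fun L => pullLocH1 M q L.1 L.2) (fun L L' h x => pullLocH1_infl M q h L.2 L'.2 x)

open Classical in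
lemma compLocH1_of (L : LevelA M) (x : H1 (atDecomp M q L.1 L.2)) :
    compLocH1 M q (Hloc.of M q 1 L x) = pullLocH1 M q L.1 L.2 x :=
  Module.DirectLimit.lift_of (R := k) (ι := LevelA M) (G := locSys M q 1)
    (f := locSysMap M q 1) (fun L => pullLocH1 M q L.1 L.2)
    (fun L L' h x => pullLocH1_infl M q h L.2 L'.2 x) x

theorem compLocH1_injective [Nonempty (LevelA M)] : Function.Injective (compLocH1 M q) := by
  rw [injective_iff_map_eq_zero]
  intro x hx
  obtain ⟨L, y, rfl⟩ := Hloc.exists_of M q 1 x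
  rw [compLocH1_of] at hx
  have : y = 0 := pullLocH1_injective M q L.1 L.2 (hx.trans (map_zero _).symm)
  rw [this, map_zero]

/-- The localisation square in degree 1 commutes. -/
theorem compLocH1_locMap [Nonempty (LevelS M S)] (x : HS M S 1) :
    compLocH1 M q (locMap M S q 1 x)
      = (groupCohomology.map (primeLocalToGlobal q) (𝟙 (locRep M q)) 1).hom (compH1 M S x) := by
  obtain ⟨L, y, rfl⟩ := HS.exists_of M S 1 x
  rw [locMap_of, compH1_of]
  have e := compLocH1_of M q (LevelS.toA M L) (resDecomp M q 1 L.1 L.2.2 y)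
  refine e.trans ?_
  have h1 := groupCohomology.map_comp (decomp q L.1).subtype (toDecomp q L.1)
    (𝟙 (atDecomp M q L.1 L.2.2)) (toDecompHom M q L.1 L.2.2) 1
  have h2 := groupCohomology.map_comp L.1.proj (primeLocalToGlobal q)
    (projHom M L.1 L.2.2) (𝟙 (locRep M q)) 1
  have h3 : groupCohomology.map ((decomp q L.1).subtype.comp (toDecomp q L.1))
      ((Rep.resFunctor (toDecomp q L.1)).map (𝟙 (atDecomp M q L.1 L.2.2))
        ≫ toDecompHom M q L.1 L.2.2) 1
      = groupCohomology.map (L.1.proj.comp (primeLocalToGlobal q))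
      ((Rep.resFunctor (primeLocalToGlobal q)).map (projHom M L.1 L.2.2) ≫ 𝟙 (locRep M q)) 1 :=
    groupCohomology.map_congr rfl rfl 1
  change (groupCohomology.map (decomp q L.1).subtype (𝟙 (atDecomp M q L.1 L.2.2)) 1 ≫
      groupCohomology.map (toDecomp q L.1) (toDecompHom M q L.1 L.2.2) 1).hom y
    = (groupCohomology.map L.1.proj (projHom M L.1 L.2.2) 1 ≫
      groupCohomology.map (primeLocalToGlobal q) (𝟙 (locRep M q)) 1).hom y
  rw [← h1, ← h2]
  exact congrArg (fun m => (ModuleCat.Hom.hom m) y) h3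

end

noncomputable section

variable {K : Type} [Field K] (A : Rep K GQ) (S : Finset Nat.Primes)

theorem mem_sha₁_compH1_iff [Nonempty (LevelS A S)] (h2 : IsUnit (2 : K)) (x : HS A S 1) :
    compH1 A S x ∈ sha₁ S A ↔ x ∈ ShaInt A S 1 := by
  haveI := nonempty_levelA_of_levelS A S
  unfold sha₁ ShaInt
  rw [Submodule.mem_inf, LinearMap.mem_ker, LinearMap.mem_ker]
  constructor
  · rintro ⟨-, h⟩
    funext q
    have hq := congrFun h (Sum.inr q)
    rw [locTotal_apply] at hq
    change (groupCohomology.map (primeLocalToGlobal q.1) (𝟙 (locRep A q.1)) 1).hom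
      (compH1 A S x) = 0 at hq
    rw [← compLocH1_locMap] at hq
    exact (map_eq_zero_iff _ (compLocH1_injective A q.1)).mp hq
  · intro h
    refine ⟨compH1_mem A S x, ?_⟩
    funext v
    rcases v with v | q
    · exact H1_archimedean_eq_zero h2 _ _
    · have hq := congrFun h q
      change locMap A S q.1 1 x = 0 at hq
      rw [locTotal_apply]
      change (groupCohomology.map (primeLocalToGlobal q.1) (𝟙 (locRep A q.1)) 1).hom
        (compH1 A S x) = 0
      rw [← compLocH1_locMap, hq, map_zero]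

/-- **E-bridge, `Ш¹`**: the Prelude `sha₁ S A` is the internal `ShaInt A S 1`. -/
def sha1Equiv [Nonempty (LevelS A S)] (h2 : IsUnit (2 : K)) : ShaInt A S 1 ≃ₗ[K] sha₁ S A :=
  LinearEquiv.ofBijective
    ((compH1 A S).restrict (p := ShaInt A S 1) (q := sha₁ S A)
      (fun x hx => (mem_sha₁_compH1_iff A S h2 x).mpr hx))
    ⟨fun x y hxy => Subtype.ext (compH1_injective A S (congrArg Subtype.val hxy)),
     fun y => by
      obtain ⟨x, hx⟩ := exists_compH1_eq A S y.2.1
      refine ⟨⟨x, (mem_sha₁_compH1_iff A S h2 x).mp (hx ▸ y.2)⟩, Subtype.ext hx⟩⟩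

end

end Bridge

end Fermat.Agent.CFT
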